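import Fermat.Agent.SupersingularDeRham.Lift
import Fermat.Agent.BDRCohomology.Filtration

/-!
# Series with coefficients in `ℚ_p` at elements of the kernel of `θ`

`B_dR⁺` is complete for the kernel of `θ`, so any series can be evaluated there; modulo a power of
the kernel the values at elements of `A_inf` have a uniform bound on the denominators.
-/

set_option autoImplicit false
set_option linter.unusedSectionVars false

noncomputable section

open Ideal Finset FA.TateSen FA.FontaineWintenberger FA.BDR FA.PadicHodge FA.BDRCoh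

namespace FA.SSDR

variable {σ : Type*} [Finite σ] {p : ℕ} [hp : Fact p.Prime]

local notation "C" => ℂ_[p]
local notation "G" => PadicAlgCl p ≃ₐ[ℚ_[p]] PadicAlgCl p

/-- Evaluation in `B_dR⁺`. -/
abbrev evB (z : σ → BPlus p) (hz : ∀ s, z s ∈ tIdeal p) : MvPowerSeries σ ℚ_[p] →+* BPlus p :=
  evz (tIdeal p) (qpHom p) z fun s => Ideal.le_radical (hz s)

theorem thetaPlus_evB {z : σ → BPlus p} (hz : ∀ s, z s ∈ tIdeal p)
    {f : MvPowerSeries σ ℚ_[p]} (hf : MvPowerSeries.constantCoeff f = 0) :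
    thetaPlus p (evB z hz f) = 0 :=
  RingHom.mem_ker.1 (evz_mem _ _ _ hz hf)

theorem evB_comp1 {z : σ → BPlus p} (hz : ∀ s, z s ∈ tIdeal p)
    {g : MvPowerSeries σ ℚ_[p]} (hg : MvPowerSeries.constantCoeff g = 0) {c : BPlus p}
    (hc : c ∈ tIdeal p) (e : evB z hz g = c) (f : PowerSeries ℚ_[p]) :
    evB z hz (comp1 hg f) = evB (fun _ : Unit => c) (fun _ => hc) f :=
  evz_subHom (tIdeal p) (qpHom p) _ (fun _ => hg) (fun _ : Unit => e.symm) f

/-- An integral series takes its value in `A_inf`. -/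
theorem evB_mapQ {a : σ → AInf p} (ha : ∀ s, a s ∈ (defIdeal p).radical)
    (hz : ∀ s, aInfB p (a s) ∈ tIdeal p) (f : MvPowerSeries σ ℤ_[p]) :
    evB (fun s => aInfB p (a s)) hz (mapQ f) = aInfB p (evA a ha f) :=
  (evz_map (tIdeal p) ((qpHom p).comp (coeQ p)) _ (coeQ p) (qpHom p) (fun _ => rfl) f).trans
    (map_evz (defIdeal p) (zpHom p) ha (tIdeal p) (aInfB p) (fun r => aInfB_zpHom r)
      (fun _ => rfl) _ f).symm

theorem smul_mem_tIdeal (g : G) {x : BPlus p} (hx : x ∈ tIdeal p) : g • x ∈ tIdeal p := by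
  rw [tIdeal, RingHom.mem_ker] at hx ⊢
  rw [smul_bplus_def, thetaPlus_bplusGal, hx, map_zero]

theorem smul_evB (g : G) {z : σ → BPlus p} (hz : ∀ s, z s ∈ tIdeal p)
    (f : MvPowerSeries σ ℚ_[p]) :
    g • evB z hz f = evB (fun s => g • z s) (fun s => smul_mem_tIdeal g (hz s)) f := by
  rw [smul_bplus_def]
  exact map_evz _ _ _ (tIdeal p) (bplusGal g)
    (fun c => by rw [← smul_bplus_def, smul_qpHom]) (fun _ => (smul_bplus_def g _).symm) _ f

theorem evB_congr {z y : σ → BPlus p} (hz : ∀ s, z s ∈ tIdeal p) (h : z = y)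
    (f : MvPowerSeries σ ℚ_[p]) : evB z hz f = evB y (h ▸ hz) f := by
  subst h
  rfl

theorem aInfB_mem_pow {a : AInf p} (ha : theta p a = 0) (n : ℕ) :
    mkQ p n (aInfB p a) ^ n = 0 := by
  rw [← map_pow, mkQ_eq_zero_iff]
  refine pow_dvd_pow_of_dvd (piMu_dvd_iff.2 ?_) n
  rw [thetaPlus_aInfB, ha]
  rfl

theorem bdd_qpHom (n : ℕ) (c : ℚ_[p]) : ∃ k, Bdd p n k (mkQ p n (qpHom p c)) := by
  obtain ⟨k, hk⟩ := exists_pow_lt_of_lt_one (show (0 : ℝ) < 1 / (‖c‖ + 1) by positivity)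
    (show ‖(p : ℚ_[p])‖ < 1 from Padic.norm_p_lt_one)
  have h : ‖(p : ℚ_[p]) ^ k * c‖ ≤ 1 := by
    rw [norm_mul, norm_pow]
    refine (mul_le_mul_of_nonneg_right hk.le (norm_nonneg c)).trans ?_
    rw [div_mul_eq_mul_div, one_mul, div_le_one (by positivity)]
    exact le_add_of_nonneg_right zero_le_one
  refine ⟨k, zpHom p ⟨_, h⟩, ?_⟩
  rw [imgA_zpHom, map_mul (qpHom p), map_mul (mkQ p n), map_pow (qpHom p), map_pow (mkQ p n),
    map_natCast (qpHom p), map_natCast (mkQ p n)]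

theorem bdd_zero (n : ℕ) : Bdd p n 0 (0 : BQuot p n) := ⟨0, by rw [mul_zero, map_zero]⟩

/-- **Uniform bound on the denominators of the values of a series.** -/
theorem exists_bdd_evB (f : PowerSeries ℚ_[p]) (n : ℕ) :
    ∃ c, ∀ (a : AInf p) (_ha : theta p a = 0) (hz : aInfB p a ∈ tIdeal p),
      Bdd p n c (mkQ p n (evB (fun _ : Unit => aInfB p a) (fun _ => hz) f)) := by
  have key : ∀ m, ∃ c, ∀ a : AInf p, Bdd p n c
      (∑ i ∈ range m, mkQ p n (qpHom p (PowerSeries.coeff i f)) * imgA p n (a ^ i)) := by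
    intro m
    induction m with
    | zero => exact ⟨0, fun a => by rw [range_zero, sum_empty]; exact bdd_zero n⟩
    | succ m ih =>
      obtain ⟨c, hc⟩ := ih
      obtain ⟨k, hk⟩ := bdd_qpHom n (PowerSeries.coeff m f)
      refine ⟨max c k, fun a => ?_⟩
      rw [sum_range_succ]
      exact ((hc a).mono (le_max_left _ _)).add
        ((hk.mul (bdd_imgA n (a ^ m))).mono (by simp))
  obtain ⟨c, hc⟩ := key n
  refine ⟨c, fun a ha hz => ?_⟩
  have hd : PowerSeries.X ^ n ∣
      f - ∑ i ∈ range n, PowerSeries.C (PowerSeries.coeff i f) * PowerSeries.X ^ i :=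
    PowerSeries.X_pow_dvd_iff.2 fun j hj => by
      simp only [map_sub, map_sum, PowerSeries.coeff_C_mul, PowerSeries.coeff_X_pow, mul_ite,
        mul_one, mul_zero, sum_ite_eq, mem_range, hj, if_true, sub_self]
  obtain ⟨g, hg⟩ := hd
  set e := evB (fun _ : Unit => aInfB p a) fun _ => hz
  have hX : e PowerSeries.X = aInfB p a := evz_X _ _ _ ()
  have hC : ∀ r, e (PowerSeries.C r) = qpHom p r := evz_C _ _ _
  have h := congrArg (fun x => mkQ p n (e x)) hg
  simp only [map_sub, map_sum, map_mul, map_pow, hX, hC, aInfB_mem_pow ha n, zero_mul,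
    sub_eq_zero] at h
  rw [h]
  simpa only [map_pow, mkQ_aInfB] using hc a

/-- Additive maps to `B_dR⁺` with uniformly bounded denominators are linear over `ℤ_p`. -/
theorem smul_of_bdd (F : (Fin 2 → ℤ_[p]) →+ BPlus p)
    (hF : ∀ n, ∃ c, ∀ v, Bdd p n c (mkQ p n (F v))) (a : ℤ_[p]) (v : Fin 2 → ℤ_[p]) :
    F (a • v) = qpHom p (a : ℚ_[p]) * F v := by
  refine sub_eq_zero.1 (eq_zero_of_dvd_completion _ _ bdrIdeal_eq fun n => ?_)
  change piBDR p ^ n ∣ _
  rw [← piMu_pow_dvd_iff, ← mkQ_eq_zero_iff]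
  obtain ⟨c, hc⟩ := hF n
  refine eq_zero_of_bdd (c := c) fun N => ?_
  obtain ⟨d, hd⟩ := Ideal.mem_span_singleton'.1 (PadicInt.appr_spec N a)
  have he : a = (a.appr N : ℤ_[p]) + (p : ℤ_[p]) ^ N * d := by linear_combination -hd
  obtain ⟨u, hu⟩ := hc (d • v)
  obtain ⟨w, hw⟩ := hc v
  refine ⟨u - zpHom p d * w, ?_⟩
  have hsplit : F (a • v) - qpHom p (a : ℚ_[p]) * F v =
      (p : BPlus p) ^ N * (F (d • v) - qpHom p (d : ℚ_[p]) * F v) := by
    have e1 : a • v = a.appr N • v + p ^ N • d • v := by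
      funext i
      show a * v i = a.appr N • v i + p ^ N • (d * v i)
      rw [nsmul_eq_mul, nsmul_eq_mul, Nat.cast_pow]
      linear_combination (v i) * he
    have e2 : qpHom p (a : ℚ_[p]) =
        (a.appr N : BPlus p) + (p : BPlus p) ^ N * qpHom p (d : ℚ_[p]) := by
      conv_lhs => rw [he]
      push_cast
      simp only [map_add, map_mul, map_pow, map_natCast]
    rw [e1, map_add, map_nsmul, map_nsmul, nsmul_eq_mul, nsmul_eq_mul, e2, Nat.cast_pow]
    ring
  rw [hsplit, map_sub (imgA p n), map_mul (imgA p n), ← hu, ← hw, imgA_zpHom]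
  simp only [map_mul, map_sub, map_pow, map_natCast]
  ring

end FA.SSDR
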