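import Fermat.Agent.SupersingularDeRham.Log
import Mathlib.NumberTheory.Basic

/-!
# The integral series behind the periods of the second kind

`ℓ (X + p Y) - ℓ X = p H (X, Y)` with `H` integral, hence `p ℓ (T ^ p) - ℓ ([p] T ^ p)` and the
defect of additivity of `ℓ (T ^ p)` are `p` times integral series.
-/

set_option autoImplicit false
set_option linter.unusedSectionVars false

noncomputable section

open Finsupp WeierstrassCurve

namespace FA.SSDR

variable {σ τ : Type*} [Finite σ] [Finite τ] {p : ℕ} [hp : Fact p.Prime]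
  (W : WeierstrassCurve ℤ_[p])

attribute [local irreducible] fgAdd wSeries

/-- The series `X + p Y`. -/
def addP : MvPowerSeries (Fin 2) ℤ_[p] :=
  MvPowerSeries.X 0 + MvPowerSeries.C (p : ℤ_[p]) * MvPowerSeries.X 1

theorem constantCoeff_addP :
    MvPowerSeries.constantCoeff (addP (p := p)) = 0 := by simp [addP]

theorem constantCoeff_X0 :
    MvPowerSeries.constantCoeff (MvPowerSeries.X 0 : MvPowerSeries (Fin 2) ℤ_[p]) = 0 :=
  MvPowerSeries.constantCoeff_X 0

/-- The term of the logarithm of degree `n`. -/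
theorem exists_logS_coeff_mul (n : ℕ) {a b : MvPowerSeries σ ℤ_[p]}
    (hab : MvPowerSeries.C (p : ℤ_[p]) ∣ a - b) :
    ∃ c : MvPowerSeries σ ℤ_[p], PowerSeries.coeff n (logS W) • (mapQ a ^ n - mapQ b ^ n) =
      (p : ℚ_[p]) • mapQ c := by
  rcases Nat.eq_zero_or_pos n with rfl | hn
  · exact ⟨0, by simp⟩
  obtain ⟨v, m, hm, rfl⟩ := Nat.exists_eq_pow_mul_and_not_dvd hn.ne' p hp.out.ne_one
  have hCp : (MvPowerSeries.C (p : ℤ_[p]) : MvPowerSeries σ ℤ_[p]) = (p : MvPowerSeries σ ℤ_[p]) :=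
    map_natCast _ p
  rw [hCp] at hab
  obtain ⟨c, hc⟩ := (dvd_sub_pow_of_dvd_sub hab v).trans
    (sub_dvd_pow_sub_pow (a ^ p ^ v) (b ^ p ^ v) m)
  rw [← pow_mul, ← pow_mul] at hc
  have hu : ‖(m : ℤ_[p])‖ = 1 := by
    rw [PadicInt.norm_natCast_eq_one_iff]
    exact hp.out.coprime_iff_not_dvd.2 hm
  set ω := PowerSeries.coeff (p ^ v * m - 1) (invDiff W)
  obtain ⟨u, hu'⟩ := (PadicInt.isUnit_iff.2 hu)
  refine ⟨MvPowerSeries.C (ω * (↑u⁻¹ : ℤ_[p])) * c, ?_⟩
  rw [logS, PowerSeries.coeff_mk, ← map_pow, ← map_pow, ← map_sub, hc, map_mul, map_pow,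
    map_natCast]
  rw [MvPowerSeries.smul_eq_C_mul, MvPowerSeries.smul_eq_C_mul, map_mul mapQ,
    MvPowerSeries.map_C, ← mul_assoc, ← mul_assoc]
  congr 1
  rw [← map_natCast (MvPowerSeries.C (σ := σ) (R := ℚ_[p])) p,
    ← map_pow, ← map_mul, ← map_mul]
  congr 1
  have hu2 : (coeQ p) (↑u⁻¹ : ℤ_[p]) = ((m : ℚ_[p]))⁻¹ := by
    refine eq_inv_of_mul_eq_one_left ?_
    rw [← map_natCast (coeQ p), ← map_mul, ← hu', Units.inv_mul, map_one]
  rw [map_mul, hu2]
  show (ω : ℚ_[p]) * ((p ^ v * m : ℕ) : ℚ_[p])⁻¹ * (p : ℚ_[p]) ^ (v + 1) =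
    (p : ℚ_[p]) * ((ω : ℚ_[p]) * ((m : ℚ_[p]))⁻¹)
  have hp0 : (p : ℚ_[p]) ^ v ≠ 0 := pow_ne_zero _ (Nat.cast_ne_zero.2 hp.out.ne_zero)
  push_cast
  rw [mul_inv, pow_succ]
  field_simp

/-- **`ℓ a ≡ ℓ b` modulo `p` for `a ≡ b`.** -/
theorem exists_logS_congr {a b : MvPowerSeries σ ℤ_[p]} (ha : MvPowerSeries.constantCoeff a = 0)
    (hb : MvPowerSeries.constantCoeff b = 0) (hab : MvPowerSeries.C (p : ℤ_[p]) ∣ a - b) :
    ∃ c : MvPowerSeries σ ℤ_[p],
      comp1 (constantCoeff_mapQ ha) (logS W) - comp1 (constantCoeff_mapQ hb) (logS W) =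
        (p : ℚ_[p]) • mapQ c := by
  have key : ∀ d : σ →₀ ℕ, ∃ x : ℤ_[p], MvPowerSeries.coeff d
      (comp1 (constantCoeff_mapQ ha) (logS W) - comp1 (constantCoeff_mapQ hb) (logS W)) =
        (p : ℚ_[p]) * x := by
    intro d
    have hfa := PowerSeries.coeff_subst_finite
      (PowerSeries.HasSubst.of_constantCoeff_zero (constantCoeff_mapQ ha)) (logS W) d
    have hfb := PowerSeries.coeff_subst_finite
      (PowerSeries.HasSubst.of_constantCoeff_zero (constantCoeff_mapQ hb)) (logS W) d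
    rw [map_sub, comp1_apply, comp1_apply,
      PowerSeries.coeff_subst (PowerSeries.HasSubst.of_constantCoeff_zero (constantCoeff_mapQ ha)),
      PowerSeries.coeff_subst (PowerSeries.HasSubst.of_constantCoeff_zero (constantCoeff_mapQ hb)),
      ← finsum_sub_distrib hfa hfb]
    refine finsum_induction (fun x => ∃ y : ℤ_[p], x = (p : ℚ_[p]) * y) ⟨0, by simp⟩
      (fun x y ⟨u, hu⟩ ⟨v, hv⟩ => ⟨u + v, by rw [hu, hv, PadicInt.coe_add, mul_add]⟩)
      fun n => ?_
    obtain ⟨c, hc⟩ := exists_logS_coeff_mul W n hab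
    refine ⟨MvPowerSeries.coeff d c, ?_⟩
    rw [← map_smul, ← map_smul, ← map_sub, ← smul_sub, hc, map_smul, smul_eq_mul,
      MvPowerSeries.coeff_map]
    rfl
  choose x hx using key
  refine ⟨fun d => x d, MvPowerSeries.ext fun d => ?_⟩
  rw [hx, map_smul, smul_eq_mul, MvPowerSeries.coeff_map]
  rfl

theorem addP_sub_dvd :
    MvPowerSeries.C (p : ℤ_[p]) ∣ addP (p := p) - MvPowerSeries.X 0 :=
  ⟨MvPowerSeries.X 1, by rw [addP, add_sub_cancel_left]⟩

/-- The series `H`. -/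
def bigH : MvPowerSeries (Fin 2) ℤ_[p] :=
  (exists_logS_congr W constantCoeff_addP constantCoeff_X0 addP_sub_dvd).choose

theorem bigH_spec :
    comp1 (constantCoeff_mapQ constantCoeff_addP) (logS W) -
        comp1 (constantCoeff_mapQ constantCoeff_X0) (logS W) = (p : ℚ_[p]) • mapQ (bigH W) :=
  (exists_logS_congr W constantCoeff_addP constantCoeff_X0 addP_sub_dvd).choose_spec

/-- The values of `H`. -/
theorem bigH_apply {f g : MvPowerSeries σ ℤ_[p]} (hf : MvPowerSeries.constantCoeff f = 0)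
    (hg : MvPowerSeries.constantCoeff g = 0) {k : MvPowerSeries σ ℤ_[p]}
    (hk : MvPowerSeries.constantCoeff k = 0) (e : k = f + MvPowerSeries.C (p : ℤ_[p]) * g) :
    comp1 (constantCoeff_mapQ hk) (logS W) - comp1 (constantCoeff_mapQ hf) (logS W) =
      (p : ℚ_[p]) • mapQ (subHom (constantCoeff_pair hf hg) (bigH W)) := by
  set Φ := subHom (constantCoeff_pair (constantCoeff_mapQ hf) (constantCoeff_mapQ hg))
  have h := congrArg Φ (bigH_spec W)
  have h1 : Φ (mapQ (addP (p := p))) = mapQ k := by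
    rw [e, addP]
    simp [Φ, subHom_X]
  have h2 : Φ (mapQ (MvPowerSeries.X 0)) = mapQ f := by
    simp [Φ, subHom_X]
  rw [map_sub, subHom_comp1 _ _ (constantCoeff_mapQ hk) h1,
    subHom_comp1 _ _ (constantCoeff_mapQ hf) h2, MvPowerSeries.smul_eq_C_mul, map_mul, subHom_C,
    ← MvPowerSeries.smul_eq_C_mul] at h
  rw [h, map_subHom (coeQ p) _ (g' := ![mapQ f, mapQ g]) (Fin.forall_fin_two.2 ⟨rfl, rfl⟩)
    (constantCoeff_pair (constantCoeff_mapQ hf) (constantCoeff_mapQ hg))]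

theorem pSmul_injective {f g : MvPowerSeries σ ℤ_[p]}
    (h : (p : ℚ_[p]) • mapQ f = (p : ℚ_[p]) • mapQ g) : f = g :=
  MvPowerSeries.ext fun d => Subtype.val_injective (by
    have := congrArg (MvPowerSeries.coeff d) h
    rw [map_smul, map_smul, smul_eq_mul, smul_eq_mul] at this
    simpa using mul_left_cancel₀ (Nat.cast_ne_zero.2 hp.out.ne_zero) this)

/-- `H (0, T)`. -/
def bigH₀ : PowerSeries ℤ_[p] :=
  subHom (constantCoeff_pair (f := (0 : MvPowerSeries Unit ℤ_[p])) (g := PowerSeries.X)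
    (map_zero _) (MvPowerSeries.constantCoeff_X ())) (bigH W)

theorem mapQ_bigH₀ : (p : ℚ_[p]) • mapQ (bigH₀ W) =
    PowerSeries.rescale (p : ℚ_[p]) (logS W) := by
  have hk : MvPowerSeries.constantCoeff
      (MvPowerSeries.C (p : ℤ_[p]) * PowerSeries.X : MvPowerSeries Unit ℤ_[p]) = 0 := by
    show MvPowerSeries.constantCoeff (MvPowerSeries.C (p : ℤ_[p]) * MvPowerSeries.X ()) = 0
    simp
  have h := bigH_apply W (σ := Unit) (f := 0) (g := PowerSeries.X) (map_zero _)
    (MvPowerSeries.constantCoeff_X ()) hk (zero_add _).symm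
  rw [bigH₀, ← h]
  have h0 : comp1 (constantCoeff_mapQ (map_zero (MvPowerSeries.constantCoeff (σ := Unit)
      (R := ℤ_[p])))) (logS W) = 0 := by
    rw [comp1_congr _ (map_zero mapQ), comp1_apply]
    exact MvPowerSeries.subst_zero_of_constantCoeff_zero (constantCoeff_logS W)
  rw [h0, sub_zero, PowerSeries.rescale_eq_subst, comp1_apply]
  congr 1
  rw [map_mul, MvPowerSeries.map_C, PowerSeries.X, MvPowerSeries.map_X, map_natCast,
    ← MvPowerSeries.smul_eq_C_mul]
  rfl

theorem coeff_bigH₀ :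
    PowerSeries.constantCoeff (bigH₀ W) = 0 ∧ PowerSeries.coeff 1 (bigH₀ W) = 1 := by
  have h := mapQ_bigH₀ W
  have key : ∀ n, (p : ℚ_[p]) * ((PowerSeries.coeff n (bigH₀ W) : ℤ_[p]) : ℚ_[p]) =
      (p : ℚ_[p]) ^ n * PowerSeries.coeff n (logS W) := fun n => by
    have := congrArg (PowerSeries.coeff n) h
    rw [map_smul, smul_eq_mul, PowerSeries.coeff_rescale] at this
    exact this
  have hp0 : (p : ℚ_[p]) ≠ 0 := Nat.cast_ne_zero.2 hp.out.ne_zero
  refine ⟨Subtype.val_injective ?_, Subtype.val_injective ?_⟩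
  · have := key 0
    rw [pow_zero, one_mul, PowerSeries.coeff_zero_eq_constantCoeff_apply,
      PowerSeries.coeff_zero_eq_constantCoeff_apply, constantCoeff_logS] at this
    simpa [hp0] using this
  · have := key 1
    rw [pow_one, coeff_one_logS, mul_one] at this
    simpa [hp0] using this

theorem constantCoeff_pow_p {f : MvPowerSeries σ ℤ_[p]}
    (hf : MvPowerSeries.constantCoeff f = 0) : MvPowerSeries.constantCoeff (f ^ p) = 0 := by
  rw [map_pow, hf, zero_pow hp.out.ne_zero]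

theorem constantCoeff_of_congr {f c : MvPowerSeries σ ℤ_[p]}
    (hf : MvPowerSeries.constantCoeff f = 0)
    (h : subHom (constantCoeff_powVars (R := ℤ_[p]) hp.out.ne_zero) f =
      f ^ p + MvPowerSeries.C (p : ℤ_[p]) * c) : MvPowerSeries.constantCoeff c = 0 := by
  have h1 := congrArg MvPowerSeries.constantCoeff h
  rw [constantCoeff_subHom, hf, map_add, constantCoeff_pow_p hf, zero_add, map_mul,
    MvPowerSeries.constantCoeff_C] at h1
  exact (mul_eq_zero.1 h1.symm).resolve_left (Nat.cast_ne_zero.2 hp.out.ne_zero)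

/-- `([p] (T ^ p) - [p] (T) ^ p) / p`. -/
def mulPDefect : PowerSeries ℤ_[p] := (exists_pow_congr (p := p) (σ := Unit) (mulN W p)).choose

theorem mulPDefect_spec :
    subHom (constantCoeff_powVars (σ := Unit) (R := ℤ_[p]) hp.out.ne_zero) (mulN W p) =
      mulN W p ^ p + MvPowerSeries.C (p : ℤ_[p]) * mulPDefect W :=
  (exists_pow_congr (p := p) (σ := Unit) (mulN W p)).choose_spec

theorem constantCoeff_mulPDefect : MvPowerSeries.constantCoeff (mulPDefect W) = 0 :=
  constantCoeff_of_congr (constantCoeff_mulN W p) (mulPDefect_spec W)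

/-- The integral series `h`: `p ℓ (T ^ p) - ℓ ([p] T ^ p) = p h`. -/
def hSer : PowerSeries ℤ_[p] :=
  subHom (constantCoeff_pair (constantCoeff_pow_p (constantCoeff_mulN W p))
    (constantCoeff_mulPDefect W)) (bigH W)

theorem constantCoeff_powX :
    MvPowerSeries.constantCoeff ((PowerSeries.X : PowerSeries ℤ_[p]) ^ p : PowerSeries ℤ_[p]) = 0 :=
  constantCoeff_pow_p (σ := Unit) (MvPowerSeries.constantCoeff_X ())

theorem hSer_spec (hΔ : W.Δ ≠ 0) :
    (p : PowerSeries ℚ_[p]) * comp1 (constantCoeff_mapQ (constantCoeff_powX (p := p))) (logS W) -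
      comp1 (constantCoeff_mapQ (constantCoeff_pow_p (constantCoeff_mulN W p))) (logS W) =
      (p : ℚ_[p]) • mapQ (hSer W) := by
  have e : comp1 (constantCoeff_powX (p := p)) (mulN W p) =
      mulN W p ^ p + MvPowerSeries.C (p : ℤ_[p]) * mulPDefect W := mulPDefect_spec W
  rw [hSer, ← bigH_apply W (constantCoeff_pow_p (constantCoeff_mulN W p))
    (constantCoeff_mulPDefect W) (constantCoeff_comp1_mulN W constantCoeff_powX p) e,
    logS_comp1_mulN W hΔ]

/-- `(F (X ^ p, Y ^ p) - F ^ p) / p`. -/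
def addDefect : MvPowerSeries (Fin 2) ℤ_[p] := (exists_pow_congr (p := p) (fgAdd W)).choose

theorem addDefect_spec :
    subHom (constantCoeff_powVars (σ := Fin 2) (R := ℤ_[p]) hp.out.ne_zero) (fgAdd W) =
      fgAdd W ^ p + MvPowerSeries.C (p : ℤ_[p]) * addDefect W :=
  (exists_pow_congr (p := p) (fgAdd W)).choose_spec

theorem constantCoeff_addDefect : MvPowerSeries.constantCoeff (addDefect W) = 0 :=
  constantCoeff_of_congr (constantCoeff_fgAdd W) (addDefect_spec W)

/-- The integral series `e`: `ℓ (F ^ p) - ℓ (X ^ p) - ℓ (Y ^ p) = p e`. -/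
def eSer : MvPowerSeries (Fin 2) ℤ_[p] :=
  -subHom (constantCoeff_pair (constantCoeff_pow_p (constantCoeff_fgAdd W))
    (constantCoeff_addDefect W)) (bigH W)

theorem eSer_spec (hΔ : W.Δ ≠ 0) :
    comp1 (constantCoeff_mapQ (constantCoeff_pow_p (constantCoeff_fgAdd W))) (logS W) -
      comp1 (constantCoeff_mapQ (constantCoeff_pow_p
        (MvPowerSeries.constantCoeff_X (0 : Fin 2) (R := ℤ_[p])))) (logS W) -
      comp1 (constantCoeff_mapQ (constantCoeff_pow_p
        (MvPowerSeries.constantCoeff_X (1 : Fin 2) (R := ℤ_[p])))) (logS W) =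
      (p : ℚ_[p]) • mapQ (eSer W) := by
  have e : fAdd W (constantCoeff_pow_p (MvPowerSeries.constantCoeff_X (0 : Fin 2) (R := ℤ_[p])))
      (constantCoeff_pow_p (MvPowerSeries.constantCoeff_X (1 : Fin 2) (R := ℤ_[p]))) =
      fgAdd W ^ p + MvPowerSeries.C (p : ℤ_[p]) * addDefect W := by
    have hv : (![MvPowerSeries.X 0 ^ p, MvPowerSeries.X 1 ^ p] :
        Fin 2 → MvPowerSeries (Fin 2) ℤ_[p]) = powVars (Fin 2) ℤ_[p] p :=
      funext (Fin.forall_fin_two.2 ⟨rfl, rfl⟩)
    rw [fAdd, ← addDefect_spec, subHom_apply, subHom_apply, hv]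
  have h := bigH_apply W (constantCoeff_pow_p (constantCoeff_fgAdd W))
    (constantCoeff_addDefect W) (constantCoeff_fAdd W _ _) e
  rw [logS_fAdd W hΔ] at h
  rw [eSer, map_neg mapQ, smul_neg, ← h]
  ring

/-- Substitution into `ℓ (f ^ p)`. -/
theorem comp1_logS_pow {h : σ → MvPowerSeries τ ℤ_[p]}
    (hh : ∀ s, MvPowerSeries.constantCoeff (h s) = 0) {k : σ → MvPowerSeries τ ℚ_[p]}
    (hk : ∀ s, MvPowerSeries.constantCoeff (k s) = 0) (hhk : ∀ s, mapQ (h s) = k s)
    {f : MvPowerSeries σ ℤ_[p]} (hf : MvPowerSeries.constantCoeff f = 0)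
    {g : MvPowerSeries τ ℤ_[p]} (hg : MvPowerSeries.constantCoeff g = 0) (e : subHom hh f = g) :
    subHom hk (comp1 (constantCoeff_mapQ (constantCoeff_pow_p hf)) (logS W)) =
      comp1 (constantCoeff_mapQ (constantCoeff_pow_p hg)) (logS W) :=
  subHom_comp1 _ hk (constantCoeff_mapQ (constantCoeff_pow_p hg)) (by
    rw [← e, map_pow, map_pow, map_pow, map_subHom (coeQ p) hh hhk hk]) _

/-- **The defect of additivity of `h`.** -/
theorem hSer_fgAdd (hΔ : W.Δ ≠ 0) :
    comp1 (constantCoeff_fgAdd W) (hSer W) -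
      comp1 (MvPowerSeries.constantCoeff_X (0 : Fin 2)) (hSer W) -
      comp1 (MvPowerSeries.constantCoeff_X (1 : Fin 2)) (hSer W) =
    (p : MvPowerSeries (Fin 2) ℤ_[p]) * eSer W -
      subHom (constantCoeff_pair
        (constantCoeff_comp1_mulN W (MvPowerSeries.constantCoeff_X (0 : Fin 2)) p)
        (constantCoeff_comp1_mulN W (MvPowerSeries.constantCoeff_X (1 : Fin 2)) p)) (eSer W) := by
  have hX0 := MvPowerSeries.constantCoeff_X (0 : Fin 2) (R := ℤ_[p])
  have hX1 := MvPowerSeries.constantCoeff_X (1 : Fin 2) (R := ℤ_[p])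
  set m0 := constantCoeff_comp1_mulN W hX0 p
  set m1 := constantCoeff_comp1_mulN W hX1 p
  set mF := constantCoeff_comp1_mulN W (constantCoeff_fgAdd W) p
  refine pSmul_injective ?_
  simp only [map_sub, smul_sub, map_mul, map_natCast]
  -- the three values of `h`
  have hh : ∀ {g : MvPowerSeries (Fin 2) ℤ_[p]} (hg : MvPowerSeries.constantCoeff g = 0),
      (p : ℚ_[p]) • mapQ (comp1 hg (hSer W)) =
        (p : MvPowerSeries (Fin 2) ℚ_[p]) *
            comp1 (constantCoeff_mapQ (constantCoeff_pow_p hg)) (logS W) -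
          comp1 (constantCoeff_mapQ (constantCoeff_pow_p (constantCoeff_comp1_mulN W hg p)))
            (logS W) := by
    intro g hg
    have h := congrArg (subHom (g := fun _ : Unit => mapQ g) fun _ => constantCoeff_mapQ hg)
      (hSer_spec W hΔ)
    rw [map_sub, map_mul, map_natCast, MvPowerSeries.smul_eq_C_mul, map_mul, subHom_C,
      ← MvPowerSeries.smul_eq_C_mul,
      comp1_logS_pow W (fun _ : Unit => hg) _ (fun _ => rfl) (constantCoeff_mulN W p)
        (constantCoeff_comp1_mulN W hg p) rfl,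
      comp1_logS_pow W (fun _ : Unit => hg) _ (fun _ => rfl) (f := PowerSeries.X)
        (MvPowerSeries.constantCoeff_X ()) hg
        (subHom_X _ ())] at h
    rw [h, comp1, map_subHom (coeQ p) _ (fun _ => rfl)]
  -- the value of `e` at the multiples
  have he := congrArg (subHom (constantCoeff_pair (constantCoeff_mapQ m0) (constantCoeff_mapQ m1)))
    (eSer_spec W hΔ)
  have hv : ∀ i, mapQ ((![comp1 hX0 (mulN W p), comp1 hX1 (mulN W p)] :
      Fin 2 → MvPowerSeries (Fin 2) ℤ_[p]) i) =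
      ![mapQ (comp1 hX0 (mulN W p)), mapQ (comp1 hX1 (mulN W p))] i :=
    Fin.forall_fin_two.2 ⟨rfl, rfl⟩
  have eF : subHom (constantCoeff_pair m0 m1) (fgAdd W) =
      comp1 (constantCoeff_fgAdd W) (mulN W p) := by
    have h1 := comp1_mulN_fAdd W hΔ hX0 hX1 p
    simp only [fAdd] at h1
    rw [← h1]
    exact comp1_congr _ (subHom_pair_self _ _) _
  rw [map_sub, map_sub, MvPowerSeries.smul_eq_C_mul, map_mul, subHom_C,
    ← MvPowerSeries.smul_eq_C_mul] at he
  rw [comp1_logS_pow W (constantCoeff_pair m0 m1) _ hv (constantCoeff_fgAdd W) mF eF,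
    comp1_logS_pow W (constantCoeff_pair m0 m1) _ hv hX0 m0 (subHom_X _ 0),
    comp1_logS_pow W (constantCoeff_pair m0 m1) _ hv hX1 m1 (subHom_X _ 1),
    ← map_subHom (coeQ p) (constantCoeff_pair m0 m1) hv] at he
  rw [hh, hh, hh, ← he, ← mul_smul_comm, ← eSer_spec W hΔ]
  ring

end FA.SSDR
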