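import Fermat.Agent.SupersingularDeRham.Systems
import Fermat.Agent.SupersingularDeRham.BEval
import Fermat.Agent.SupersingularDeRham.Integral

/-!
# The periods of the first and of the second kind

For a system `ζ` the period of the first kind is `ℓ (ζ₀)`, and that of the second kind is
`ℓ (ζ₀ ^ p) + p Σ p ^ n h (ζ_{n + 1})`. Both are additive and commute with Galois.
-/

set_option autoImplicit false
set_option linter.unusedSectionVars false
set_option linter.style.haveILetI false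

noncomputable section

open Ideal Finset WeierstrassCurve FA.TateSen FA.BDR FA.BDRCoh FA.PadicHodge FA.Frob FA.Local
  FA.RT.Tate
open scoped Matrix

namespace FA.SSDR

attribute [local irreducible] fgAdd wSeries mulN logS hSer eSer

variable {p : ℕ} [hp : Fact p.Prime] {W : WeierstrassCurve ℤ} [(ratCurve W).IsElliptic]
  (hs : IsSupersingularAt p W) (B : TateBasis p W)

local notation "G" => PadicAlgCl p ≃ₐ[ℚ_[p]] PadicAlgCl p

include hs in
theorem wZp_Δ_ne_zero_of : (wZp p W).Δ ≠ 0 := wZp_Δ_ne_zero hs.Δ_ne_zero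

/-- The lift at level zero in `B_dR⁺`. -/
def zetaB (v : Fin 2 → ℤ_[p]) : BPlus p := aInfB p (zeta hs B v 0)

theorem zetaB_mem (v : Fin 2 → ℤ_[p]) : zetaB hs B v ∈ tIdeal p :=
  aInfB_mem (theta_zeta_zero hs B v)

theorem theta_zeta_zero_pow (v : Fin 2 → ℤ_[p]) : theta p (zeta hs B v 0 ^ p) = 0 := by
  rw [map_pow, theta_zeta_zero, zero_pow hp.out.ne_zero]

theorem zetaB_pow_mem (v : Fin 2 → ℤ_[p]) : aInfB p (zeta hs B v 0 ^ p) ∈ tIdeal p :=
  aInfB_mem (theta_zeta_zero_pow hs B v)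

/-- **The period of the first kind.** -/
def perOne (v : Fin 2 → ℤ_[p]) : BPlus p :=
  evB (fun _ : Unit => zetaB hs B v) (fun _ => zetaB_mem hs B v) (logS (wZp p W))

/-- The logarithm of the `p`-th power. -/
def logPow (v : Fin 2 → ℤ_[p]) : BPlus p :=
  evB (fun _ : Unit => aInfB p (zeta hs B v 0 ^ p)) (fun _ => zetaB_pow_mem hs B v)
    (logS (wZp p W))

/-- The values of `h`. -/
def hVal (v : Fin 2 → ℤ_[p]) (n : ℕ) : AInf p :=
  evA (fun _ : Unit => zeta hs B v (n + 1)) (fun _ => zeta_radical hs B v (n + 1))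
    (hSer (wZp p W))

/-- The partial sums. -/
def partSum (v : Fin 2 → ℤ_[p]) (N : ℕ) : AInf p :=
  ∑ n ∈ range N, (p : AInf p) ^ n * hVal hs B v n

theorem partSum_sub_mem (v : Fin 2 → ℤ_[p]) {m n : ℕ} (h : m ≤ n) :
    partSum hs B v m - partSum hs B v n ∈ defIdeal p ^ m := by
  induction n, h using Nat.le_induction with
  | base => rw [sub_self]; exact zero_mem _
  | succ n hmn ih =>
    rw [partSum, partSum, sum_range_succ, ← sub_sub]
    exact sub_mem ih (Ideal.mul_mem_right _ _ (Ideal.pow_le_pow_right hmn p_pow_mem))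

theorem exists_limSum (v : Fin 2 → ℤ_[p]) :
    ∃ S : AInf p, ∀ N, S - partSum hs B v N ∈ defIdeal p ^ N := by
  obtain ⟨S, hS⟩ := IsPrecomplete.prec (inferInstance : IsPrecomplete (defIdeal p) (AInf p))
    (f := partSum hs B v) fun {m n} hmn => by
      rw [SModEq.sub_mem, smul_eq_mul, Ideal.mul_top]
      exact partSum_sub_mem hs B v hmn
  refine ⟨S, fun N => ?_⟩
  have h := hS N
  rw [SModEq.sub_mem, smul_eq_mul, Ideal.mul_top] at h
  rw [← neg_sub]
  exact neg_mem h

/-- The sum `Σ p ^ n h (ζ_{n + 1})`. -/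
def limSum (v : Fin 2 → ℤ_[p]) : AInf p := (exists_limSum hs B v).choose

theorem limSum_spec (v : Fin 2 → ℤ_[p]) (N : ℕ) :
    limSum hs B v - partSum hs B v N ∈ defIdeal p ^ N :=
  (exists_limSum hs B v).choose_spec N

/-- **The period of the second kind.** -/
def perTwo (v : Fin 2 → ℤ_[p]) : BPlus p :=
  logPow hs B v + (p : BPlus p) * aInfB p (limSum hs B v)

/-- The values of `e`. -/
def eVal (v w : Fin 2 → ℤ_[p]) (n : ℕ) : AInf p :=
  evA ![zeta hs B v n, zeta hs B w n]
    (pair_radical (zeta_radical hs B v n) (zeta_radical hs B w n)) (eSer (wZp p W))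

theorem evA_fgAdd (v w : Fin 2 → ℤ_[p]) (n : ℕ) :
    evA ![zeta hs B v n, zeta hs B w n]
      (pair_radical (zeta_radical hs B v n) (zeta_radical hs B w n)) (fgAdd (wZp p W)) =
      zeta hs B (v + w) n := (zeta_add hs B v w n).symm

theorem hVal_add (v w : Fin 2 → ℤ_[p]) (n : ℕ) :
    hVal hs B (v + w) n - hVal hs B v n - hVal hs B w n =
      (p : AInf p) * eVal hs B v w (n + 1) - eVal hs B v w n := by
  have hr := pair_radical (zeta_radical hs B v (n + 1)) (zeta_radical hs B w (n + 1))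
  have hF := evA_fgAdd hs B v w (n + 1)
  have h := congrArg (evA ![zeta hs B v (n + 1), zeta hs B w (n + 1)] hr)
    (hSer_fgAdd (wZp p W) (wZp_Δ_ne_zero_of hs))
  rw [map_sub, map_sub, map_sub, map_mul, map_natCast,
    evA_comp1 hr _ (zeta_radical hs B (v + w) (n + 1)) hF,
    evA_comp1 hr _ (zeta_radical hs B v (n + 1)) (evz_X _ _ _ 0),
    evA_comp1 hr _ (zeta_radical hs B w (n + 1)) (evz_X _ _ _ 1)] at h
  refine h.trans (congrArg (fun x => (p : AInf p) * eVal hs B v w (n + 1) - x) ?_)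
  refine evz_subHom _ _ hr _ (y := ![zeta hs B v n, zeta hs B w n])
    (Fin.forall_fin_two.2 ⟨?_, ?_⟩) (eSer (wZp p W))
  · exact ((evA_comp1 hr _ (zeta_radical hs B v (n + 1)) (evz_X _ _ _ 0) _).trans
      ((isLiftSys_zeta hs B v).compat n)).symm
  · exact ((evA_comp1 hr _ (zeta_radical hs B w (n + 1)) (evz_X _ _ _ 1) _).trans
      ((isLiftSys_zeta hs B w).compat n)).symm

theorem partSum_add (v w : Fin 2 → ℤ_[p]) (N : ℕ) :
    partSum hs B (v + w) N - partSum hs B v N - partSum hs B w N =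
      (p : AInf p) ^ N * eVal hs B v w N - eVal hs B v w 0 := by
  induction N with
  | zero => simp [partSum]
  | succ N ih =>
    simp only [partSum] at ih ⊢
    rw [sum_range_succ, sum_range_succ, sum_range_succ, pow_succ]
    linear_combination ih + (p : AInf p) ^ N * hVal_add hs B v w N

theorem limSum_add (v w : Fin 2 → ℤ_[p]) :
    limSum hs B (v + w) = limSum hs B v + limSum hs B w - eVal hs B v w 0 := by
  refine (IsHausdorff.eq_iff_smodEq (I := defIdeal p)).2 fun N => ?_
  rw [SModEq.sub_mem, smul_eq_mul, Ideal.mul_top]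
  have e : limSum hs B (v + w) - (limSum hs B v + limSum hs B w - eVal hs B v w 0) =
      (limSum hs B (v + w) - partSum hs B (v + w) N) - (limSum hs B v - partSum hs B v N) -
        (limSum hs B w - partSum hs B w N) + (p : AInf p) ^ N * eVal hs B v w N := by
    linear_combination partSum_add hs B v w N
  rw [e]
  exact add_mem (sub_mem (sub_mem (limSum_spec hs B _ N) (limSum_spec hs B v N))
    (limSum_spec hs B w N)) (Ideal.mul_mem_right _ _ p_pow_mem)

theorem pair_mem {a b : BPlus p} (ha : a ∈ tIdeal p) (hb : b ∈ tIdeal p) :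
    ∀ i, (![a, b] : Fin 2 → BPlus p) i ∈ tIdeal p :=
  Fin.forall_fin_two.2 ⟨ha, hb⟩

/-- An integral series at the two lifts of level zero. -/
theorem evB_pair (v w : Fin 2 → ℤ_[p]) (f : MvPowerSeries (Fin 2) ℤ_[p]) :
    evB ![zetaB hs B v, zetaB hs B w] (pair_mem (zetaB_mem hs B v) (zetaB_mem hs B w)) (mapQ f) =
      aInfB p (evA ![zeta hs B v 0, zeta hs B w 0]
        (pair_radical (zeta_radical hs B v 0) (zeta_radical hs B w 0)) f) := by
  have hz : ∀ i, aInfB p ((![zeta hs B v 0, zeta hs B w 0] : Fin 2 → AInf p) i) ∈ tIdeal p :=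
    Fin.forall_fin_two.2 ⟨zetaB_mem hs B v, zetaB_mem hs B w⟩
  rw [← evB_mapQ (pair_radical (zeta_radical hs B v 0) (zeta_radical hs B w 0)) hz f]
  refine evB_congr _ (funext fun i => ?_) _
  fin_cases i <;> rfl

theorem perOne_add (v w : Fin 2 → ℤ_[p]) :
    perOne hs B (v + w) = perOne hs B v + perOne hs B w := by
  have hr := pair_mem (zetaB_mem hs B v) (zetaB_mem hs B w)
  have h := congrArg (evB ![zetaB hs B v, zetaB hs B w] hr)
    (logS_fgAdd (wZp p W) (wZp_Δ_ne_zero_of hs))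
  rw [map_add, evB_comp1 hr _ (zetaB_mem hs B (v + w))
      ((evB_pair hs B v w _).trans (congrArg (aInfB p) (evA_fgAdd hs B v w 0))),
    evB_comp1 hr _ (zetaB_mem hs B v) (evz_X _ _ _ 0),
    evB_comp1 hr _ (zetaB_mem hs B w) (evz_X _ _ _ 1)] at h
  exact h

theorem logPow_add (v w : Fin 2 → ℤ_[p]) :
    logPow hs B (v + w) = logPow hs B v + logPow hs B w +
      (p : BPlus p) * aInfB p (eVal hs B v w 0) := by
  have hr := pair_mem (zetaB_mem hs B v) (zetaB_mem hs B w)
  have hra := pair_radical (zeta_radical hs B v 0) (zeta_radical hs B w 0)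
  have hX : ∀ (i : Fin 2) (u : Fin 2 → ℤ_[p]),
      (![zeta hs B v 0, zeta hs B w 0] : Fin 2 → AInf p) i = zeta hs B u 0 →
      evB ![zetaB hs B v, zetaB hs B w] hr (mapQ (MvPowerSeries.X i ^ p)) =
        aInfB p (zeta hs B u 0 ^ p) := fun i u hu => by
    rw [evB_pair, map_pow (evA _ hra), evz_X, hu]
  have hF : evB ![zetaB hs B v, zetaB hs B w] hr (mapQ (fgAdd (wZp p W) ^ p)) =
      aInfB p (zeta hs B (v + w) 0 ^ p) := by
    rw [evB_pair, map_pow (evA _ hra), evA_fgAdd]
  have h := congrArg (evB ![zetaB hs B v, zetaB hs B w] hr)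
    (eSer_spec (wZp p W) (wZp_Δ_ne_zero_of hs))
  rw [map_sub, map_sub, MvPowerSeries.smul_eq_C_mul, map_mul, evz_C, map_natCast, evB_pair,
    evB_comp1 hr _ (zetaB_pow_mem hs B (v + w)) hF,
    evB_comp1 hr _ (zetaB_pow_mem hs B v) (hX 0 v rfl),
    evB_comp1 hr _ (zetaB_pow_mem hs B w) (hX 1 w rfl), sub_sub, sub_eq_iff_eq_add'] at h
  exact h

theorem perTwo_add (v w : Fin 2 → ℤ_[p]) :
    perTwo hs B (v + w) = perTwo hs B v + perTwo hs B w := by
  rw [perTwo, perTwo, perTwo, logPow_add, limSum_add, map_sub, map_add]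
  ring

/-- The period of the first kind as a homomorphism. -/
def perOneHom : (Fin 2 → ℤ_[p]) →+ BPlus p := AddMonoidHom.mk' (perOne hs B) (perOne_add hs B)

/-- The period of the second kind as a homomorphism. -/
def perTwoHom : (Fin 2 → ℤ_[p]) →+ BPlus p := AddMonoidHom.mk' (perTwo hs B) (perTwo_add hs B)

theorem perOne_smul (a : ℤ_[p]) (v : Fin 2 → ℤ_[p]) :
    perOne hs B (a • v) = qpHom p (a : ℚ_[p]) * perOne hs B v :=
  smul_of_bdd (perOneHom hs B) (fun n => by
    obtain ⟨c, hc⟩ := exists_bdd_evB (p := p) (logS (wZp p W)) n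
    exact ⟨c, fun v => hc _ (theta_zeta_zero hs B v) (zetaB_mem hs B v)⟩) a v

theorem perTwo_smul (a : ℤ_[p]) (v : Fin 2 → ℤ_[p]) :
    perTwo hs B (a • v) = qpHom p (a : ℚ_[p]) * perTwo hs B v :=
  smul_of_bdd (perTwoHom hs B) (fun n => by
    obtain ⟨c, hc⟩ := exists_bdd_evB (p := p) (logS (wZp p W)) n
    refine ⟨c, fun v => ?_⟩
    show PadicHodge.Bdd p n c (mkQ p n (perTwo hs B v))
    rw [perTwo, map_add, map_mul, map_natCast]
    refine (hc _ (theta_zeta_zero_pow hs B v) (zetaB_pow_mem hs B v)).add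
      (Bdd.mono ⟨(p : AInf p) * limSum hs B v, ?_⟩ (Nat.zero_le c))
    rw [pow_zero, one_mul, map_mul, map_natCast, mkQ_aInfB]) a v

theorem ainfGal_defIdeal_pow (g : G) {x : AInf p} {N : ℕ} (hx : x ∈ defIdeal p ^ N) :
    ainfGal g x ∈ defIdeal p ^ N := by
  have h : (defIdeal p).map (ainfGal g) ≤ defIdeal p := Ideal.map_le_iff_le_comap.2 fun y hy => by
    rw [Ideal.mem_comap]
    refine mem_defIdeal_of_theta ?_
    have h1 := theta_mem_span (n := 1) (by rwa [pow_one])
    rw [pow_one] at h1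
    rw [theta_ainfGal, ← map_natCast (galO g) p]
    exact map_dvd _ h1
  have h2 := Ideal.mem_map_of_mem (ainfGal g) hx
  rw [Ideal.map_pow] at h2
  exact Ideal.pow_right_mono h N h2

theorem ainfGal_hVal (g : G) (v : Fin 2 → ℤ_[p]) (n : ℕ) :
    ainfGal g (hVal hs B v n) =
      hVal hs B (B.rep (localGaloisToGlobal p g) *ᵥ v) n :=
  map_evz (defIdeal p) (zpHom p) _ (defIdeal p) (ainfGal g) (ainfGal_zpHom g)
    (fun _ => ainfGal_zeta hs B g v (n + 1)) _ _

theorem ainfGal_limSum (g : G) (v : Fin 2 → ℤ_[p]) :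
    ainfGal g (limSum hs B v) = limSum hs B (B.rep (localGaloisToGlobal p g) *ᵥ v) := by
  refine (IsHausdorff.eq_iff_smodEq (I := defIdeal p)).2 fun N => ?_
  rw [SModEq.sub_mem, smul_eq_mul, Ideal.mul_top]
  have e : ainfGal g (partSum hs B v N) =
      partSum hs B (B.rep (localGaloisToGlobal p g) *ᵥ v) N := by
    simp only [partSum, map_sum, map_mul, map_pow, map_natCast, ainfGal_hVal hs B g v]
  rw [← sub_sub_sub_cancel_right _ _ (ainfGal g (partSum hs B v N))]
  refine sub_mem ?_ (e ▸ limSum_spec hs B _ N)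
  rw [← map_sub]
  exact ainfGal_defIdeal_pow g (limSum_spec hs B v N)

theorem smul_perOne (g : G) (v : Fin 2 → ℤ_[p]) :
    g • perOne hs B v = perOne hs B (B.rep (localGaloisToGlobal p g) *ᵥ v) := by
  rw [perOne, smul_evB]
  exact evB_congr _ (funext fun _ => (smul_aInfB g _).trans
    (congrArg (aInfB p) (ainfGal_zeta hs B g v 0))) _

theorem smul_perTwo (g : G) (v : Fin 2 → ℤ_[p]) :
    g • perTwo hs B v = perTwo hs B (B.rep (localGaloisToGlobal p g) *ᵥ v) := by
  rw [perTwo, perTwo, smul_add, smul_mul', smul_aInfB, ainfGal_limSum hs B g v, logPow, smul_evB]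
  congr 1
  · exact evB_congr _ (funext fun _ => (smul_aInfB g _).trans
      (congrArg (aInfB p) (by rw [map_pow, ainfGal_zeta hs B g v 0]))) _
  · rw [smul_bplus_def, map_natCast]

/-- A linear map is given by its values on the basis. -/
theorem eq_sum_single {F : (Fin 2 → ℤ_[p]) → BPlus p} (hadd : ∀ v w, F (v + w) = F v + F w)
    (hsmul : ∀ (a : ℤ_[p]) v, F (a • v) = qpHom p (a : ℚ_[p]) * F v) (v : Fin 2 → ℤ_[p]) :
    F v = ∑ i, qpHom p (v i : ℚ_[p]) * F (Pi.single i 1) := by
  have e : v = v 0 • Pi.single 0 1 + v 1 • Pi.single 1 1 := funext fun i => by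
    fin_cases i <;> simp
  rw [Fin.sum_univ_two, ← hsmul, ← hsmul, ← hadd, ← e]

/-- Row vectors of periods. -/
theorem perOne_single (g : G) (j : Fin 2) :
    g • perOne hs B (Pi.single j 1) =
      ∑ i, qpHom p ((B.rep (localGaloisToGlobal p g) i j : ℤ_[p]) : ℚ_[p]) *
        perOne hs B (Pi.single i 1) := by
  rw [smul_perOne, Matrix.mulVec_single_one]
  exact eq_sum_single (perOne_add hs B) (perOne_smul hs B) _

theorem perTwo_single (g : G) (j : Fin 2) :
    g • perTwo hs B (Pi.single j 1) =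
      ∑ i, qpHom p ((B.rep (localGaloisToGlobal p g) i j : ℤ_[p]) : ℚ_[p]) *
        perTwo hs B (Pi.single i 1) := by
  rw [smul_perTwo, Matrix.mulVec_single_one]
  exact eq_sum_single (perTwo_add hs B) (perTwo_smul hs B) _

end FA.SSDR
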