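import Fermat.Agent.SupersingularDeRham.Values
import Fermat.Agent.OrdinaryDeRham.DeRham

/-!
# An elliptic curve with good supersingular reduction at `p` is de Rham at `p`

The two periods give a basis of invariants after a twist by Fontaine's period; the image under `θ`
of the period of the second kind gives the weight `1`, and the determinant the weight `0`.
-/

set_option autoImplicit false
set_option linter.unusedSectionVars false
set_option linter.style.haveILetI false

noncomputable section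

open Matrix WeierstrassCurve FA.TateSen FA.BDR FA.BDRCoh FA.Sen FA.PadicHodge FA.CurveDR FA.Frob
  FA.Local FA.RT.Tate

namespace FA.SSDR

variable {p : ℕ} [hp : Fact p.Prime] {W : WeierstrassCurve ℤ} [(ratCurve W).IsElliptic]

local notation "Cp" => ℂ_[p]
local notation "G" => PadicAlgCl p ≃ₐ[ℚ_[p]] PadicAlgCl p
local notation "ι" => algebraMap (BPlus p) (BField p)

theorem skew_mul_transpose {R : Type*} [CommRing R] (M : Matrix (Fin 2) (Fin 2) R) :
    M * !![0, 1; -1, 0] * Mᵀ = M.det • !![0, 1; -1, 0] := by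
  refine Matrix.ext fun i j => ?_
  fin_cases i <;> fin_cases j <;>
    simp [Matrix.mul_apply, Fin.sum_univ_two, Matrix.det_fin_two] <;> ring

theorem phi_single_ne_zero (B : TateBasis p W) (j : Fin 2) :
    B.φ 1 (Pi.single j 1) ≠ 0 := fun h => by
  have : Fact (1 < p ^ 1) := ⟨by rw [pow_one]; exact hp.out.one_lt⟩
  have h1 := (B.ker 1 _).1 h j
  rw [Pi.single_eq_same, map_one] at h1
  exact one_ne_zero h1

variable (hs : IsSupersingularAt p W) (B : TateBasis p W)

/-- The matrix of the periods. -/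
def perMat : Matrix (Fin 2) (Fin 2) (BField p) :=
  Matrix.of fun i k => ι (![perOne hs B (Pi.single i 1), perTwo hs B (Pi.single i 1)] k)

theorem smul_perMat (σ : G) :
    (perMat hs B).map (σ • ·) = ((curveAtP B σ).map (qpB p))ᵀ * perMat hs B := by
  refine Matrix.ext fun j k => ?_
  rw [Matrix.map_apply, perMat, Matrix.of_apply, smul_algebraMap_bfield, Matrix.mul_apply]
  fin_cases k
  · simp only [Fin.zero_eta, Fin.isValue, Matrix.cons_val_zero, perOne_single hs B σ j, map_sum,
      map_mul, Matrix.transpose_apply, Matrix.map_apply, Matrix.of_apply]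
    rfl
  · simp only [Fin.mk_one, Fin.isValue, Matrix.cons_val_one, Matrix.cons_val_fin_one,
      perTwo_single hs B σ j, map_sum, map_mul, Matrix.transpose_apply, Matrix.map_apply,
      Matrix.of_apply]
    rfl

/-- **The periods are independent.** -/
theorem det_perMat_ne_zero : (perMat hs B).det ≠ 0 := by
  rw [perMat, Matrix.det_fin_two]
  simp only [Matrix.of_apply, Matrix.cons_val_zero, Matrix.cons_val_one, Matrix.cons_val_fin_one]
  set x0 := perOne hs B (Pi.single 0 1)
  set x1 := perOne hs B (Pi.single 1 1)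
  set y0 := perTwo hs B (Pi.single 0 1)
  set y1 := perTwo hs B (Pi.single 1 1)
  intro h
  have hx0 : x0 ≠ 0 := perOne_ne_zero hs B (phi_single_ne_zero B 0)
  have h' : x0 * y1 = y0 * x1 := iota_injective (by
    rw [map_mul, map_mul]; exact sub_eq_zero.1 h)
  have hfix : ∀ σ : G, σ • (ι y0 / ι x0) = ι y0 / ι x0 := fun σ => by
    have e : (σ • y0) * x0 = y0 * (σ • x0) := by
      rw [perOne_single hs B σ 0, perTwo_single hs B σ 0, Fin.sum_univ_two, Fin.sum_univ_two]
      linear_combination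
        qpHom p ((B.rep (localGaloisToGlobal p σ) 1 0 : ℤ_[p]) : ℚ_[p]) * h'
    have hne : ι (σ • x0) ≠ 0 := by
      refine (map_ne_zero_iff _ iota_injective).2 fun h0 => hx0 ?_
      rwa [smul_eq_zero_iff_eq] at h0
    rw [← MulSemiringAction.toRingHom_apply, map_div₀, MulSemiringAction.toRingHom_apply,
      MulSemiringAction.toRingHom_apply, smul_algebraMap_bfield, smul_algebraMap_bfield,
      div_eq_div_iff hne ((map_ne_zero_iff _ iota_injective).2 hx0), ← map_mul, ← map_mul, e]
  obtain ⟨c, hc⟩ := (bField_invariants _).1 hfix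
  have hy : y0 = qpHom p c * x0 := iota_injective (by
    rw [map_mul]
    exact ((div_eq_iff ((map_ne_zero_iff _ iota_injective).2 hx0)).1 hc.symm))
  refine thetaPlus_perTwo_ne_zero hs B (phi_single_ne_zero B 0) ?_
  show thetaPlus p y0 = 0
  rw [hy, map_mul, show thetaPlus p x0 = 0 from thetaPlus_evB _ (constantCoeff_logS _), mul_zero]

include hs in
/-- **Good supersingular reduction gives a de Rham representation.** -/
theorem isDeRham_supersingular : IsDeRham (curveAtP B) := by
  set J : Matrix (Fin 2) (Fin 2) (BField p) := !![0, 1; -1, 0] with hJ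
  set X := tB p ^ (-1 : ℤ) • (J * perMat hs B) with hX
  have hu : IsUnit X := by
    rw [Matrix.isUnit_iff_isUnit_det, Matrix.det_smul, Matrix.det_mul, isUnit_iff_ne_zero]
    refine mul_ne_zero (pow_ne_zero _ (zpow_ne_zero _ tB_ne_zero))
      (mul_ne_zero ?_ (det_perMat_ne_zero hs B))
    simp [hJ, Matrix.det_fin_two]
  obtain ⟨U, hU⟩ := hu
  refine ⟨U, fun σ => ?_⟩
  set M := (curveAtP B σ).map (qpB p)
  set f := MulSemiringAction.toRingHom G (BField p) σ
  have hsm : X.map (σ • ·) = (qpB p (((chi p σ : ℤ_[p]) : ℚ_[p]) ^ (-1 : ℤ)) * tB p ^ (-1 : ℤ)) •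
      (J * (Mᵀ * perMat hs B)) := by
    rw [hX, ← smul_perMat hs B σ]
    show (tB p ^ (-1 : ℤ) • (J * perMat hs B)).map f = _
    rw [Matrix.map_smul' _ _ _ (map_mul f), Matrix.map_mul,
      show f (tB p ^ (-1 : ℤ)) = _ from smul_tB_zpow σ (-1)]
    congr 2
    refine Matrix.ext fun i j => ?_
    fin_cases i <;> fin_cases j <;> simp [hJ]
  have hdet : M.det = qpB p ((chi p σ : ℤ_[p]) : ℚ_[p]) := by
    rw [← det_curveAtP B σ, RingHom.map_det, RingHom.mapMatrix_apply]
  rw [hU, hsm, Matrix.mul_smul, ← Matrix.mul_assoc J, ← Matrix.mul_assoc M, ← Matrix.mul_assoc M,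
    skew_mul_transpose, hdet, Matrix.smul_mul, smul_smul, hX]
  congr 1
  rw [mul_right_comm, ← map_mul, _root_.zpow_neg_one, inv_mul_cancel₀ (chi_ne_zero σ),
    map_one, one_mul]

include hs in
/-- The image of the period of the second kind has weight `1`. -/
theorem exists_weight_one_vector : ∃ w : Fin 2 → Cp, w ≠ 0 ∧
    ∀ σ, (cpRep (curveAtP B) σ *ᵥ fun i => gal σ (w i)) = twist p 1 σ • w := by
  set a := thetaPlus p (perTwo hs B (Pi.single 0 1))
  set b := thetaPlus p (perTwo hs B (Pi.single 1 1))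
  refine ⟨![b, -a], fun h => thetaPlus_perTwo_ne_zero hs B (phi_single_ne_zero B 0)
    (neg_eq_zero.1 (congrFun h 1)), fun σ => ?_⟩
  have hg : ∀ j, gal σ (thetaPlus p (perTwo hs B (Pi.single j 1))) =
      algebraMap ℚ_[p] Cp (curveAtP B σ 0 j) * a + algebraMap ℚ_[p] Cp (curveAtP B σ 1 j) * b :=
    fun j => by
      rw [← thetaPlus_bplusGal, ← smul_bplus_def, perTwo_single hs B σ j, Fin.sum_univ_two,
        map_add, map_mul, map_mul, thetaPlus_qpHom, thetaPlus_qpHom]
      rfl
  have hd : algebraMap ℚ_[p] Cp (curveAtP B σ 0 0) * algebraMap ℚ_[p] Cp (curveAtP B σ 1 1) -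
      algebraMap ℚ_[p] Cp (curveAtP B σ 0 1) * algebraMap ℚ_[p] Cp (curveAtP B σ 1 0) =
      twist p 1 σ := by
    rw [← map_mul, ← map_mul, ← map_sub, ← Matrix.det_fin_two, det_curveAtP, twist, zpow_one]
  refine funext fun i => ?_
  fin_cases i
  · simp [cpRep, Matrix.mulVec, dotProduct, Fin.sum_univ_two, a, b, hg]
    linear_combination b * hd
  · simp [cpRep, Matrix.mulVec, dotProduct, Fin.sum_univ_two, a, b, hg]
    linear_combination -a * hd

include hs in
/-- **The Hodge–Tate weights are `1` and `0`.** -/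
theorem weights_supersingular : ∃ P : (Matrix (Fin 2) (Fin 2) Cp)ˣ, ∀ τ,
    FA.Sen.conj (cpRep (curveAtP B)) P τ =
      Matrix.diagonal fun i => twist p (![1, 0] i) τ := by
  obtain ⟨P, v, hP⟩ := (isDeRham_supersingular hs B).isHodgeTate
  have hsum : v 0 + v 1 = 1 := by
    set d := ((P : Matrix (Fin 2) (Fin 2) Cp)).det
    by_contra hne
    have h0 : d = 0 := eq_zero_of_invariant (j := 1 - (v 0 + v 1)) (by omega) fun σ => by
      have h := congrArg Matrix.det (conj_eq_iff.1 (hP σ))
      rw [Matrix.det_mul, Matrix.det_mul, Matrix.det_diagonal, Fin.prod_univ_two, ← twist_add,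
        galM, ← RingHom.map_det, cpRep, ← RingHom.mapMatrix_apply, ← RingHom.map_det,
        det_curveAtP] at h
      rw [sub_eq_add_neg, twist_add, mul_right_comm, show twist p 1 σ =
        algebraMap ℚ_[p] Cp ((chi p σ : ℤ_[p]) : ℚ_[p]) by rw [twist, zpow_one], h, mul_assoc,
        mul_comm (twist p (v 0 + v 1) σ), twist_inv_mul, mul_one]
    exact ((Matrix.isUnit_iff_isUnit_det _).1 P.isUnit).ne_zero h0
  obtain ⟨w, hw0, hw⟩ := exists_weight_one_vector hs B
  set c := (↑P⁻¹ : Matrix (Fin 2) (Fin 2) Cp) *ᵥ w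
  have hc : ∀ i σ, twist p (v i - 1) σ * gal σ (c i) = c i := fun i σ => by
    have hPc : (P : Matrix (Fin 2) (Fin 2) Cp) *ᵥ c = w := by
      rw [Matrix.mulVec_mulVec, Units.mul_inv, Matrix.one_mulVec]
    have e : (fun k => gal σ (w k)) =
        galM σ (P : Matrix (Fin 2) (Fin 2) Cp) *ᵥ fun k => gal σ (c k) := funext fun k => by
      rw [← hPc]
      exact RingHom.map_mulVec (gal σ) _ _ k
    have h := congrFun (congrArg ((↑P⁻¹ : Matrix (Fin 2) (Fin 2) Cp) *ᵥ ·) (hw σ)) i
    simp only [e, Matrix.mulVec_mulVec, Matrix.mulVec_smul, ← Matrix.mul_assoc] at h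
    have h2 : FA.Sen.conj (cpRep (curveAtP B)) P σ = _ := hP σ
    rw [FA.Sen.conj] at h2
    rw [h2, Matrix.mulVec_diagonal, Pi.smul_apply, smul_eq_mul] at h
    rw [sub_eq_add_neg, twist_add, mul_comm (twist p (v i) σ), mul_assoc, h, ← mul_assoc,
      twist_inv_mul, one_mul]
  obtain ⟨i, hi⟩ : ∃ i, v i = 1 := by
    by_contra hne
    push Not at hne
    refine hw0 ?_
    have : c = 0 := funext fun i => eq_zero_of_invariant (sub_ne_zero.2 (hne i)) (hc i)
    rw [← Matrix.one_mulVec w, ← Units.mul_inv P, ← Matrix.mulVec_mulVec,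
      show (↑P⁻¹ : Matrix (Fin 2) (Fin 2) Cp) *ᵥ w = 0 from this, Matrix.mulVec_zero]
  rcases Fin.exists_fin_two.1 (⟨i, hi⟩ : ∃ j, v j = 1) with h | h
  · refine ⟨P, fun τ => (hP τ).trans (congrArg Matrix.diagonal (funext fun k => ?_))⟩
    have h1 : v 1 = 0 := by omega
    fin_cases k <;> simp [h, h1]
  · have h0 : v 0 = 0 := by omega
    obtain ⟨S, hS⟩ : IsUnit (!![0, 1; 1, 0] : Matrix (Fin 2) (Fin 2) Cp) :=
      (Matrix.isUnit_iff_isUnit_det _).2 (by simp [Matrix.det_fin_two])
    refine ⟨P * S, fun τ => ?_⟩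
    rw [← conj_conj, conj_eq_iff, hP τ, hS]
    refine Matrix.ext fun i j => ?_
    fin_cases i <;> fin_cases j <;>
      simp [Matrix.mul_apply, Fin.sum_univ_two, galM_apply, h, h0, twist_zero]

/-- **Good reduction at `p` gives a de Rham representation of weights `1` and `0`.** -/
theorem isDeRham_of_good (hg : W.IsGoodPrimeFor p) (B : TateBasis p W) :
    IsDeRham (curveAtP B) ∧ ∃ P : (Matrix (Fin 2) (Fin 2) Cp)ˣ, ∀ τ,
      FA.Sen.conj (cpRep (curveAtP B)) P τ =
        Matrix.diagonal fun i => twist p (![1, 0] i) τ := by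
  by_cases ha : (p : ℤ) ∣ W.apOfModel p
  · exact ⟨isDeRham_supersingular ⟨hg, ha⟩ B, weights_supersingular ⟨hg, ha⟩ B⟩
  · exact FA.OrdDR.isDeRham_of_ordinary hg ha B

/-- **Semistable reduction at an odd `p` gives a de Rham representation of weights `1` and `0`.** -/
theorem isDeRham_of_semistable (hp2 : p ≠ 2) (hΔ : W.Δ ≠ 0)
    (hm : (p : ℤ) ∣ W.Δ → ¬ (p : ℤ) ∣ W.c₄) (B : TateBasis p W) :
    IsDeRham (curveAtP B) ∧ ∃ P : (Matrix (Fin 2) (Fin 2) Cp)ˣ, ∀ τ,
      FA.Sen.conj (cpRep (curveAtP B)) P τ =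
        Matrix.diagonal fun i => twist p (![1, 0] i) τ := by
  by_cases hg : W.IsGoodPrimeFor p
  · exact isDeRham_of_good hg B
  · have hd : (p : ℤ) ∣ W.Δ := not_not.1 hg
    exact isDeRham_curveAtP B hp2 (multAt_padicPlace hΔ hd (hm hd))

end FA.SSDR
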