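import Fermat.Agent.SupersingularDeRham.WSeries
import Mathlib.NumberTheory.Padics.RingHoms
import Mathlib.FieldTheory.Finite.Basic

/-!
# Series over `ℤ_p` modulo `p`
-/

set_option autoImplicit false
set_option linter.unusedSectionVars false

noncomputable section

open Finsupp

namespace FA.SSDR

variable {σ τ : Type*} [Finite σ] [Finite τ]

theorem map_subHom {R S : Type*} [CommRing R] [CommRing S] (ψ : R →+* S)
    {g : σ → MvPowerSeries τ R} (hg : ∀ s, MvPowerSeries.constantCoeff (g s) = 0)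
    {g' : σ → MvPowerSeries τ S} (e : ∀ s, MvPowerSeries.map ψ (g s) = g' s)
    (hg' : ∀ s, MvPowerSeries.constantCoeff (g' s) = 0) (f : MvPowerSeries σ R) :
    MvPowerSeries.map ψ (subHom hg f) = subHom hg' (MvPowerSeries.map ψ f) := by
  rw [subHom_apply, subHom_apply,
    MvPowerSeries.map_subst (MvPowerSeries.hasSubst_of_constantCoeff_zero hg)]
  congr 1
  exact funext e

theorem map_comp1 {R S : Type*} [CommRing R] [CommRing S] (ψ : R →+* S) {g : MvPowerSeries τ R}
    (hg : MvPowerSeries.constantCoeff g = 0) (f : PowerSeries R) :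
    MvPowerSeries.map ψ (comp1 hg f) =
      comp1 (g := MvPowerSeries.map ψ g)
        (by rw [MvPowerSeries.constantCoeff_map, hg, map_zero]) (PowerSeries.map ψ f) :=
  map_subHom ψ (fun _ => hg) (fun _ => rfl) _ f

theorem map_pderiv {R S : Type*} [CommRing R] [CommRing S] (ψ : R →+* S) (s : σ)
    (f : MvPowerSeries σ R) :
    MvPowerSeries.map ψ (MvPowerSeries.pderiv R s f) =
      MvPowerSeries.pderiv S s (MvPowerSeries.map ψ f) := by
  ext d
  simp [MvPowerSeries.coeff_pderiv]

variable {p : ℕ} [hp : Fact p.Prime]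

theorem dvd_of_toZMod {x : ℤ_[p]} (h : PadicInt.toZMod x = 0) : (p : ℤ_[p]) ∣ x := by
  rw [← Ideal.mem_span_singleton, ← PadicInt.maximalIdeal_eq_span_p, ← PadicInt.ker_toZMod]
  exact h

/-- A series vanishing modulo `p` is a multiple of `p`. -/
theorem exists_p_mul {f : MvPowerSeries σ ℤ_[p]}
    (h : MvPowerSeries.map (PadicInt.toZMod (p := p)) f = 0) :
    ∃ c, f = MvPowerSeries.C (p : ℤ_[p]) * c := by
  have hd : ∀ d, ∃ x : ℤ_[p], MvPowerSeries.coeff d f = (p : ℤ_[p]) * x := fun d =>
    dvd_of_toZMod (by rw [← MvPowerSeries.coeff_map, h, map_zero])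
  choose x hx using hd
  refine ⟨fun d => x d, MvPowerSeries.ext fun d => ?_⟩
  rw [MvPowerSeries.coeff_C_mul, hx d]
  rfl

theorem map_toZMod_p : PadicInt.toZMod (p : ℤ_[p]) = 0 := by
  rw [map_natCast, ZMod.natCast_self]

/-- The `p`-th powers of the variables. -/
def powVars (σ : Type*) (R : Type*) [CommRing R] (n : ℕ) (s : σ) : MvPowerSeries σ R :=
  MvPowerSeries.X s ^ n

theorem constantCoeff_powVars {R : Type*} [CommRing R] {n : ℕ} (hn : n ≠ 0) (s : σ) :
    MvPowerSeries.constantCoeff (powVars σ R n s) = 0 := by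
  rw [powVars, map_pow, MvPowerSeries.constantCoeff_X, zero_pow hn]

instance charP_mvPowerSeries_zmod : CharP (MvPowerSeries σ (ZMod p)) p :=
  charP_of_injective_ringHom MvPowerSeries.C_injective p

theorem subHom_powVars_zmod (f : MvPowerSeries σ (ZMod p)) :
    subHom (constantCoeff_powVars (R := ZMod p) hp.out.ne_zero) f = f ^ p := by
  refine RingHom.congr_fun (hom_ext (varIdeal σ (ZMod p))
    (e := subHom (constantCoeff_powVars (R := ZMod p) hp.out.ne_zero))
    (e' := frobenius (MvPowerSeries σ (ZMod p)) p) (fun r => ?_) (fun s => ?_) fun s => ?_) f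
  · rw [subHom_C, frobenius_def, ← map_pow, ZMod.pow_card]
  · rw [subHom_X, frobenius_def, powVars]
  · rw [subHom_X]
    exact Ideal.le_radical (mem_varIdeal (constantCoeff_powVars hp.out.ne_zero s))

/-- **`f (T ^ p) ≡ f (T) ^ p` modulo `p`.** -/
theorem exists_pow_congr (f : MvPowerSeries σ ℤ_[p]) :
    ∃ c, subHom (constantCoeff_powVars (R := ℤ_[p]) hp.out.ne_zero) f =
      f ^ p + MvPowerSeries.C (p : ℤ_[p]) * c := by
  obtain ⟨c, hc⟩ := exists_p_mul
    (f := subHom (constantCoeff_powVars (R := ℤ_[p]) hp.out.ne_zero) f - f ^ p) (by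
      rw [map_sub, map_pow, map_subHom PadicInt.toZMod _ (g' := powVars σ (ZMod p) p)
        (fun s => by rw [powVars, powVars, map_pow, MvPowerSeries.map_X])
        (constantCoeff_powVars hp.out.ne_zero), subHom_powVars_zmod, sub_self])
  exact ⟨c, by rw [← hc, add_sub_cancel]⟩

end FA.SSDR
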