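import Fermat.Agent.SupersingularDeRham.Periods

/-!
# The periods do not vanish

The parameter `t` of a point of order `p` has `|t| ^ (p ^ 2 - 1) = |p|`; hence the value of `h` at
it has absolute value `|t| ^ p > |p|`, and the period of the second kind has nonzero image under
`θ`.
-/

set_option autoImplicit false
set_option linter.unusedSectionVars false
set_option linter.style.haveILetI false

noncomputable section

open Ideal Finset WeierstrassCurve FA.TateSen FA.BDR FA.BDRCoh FA.PadicHodge FA.Frob FA.Local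
  FA.RT.Tate

namespace FA.SSDR

attribute [local irreducible] fgAdd wSeries mulN logS hSer eSer bigH

variable {p : ℕ} [hp : Fact p.Prime]

local notation "C" => ℂ_[p]

theorem norm_of_isUnit {x : OC p} (h : IsUnit x) : ‖(x : C)‖ = 1 := by
  obtain ⟨u, rfl⟩ := h
  refine le_antisymm (norm_OC_le _) ?_
  calc (1 : ℝ) = ‖((u : OC p) : C)‖ * ‖((↑u⁻¹ : OC p) : C)‖ := by
        rw [← norm_mul, ← MulMemClass.coe_mul, Units.mul_inv, OneMemClass.coe_one, norm_one]
    _ ≤ ‖((u : OC p) : C)‖ := mul_le_of_le_one_right (norm_nonneg _) (norm_OC_le _)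

theorem norm_evO_unit {σ : Type*} [Finite σ] {t : σ → OC p}
    (ht : ∀ s, t s ∈ (span {(p : OC p)}).radical) {f : MvPowerSeries σ ℤ_[p]}
    (hf : IsUnit (MvPowerSeries.constantCoeff f)) : ‖((evO t ht f : OC p) : C)‖ = 1 :=
  norm_of_isUnit ((MvPowerSeries.isUnit_iff_constantCoeff.2 hf).map (evO t ht))

/-- A series `X + ⋯` keeps the absolute value. -/
theorem norm_evO_of_coeff {c : OC p} (hc : c ∈ (span {(p : OC p)}).radical)
    {f : PowerSeries ℤ_[p]} (h0 : PowerSeries.constantCoeff f = 0)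
    (h1 : PowerSeries.coeff 1 f = 1) :
    ‖((evO (fun _ : Unit => c) (fun _ => hc) f : OC p) : C)‖ = ‖(c : C)‖ := by
  obtain ⟨V, rfl⟩ := PowerSeries.X_dvd_iff.2 h0
  rw [PowerSeries.coeff_succ_X_mul, PowerSeries.coeff_zero_eq_constantCoeff_apply] at h1
  have hV : IsUnit (MvPowerSeries.constantCoeff (σ := Unit) V) := by
    rw [show MvPowerSeries.constantCoeff (σ := Unit) V = 1 from h1]
    exact isUnit_one
  rw [map_mul, MulMemClass.coe_mul, norm_mul, norm_evO_unit _ hV, mul_one, PowerSeries.X, evz_X]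

variable {W : WeierstrassCurve ℤ}

/-- The size of a root of `[p]`. -/
theorem norm_root (hg : W.IsGoodPrimeFor p) (ha : (p : ℤ) ∣ W.apOfModel p) {t : OC p}
    (ht : t ∈ (span {(p : OC p)}).radical) (ht0 : (t : C) ≠ 0)
    (h : evO (fun _ : Unit => t) (fun _ => ht) (mulN (wZp p W) p) = 0) :
    ‖(t : C)‖ < 1 ∧ ‖(t : C)‖ ^ (p ^ 2 - 1) = ‖(p : C)‖ ∧
      ‖(p : C)‖ < ‖(t : C)‖ ^ p := by
  obtain ⟨A, U, hA, hU, hAU⟩ := exists_mulN_eq hg ha
  rw [hAU, map_add, map_mul, map_mul, map_mul, map_pow, evz_C, PowerSeries.X, evz_X,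
    map_natCast] at h
  have hA1 : IsUnit (MvPowerSeries.constantCoeff (σ := Unit) A) := by
    rw [show MvPowerSeries.constantCoeff (σ := Unit) A = 1 from hA]
    exact isUnit_one
  have nA := norm_evO_unit (fun _ : Unit => ht) hA1
  have nU := norm_evO_unit (fun _ : Unit => ht) (MvPowerSeries.isUnit_iff_constantCoeff.1 hU)
  have h' := congrArg (fun x : OC p => (x : C)) h
  simp only [AddMemClass.coe_add, MulMemClass.coe_mul, SubmonoidClass.coe_pow, coe_natCast_OC,
    ZeroMemClass.coe_zero, add_eq_zero_iff_eq_neg] at h'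
  have hn := congrArg (‖·‖) h'
  simp only [norm_mul, norm_neg, norm_pow, nA, nU, mul_one] at hn
  have hlt := norm_lt_of_radical ht
  have hpos : 0 < ‖(t : C)‖ := norm_pos_iff.2 ht0
  obtain ⟨r, hr⟩ : ∃ r, p ^ 2 = r + 1 :=
    ⟨p ^ 2 - 1, (Nat.succ_pred_eq_of_pos (pow_pos hp.out.pos 2)).symm⟩
  rw [hr, pow_succ] at hn
  have he := (mul_right_cancel₀ hpos.ne' hn).symm
  rw [show p ^ 2 - 1 = r by omega]
  refine ⟨hlt, he, ?_⟩
  rw [← he]
  refine pow_lt_pow_right_of_lt_one₀ hpos hlt ?_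
  have h2 := hp.out.two_le
  nlinarith

/-- The value of the defect at a root of `[p]`. -/
theorem norm_mulPDefect (hg : W.IsGoodPrimeFor p) (ha : (p : ℤ) ∣ W.apOfModel p) {t : OC p}
    (ht : t ∈ (span {(p : OC p)}).radical) (ht0 : (t : C) ≠ 0)
    (h : evO (fun _ : Unit => t) (fun _ => ht) (mulN (wZp p W) p) = 0) :
    ‖((evO (fun _ : Unit => t) (fun _ => ht) (mulPDefect (wZp p W)) : OC p) : C)‖ =
      ‖(t : C)‖ ^ p := by
  obtain ⟨A, U, hA, hU, hAU⟩ := exists_mulN_eq hg ha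
  obtain ⟨hlt, he, -⟩ := norm_root hg ha ht ht0 h
  have htp : t ^ p ∈ (span {(p : OC p)}).radical := Ideal.pow_mem_of_mem _ ht _ hp.out.pos
  have hs := congrArg (evO (fun _ : Unit => t) (fun _ => ht)) (mulPDefect_spec (wZp p W))
  have e1 : evO (fun _ : Unit => t) (fun _ => ht)
      (subHom (constantCoeff_powVars (σ := Unit) (R := ℤ_[p]) hp.out.ne_zero) (mulN (wZp p W) p)) =
      evO (fun _ : Unit => t ^ p) (fun _ => htp) (mulN (wZp p W) p) :=
    evz_subHom _ _ _ _ (fun _ => (by rw [powVars, map_pow, evz_X])) _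
  rw [e1, map_add, map_pow, h, zero_pow hp.out.ne_zero, zero_add, map_mul, evz_C, hAU, map_add,
    map_mul, map_mul, map_mul, map_pow, evz_C, PowerSeries.X, evz_X, map_natCast] at hs
  have hA1 : IsUnit (MvPowerSeries.constantCoeff (σ := Unit) A) := by
    rw [show MvPowerSeries.constantCoeff (σ := Unit) A = 1 from hA]
    exact isUnit_one
  have nA := norm_evO_unit (fun _ : Unit => htp) hA1
  have nU := norm_evO_unit (fun _ : Unit => htp) (MvPowerSeries.isUnit_iff_constantCoeff.1 hU)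
  have h' := congrArg (fun x : OC p => (x : C)) hs
  simp only [AddMemClass.coe_add, MulMemClass.coe_mul, SubmonoidClass.coe_pow,
    coe_natCast_OC] at h'
  have hn := congrArg (‖·‖) h'
  have hpos : 0 < ‖(t : C)‖ := norm_pos_iff.2 ht0
  have hp0 : 0 < ‖(p : C)‖ := norm_p_pos_C
  have hbig :
      ‖((t : C) ^ p) ^ p ^ 2 * ((evO (fun _ : Unit => t ^ p) (fun _ => htp) U : OC p) : C)‖ <
      ‖(p : C) * ((t : C) ^ p *
        ((evO (fun _ : Unit => t ^ p) (fun _ => htp) A : OC p) : C))‖ := by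
    rw [norm_mul, norm_mul, norm_mul, norm_pow, norm_pow, nA, nU, mul_one, mul_one, ← he,
      ← pow_add, ← pow_mul]
    refine pow_lt_pow_right_of_lt_one₀ hpos hlt ?_
    have h2 := hp.out.two_le
    obtain ⟨r, hr⟩ : ∃ r, p ^ 2 = r + 1 :=
      ⟨p ^ 2 - 1, (Nat.succ_pred_eq_of_pos (pow_pos hp.out.pos 2)).symm⟩
    rw [hr, Nat.add_sub_cancel]
    nlinarith
  rw [IsUltrametricDist.norm_add_eq_max_of_norm_ne_norm hbig.ne', max_eq_left hbig.le] at hn
  simp only [norm_mul, norm_pow, nA, mul_one] at hn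
  exact (mul_left_cancel₀ hp0.ne' hn).symm

/-- **The value of `h` at a root of `[p]`.** -/
theorem norm_hSer (hg : W.IsGoodPrimeFor p) (ha : (p : ℤ) ∣ W.apOfModel p) {t : OC p}
    (ht : t ∈ (span {(p : OC p)}).radical) (ht0 : (t : C) ≠ 0)
    (h : evO (fun _ : Unit => t) (fun _ => ht) (mulN (wZp p W) p) = 0) :
    ‖((evO (fun _ : Unit => t) (fun _ => ht) (hSer (wZp p W)) : OC p) : C)‖ =
      ‖(t : C)‖ ^ p := by
  have hc := evO_radical (fun _ : Unit => ht) (constantCoeff_mulPDefect (wZp p W))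
  set c := evO (fun _ : Unit => t) (fun _ => ht) (mulPDefect (wZp p W)) with hcdef
  have e1 : evO (fun _ : Unit => t) (fun _ => ht) (hSer (wZp p W)) =
      evO ![0, c] (evO_pair_radical (zero_mem _) hc) (bigH (wZp p W)) := by
    unfold hSer
    refine evz_subHom _ _ _ _ (Fin.forall_fin_two.2 ⟨?_, rfl⟩) _
    show (0 : OC p) = evO (fun _ : Unit => t) (fun _ => ht) (mulN (wZp p W) p ^ p)
    rw [map_pow, h, zero_pow hp.out.ne_zero]
  have e2 : evO (fun _ : Unit => c) (fun _ => hc) (bigH₀ (wZp p W)) =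
      evO ![0, c] (evO_pair_radical (zero_mem _) hc) (bigH (wZp p W)) := by
    unfold bigH₀
    refine evz_subHom _ _ _ _ (Fin.forall_fin_two.2 ⟨?_, ?_⟩) _
    · exact (map_zero (evO (fun _ : Unit => c) fun _ => hc)).symm
    · show c = evO (fun _ : Unit => c) (fun _ => hc) PowerSeries.X
      rw [PowerSeries.X, evz_X]
  rw [e1, ← e2, norm_evO_of_coeff hc (coeff_bigH₀ _).1 (coeff_bigH₀ _).2, hcdef,
    norm_mulPDefect hg ha ht ht0 h]

variable [(ratCurve W).IsElliptic] (hs : IsSupersingularAt p W) (B : TateBasis p W)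

theorem evO_tPar_one (v : Fin 2 → ℤ_[p]) :
    evO (fun _ : Unit => tPar hs B v 1) (fun _ => tPar_radical hs B v 1) (mulN (wZp p W) p) = 0 :=
  (tPar_compat hs B v 0).trans (tPar_zero hs B v)

theorem tPar_one_ne_zero {v : Fin 2 → ℤ_[p]} (hv : B.φ 1 v ≠ 0) :
    ((tPar hs B v 1 : OC p) : C) ≠ 0 := fun h => hv (mapC_injective (p := p) W (by
  rw [map_zero, ptC_tPar hs B v 1, ptC_congr W _ (Subtype.ext (h.trans rfl) : tPar hs B v 1 = 0)]
  exact ptC_zero W))

/-- **The image of the period of the second kind.** -/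
theorem thetaPlus_perTwo_ne_zero {v : Fin 2 → ℤ_[p]} (hv : B.φ 1 v ≠ 0) :
    thetaPlus p (perTwo hs B v) ≠ 0 := by
  have ht0 := tPar_one_ne_zero hs B hv
  have hθh : theta p (hVal hs B v 0) =
      evO (fun _ : Unit => tPar hs B v 1) (fun _ => tPar_radical hs B v 1) (hSer (wZp p W)) := by
    rw [hVal, theta_evA]
    exact evz_congr _ _ _ (funext fun _ => theta_zeta hs B v 1) _
  have hl : thetaPlus p (logPow hs B v) = 0 := thetaPlus_evB _ (constantCoeff_logS _)
  rw [perTwo, map_add, hl, zero_add, map_mul, map_natCast, thetaPlus_aInfB]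
  refine mul_ne_zero (Nat.cast_ne_zero.2 hp.out.ne_zero) fun h => ?_
  have h1 := theta_mem_span (limSum_spec hs B v 1)
  rw [pow_one, partSum, sum_range_one, pow_zero, one_mul, map_sub,
    show theta p (limSum hs B v) = 0 from Subtype.ext h, zero_sub, dvd_neg, dvd_OC, hθh,
    norm_hSer hs.1 hs.2 _ ht0 (evO_tPar_one hs B v)] at h1
  exact not_lt.2 h1 (norm_root hs.1 hs.2 _ ht0 (evO_tPar_one hs B v)).2.2

theorem zeta_zero_ne_zero {v : Fin 2 → ℤ_[p]} (hv : B.φ 1 v ≠ 0) : zeta hs B v 0 ≠ 0 := by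
  intro h0
  have ht0 := tPar_one_ne_zero hs B hv
  obtain ⟨A, U, -, hU, hAU⟩ := exists_mulN_eq hs.1 hs.2
  have h := (isLiftSys_zeta hs B v).compat 0
  rw [h0, mulPA, hAU, map_add, map_mul, map_mul, map_mul, map_pow, evz_C, PowerSeries.X, evz_X,
    map_natCast] at h
  have h1 := congrArg (WittVector.constantCoeff (p := p) (R := OFlat p)) h
  rw [map_add, map_mul, constantCoeff_natCast_p, zero_mul, zero_add, map_mul, map_pow,
    map_zero] at h1
  have h2 := (mul_eq_zero.1 h1).resolve_right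
    ((hU.map (evA (fun _ : Unit => zeta hs B v (0 + 1))
      fun _ => (isLiftSys_zeta hs B v).rad (0 + 1))).map
        (WittVector.constantCoeff (p := p) (R := OFlat p))).ne_zero
  obtain ⟨c, hc⟩ := constantCoeff_eq_zero_iff.1
    (pow_eq_zero_iff (pow_ne_zero 2 hp.out.ne_zero) |>.1 h2)
  have h3 : ‖((tPar hs B v 1 : OC p) : C)‖ ≤ ‖(p : C)‖ := by
    rw [← theta_zeta, ← dvd_OC, show zeta hs B v 1 = zeta hs B v (0 + 1) from rfl, hc, map_mul,
      map_natCast]
    exact dvd_mul_right _ _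
  obtain ⟨hlt, -, hp'⟩ := norm_root hs.1 hs.2 _ ht0 (evO_tPar_one hs B v)
  exact not_lt.2 h3 (hp'.trans_le (pow_le_of_le_one (norm_nonneg _) hlt.le hp.out.ne_zero))

/-- **The period of the first kind does not vanish.** -/
theorem perOne_ne_zero {v : Fin 2 → ℤ_[p]} (hv : B.φ 1 v ≠ 0) : perOne hs B v ≠ 0 := by
  obtain ⟨V, hV⟩ := PowerSeries.X_dvd_iff.2 (constantCoeff_logS (wZp p W))
  have hV1 : PowerSeries.constantCoeff V = 1 := by
    have h := coeff_one_logS (wZp p W)
    rwa [hV, PowerSeries.coeff_succ_X_mul, PowerSeries.coeff_zero_eq_constantCoeff_apply] at h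
  rw [perOne, hV, map_mul, PowerSeries.X, evz_X]
  refine mul_ne_zero ((map_ne_zero_iff _ aInfB_injective).2 (zeta_zero_ne_zero hs B hv)) fun h => ?_
  have h1 := thetaPlus_evB (fun _ : Unit => zetaB_mem hs B v)
    (f := V - PowerSeries.C 1) (show PowerSeries.constantCoeff (V - PowerSeries.C 1) = 0 by
      rw [map_sub, hV1, PowerSeries.constantCoeff_C, sub_self])
  rw [map_sub, h, map_one (PowerSeries.C (R := ℚ_[p])), map_one, zero_sub, map_neg, map_one,
    neg_eq_zero] at h1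
  exact one_ne_zero h1

end FA.SSDR
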