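import Mathlib.AlgebraicGeometry.EllipticCurve.Affine.Point
import Mathlib.Tactic.LinearCombination
import Mathlib.Tactic.FieldSimp

/-!
# The group law in the coordinates `z = -x/y`, `w = -1/y`

Three zeros of a Weierstrass equation on a line `w = l z + m`, counted with multiplicity, add up to
zero.
-/

set_option autoImplicit false
set_option linter.unusedSectionVars false

noncomputable section

open WeierstrassCurve
open scoped Classical

namespace FA.SSDR

section Ring

variable {R : Type*} [CommRing R] (V : WeierstrassCurve R)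

/-- The equation in the coordinates `z`, `w`. -/
def OnCurve (z w : R) : Prop :=
  w = z ^ 3 + V.a₁ * z * w + V.a₂ * z ^ 2 * w + V.a₃ * w ^ 2 + V.a₄ * z * w ^ 2 + V.a₆ * w ^ 3

/-- The coefficient of `z ^ 3` on the line `w = l z + m`. -/
def lineA (l : R) : R := 1 + V.a₂ * l + V.a₄ * l ^ 2 + V.a₆ * l ^ 3

/-- The coefficient of `z ^ 2` on the line. -/
def lineB (l m : R) : R :=
  V.a₁ * l + V.a₂ * m + V.a₃ * l ^ 2 + 2 * V.a₄ * l * m + 3 * V.a₆ * l ^ 2 * m

/-- The coefficient of `z` on the line. -/
def lineC (l m : R) : R :=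
  V.a₁ * m + 2 * V.a₃ * l * m + V.a₄ * m ^ 2 + 3 * V.a₆ * l * m ^ 2 - l

/-- The constant coefficient on the line. -/
def lineD (m : R) : R := V.a₃ * m ^ 2 + V.a₆ * m ^ 3 - m

theorem onCurve_line_iff (z l m : R) :
    OnCurve V z (l * z + m) ↔
      lineA V l * z ^ 3 + lineB V l m * z ^ 2 + lineC V l m * z + lineD V m = 0 := by
  simp only [OnCurve, lineA, lineB, lineC, lineD]
  constructor <;> intro h <;> linear_combination -h

theorem OnCurve.map {S : Type*} [CommRing S] (f : R →+* S) {z w : R} (h : OnCurve V z w) :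
    OnCurve (V.map f) (f z) (f w) := by
  have := congrArg f h
  simpa [OnCurve] using this

/-- The opposite point. -/
theorem OnCurve.negPair {z w d : R} (h : OnCurve V z w)
    (hd : (1 - V.a₁ * z - V.a₃ * w) * d = 1) : OnCurve V (-(z * d)) (-(w * d)) := by
  simp only [OnCurve] at h ⊢
  linear_combination -(d ^ 3) * h + w * d * (d + 1) * hd

/-- Equations with the same `z` differ by a multiple of their difference. -/
theorem OnCurve.sub_mul {z w w' : R} (h : OnCurve V z w) (h' : OnCurve V z w') :
    (w - w') * (1 - (V.a₁ * z + V.a₂ * z ^ 2 + V.a₃ * (w + w') + V.a₄ * z * (w + w') +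
      V.a₆ * (w ^ 2 + w * w' + w' ^ 2))) = 0 := by
  simp only [OnCurve] at h h'
  linear_combination h - h'

end Ring

variable {K : Type*} [Field K] (V : WeierstrassCurve K)

theorem OnCurve.eq_zero {z w : K} (h : OnCurve V z w) (hw : w = 0) : z = 0 := by
  subst hw
  simpa [OnCurve] using h.symm

theorem OnCurve.equation {z w : K} (h : OnCurve V z w) (hw : w ≠ 0) :
    V.toAffine.Equation (z / w) (-1 / w) := by
  rw [Affine.equation_iff]
  field_simp
  simp only [OnCurve] at h
  linear_combination h

/-- The point with the coordinates `z`, `w`; zero if `w = 0`. -/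
def aff (z w : K) : V.toAffine.Point :=
  if h : w ≠ 0 ∧ V.toAffine.Nonsingular (z / w) (-1 / w) then .some _ _ h.2 else 0

theorem aff_zero (z : K) : aff V z 0 = 0 := dif_neg fun h => h.1 rfl

variable [V.IsElliptic]

theorem OnCurve.nonsingular {z w : K} (h : OnCurve V z w) (hw : w ≠ 0) :
    V.toAffine.Nonsingular (z / w) (-1 / w) :=
  Affine.equation_iff_nonsingular.1 (h.equation V hw)

theorem aff_eq_some {z w : K} (h : OnCurve V z w) (hw : w ≠ 0) :
    aff V z w = .some _ _ (h.nonsingular V hw) :=
  dif_pos ⟨hw, h.nonsingular V hw⟩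

theorem aff_inj {z w z' w' : K} (h : OnCurve V z w) (h' : OnCurve V z' w')
    (e : aff V z w = aff V z' w') : z = z' ∧ w = w' := by
  by_cases hw : w = 0
  · by_cases hw' : w' = 0
    · exact ⟨(h.eq_zero V hw).trans (h'.eq_zero V hw').symm, hw.trans hw'.symm⟩
    · rw [hw, aff_zero, aff_eq_some V h' hw'] at e
      exact absurd e.symm (Affine.Point.some_ne_zero _)
  · by_cases hw' : w' = 0
    · rw [hw', aff_zero, aff_eq_some V h hw] at e
      exact absurd e (Affine.Point.some_ne_zero _)
    · rw [aff_eq_some V h hw, aff_eq_some V h' hw'] at e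
      simp only [Affine.Point.some.injEq] at e
      obtain ⟨e1, e2⟩ := e
      have e3 : w = w' := by
        rw [div_eq_div_iff hw hw'] at e2
        linear_combination e2
      refine ⟨?_, e3⟩
      rw [e3] at e1
      exact (div_left_inj' hw').1 e1

theorem aff_neg {z w d : K} (h : OnCurve V z w) (hd : (1 - V.a₁ * z - V.a₃ * w) * d = 1) :
    aff V (-(z * d)) (-(w * d)) = -aff V z w := by
  by_cases hw : w = 0
  · rw [hw, zero_mul, neg_zero, aff_zero, aff_zero, neg_zero]
  have hd0 : d ≠ 0 := fun h0 => zero_ne_one (α := K) (by rw [← hd, h0, mul_zero])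
  have hw' : -(w * d) ≠ 0 := neg_ne_zero.2 (mul_ne_zero hw hd0)
  rw [aff_eq_some V (h.negPair V hd) hw', aff_eq_some V h hw, Affine.Point.neg_some,
    Affine.Point.some.injEq]
  refine ⟨by field_simp, ?_⟩
  rw [Affine.negY]
  field_simp
  linear_combination -hd

/-- The point `(z₃, w₃)` on a line through the origin. -/
theorem aff_of_line_zero {b z₃ l m : K} (hm : m = 0) (hl : l ≠ 0)
    (hb : OnCurve V b (l * b + m)) (h₃ : OnCurve V z₃ (l * z₃ + m)) (hb0 : b ≠ 0) (hz0 : z₃ ≠ 0)
    (h1 : lineA V l * (b + z₃) = -lineB V l m) (h2 : lineA V l * (b * z₃) = lineC V l m) :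
    aff V b (l * b + m) = -aff V z₃ (l * z₃ + m) := by
  subst hm
  have hwb : l * b + 0 ≠ 0 := by rw [add_zero]; exact mul_ne_zero hl hb0
  have hwz : l * z₃ + 0 ≠ 0 := by rw [add_zero]; exact mul_ne_zero hl hz0
  rw [aff_eq_some V hb hwb, aff_eq_some V h₃ hwz, Affine.Point.neg_some, Affine.Point.some.injEq]
  refine ⟨by field_simp; ring, ?_⟩
  rw [Affine.negY]
  simp only [add_zero]
  field_simp
  simp only [lineB, lineC, mul_zero, add_zero, zero_sub, ne_eq, OfNat.ofNat_ne_zero,
    not_false_eq_true, zero_pow] at h1 h2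
  have hA : lineA V l ≠ 0 := by
    intro h0
    rw [h0, zero_mul] at h2
    exact hl (by linear_combination h2)
  refine mul_left_cancel₀ hA ?_
  linear_combination -h1 + (V.a₁ + V.a₃ * l) * h2

/-- **The chord and tangent rule.** -/
theorem aff_add {a b z₃ l m : K} (ha : OnCurve V a (l * a + m)) (hb : OnCurve V b (l * b + m))
    (hA : lineA V l ≠ 0)
    (hchord : lineA V l * (a ^ 2 + a * b + b ^ 2) + lineB V l m * (a + b) + lineC V l m = 0)
    (hz : lineA V l * z₃ = -(lineA V l * (a + b)) - lineB V l m) :
    OnCurve V z₃ (l * z₃ + m) ∧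
      aff V a (l * a + m) + aff V b (l * b + m) = -aff V z₃ (l * z₃ + m) := by
  have hPa := (onCurve_line_iff V a l m).1 ha
  have hPb := (onCurve_line_iff V b l m).1 hb
  set A := lineA V l with hAdef
  set B := lineB V l m with hBdef
  set C := lineC V l m with hCdef
  have e1 : A * (a + b + z₃) = -B := by linear_combination hz
  have e2 : A * (a * b + a * z₃ + b * z₃) = C := by
    linear_combination -hchord + (a + b) * e1
  have e3 : A * (a * b * z₃) = -lineD V m := by
    linear_combination a * e2 - a ^ 2 * e1 + hPa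
  have h₃ : OnCurve V z₃ (l * z₃ + m) := (onCurve_line_iff V z₃ l m).2 (by
    rw [← hAdef, ← hBdef, ← hCdef]
    linear_combination z₃ ^ 2 * e1 - z₃ * e2 + e3)
  refine ⟨h₃, ?_⟩
  by_cases hm : m = 0
  · have hD : lineD V m = 0 := by rw [lineD, hm]; ring
    have hC : C = -l := by rw [hCdef, lineC, hm]; ring
    by_cases hl : l = 0
    · simp only [hl, hm, zero_mul, add_zero, aff_zero, neg_zero]
    have hroot : a * b * z₃ = 0 := by
      refine (mul_eq_zero.1 ?_).resolve_left hA
      rw [e3, hD, neg_zero]
    rcases mul_eq_zero.1 hroot with hab | hz0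
    · rcases mul_eq_zero.1 hab with ha0 | hb0
      · have hbz : b * z₃ ≠ 0 := fun h0 => hl (by
          have := e2
          rw [ha0, zero_mul, zero_mul, zero_add, zero_add, h0, mul_zero, hC] at this
          linear_combination this)
        subst ha0
        rw [mul_zero, zero_add]
        nth_rw 1 [hm]
        rw [aff_zero, zero_add]
        refine aff_of_line_zero V hm hl hb h₃ (left_ne_zero_of_mul hbz) (right_ne_zero_of_mul hbz)
          ?_ ?_
        · rw [← e1, zero_add]
        · show A * _ = C
          rw [← e2, zero_mul, zero_mul, zero_add, zero_add]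
      · have haz : a * z₃ ≠ 0 := fun h0 => hl (by
          have := e2
          rw [hb0, mul_zero, zero_mul, zero_add, add_zero, h0, mul_zero, hC] at this
          linear_combination this)
        subst hb0
        rw [mul_zero, zero_add]
        nth_rw 2 [hm]
        rw [aff_zero, add_zero]
        refine aff_of_line_zero V hm hl ha h₃ (left_ne_zero_of_mul haz) (right_ne_zero_of_mul haz)
          ?_ ?_
        · rw [← e1, add_zero]
        · show A * _ = C
          rw [← e2, mul_zero, zero_mul, zero_add, add_zero]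
    · have hab : a * b ≠ 0 := fun h0 => hl (by
        have := e2
        rw [hz0, mul_zero, mul_zero, add_zero, add_zero, h0, mul_zero, hC] at this
        linear_combination this)
      have hw₃ : l * z₃ + m = 0 := by rw [hz0, hm, mul_zero, add_zero]
      rw [hw₃, aff_zero, neg_zero, add_eq_zero_iff_eq_neg]
      refine aff_of_line_zero V hm hl ha hb (left_ne_zero_of_mul hab) (right_ne_zero_of_mul hab)
        ?_ ?_
      · show A * _ = -B
        rw [← e1, hz0, add_zero]
      · show A * _ = C
        rw [← e2, hz0, mul_zero, mul_zero, add_zero, add_zero]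
  set wa := l * a + m with hwa
  set wb := l * b + m with hwb
  set w₃ := l * z₃ + m with hw₃
  have hnz : ∀ z, OnCurve V z (l * z + m) → l * z + m ≠ 0 := fun z hz' h0 => hm (by
    rw [hz'.eq_zero V h0, mul_zero, zero_add] at h0
    exact h0)
  have ha0 : wa ≠ 0 := hnz a ha
  have hb0 : wb ≠ 0 := hnz b hb
  have h30 : w₃ ≠ 0 := hnz z₃ h₃
  rw [aff_eq_some V ha ha0, aff_eq_some V hb hb0, aff_eq_some V h₃ h30, Affine.Point.neg_some]
  have hnot : ¬ (a / wa = b / wb ∧ -1 / wa = V.toAffine.negY (b / wb) (-1 / wb)) ∧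
      V.toAffine.slope (a / wa) (b / wb) (-1 / wa) (-1 / wb) = l / m := by
    by_cases hx : a / wa = b / wb
    · have hab : a = b := by
        rw [div_eq_div_iff ha0 hb0, hwa, hwb] at hx
        exact mul_right_cancel₀ hm (by linear_combination hx)
      subst hab
      set N := 3 * (a / wa) ^ 2 + 2 * V.a₂ * (a / wa) + V.a₄ - V.a₁ * (-1 / wa) with hN
      set D := -1 / wa - V.toAffine.negY (a / wa) (-1 / wa) with hD
      have hkey : N * m = l * D := by
        rw [hN, hD, Affine.negY]
        field_simp
        simp only [hAdef, hBdef, hCdef, lineA, lineB, lineC] at hchord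
        simp only [OnCurve] at ha
        rw [hwa] at ha ⊢
        linear_combination (l * a + m) * hchord + 3 * l * ha
      have hD0 : D ≠ 0 := fun h0 => by
        have hns := ha.nonsingular V ha0
        rw [Affine.nonsingular_iff] at hns
        rw [h0, mul_zero] at hkey
        have hN0 : N = 0 := (mul_eq_zero.1 hkey).resolve_right hm
        rcases hns.2 with h' | h'
        · refine h' ?_
          rw [hN] at hN0
          linear_combination -hN0
        · exact h' (sub_eq_zero.1 h0)
      refine ⟨fun h' => hD0 (sub_eq_zero.2 h'.2), ?_⟩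
      rw [Affine.slope_of_Y_ne rfl fun h' => hD0 (sub_eq_zero.2 h')]
      rw [div_eq_div_iff hD0 hm]
      exact hkey
    · refine ⟨fun h' => hx h'.1, ?_⟩
      rw [Affine.slope_of_X_ne hx, div_eq_div_iff (sub_ne_zero.2 hx) hm]
      field_simp
      rw [hwa, hwb]
      ring
  obtain ⟨hne, hs⟩ := hnot
  rw [Affine.Point.add_some hne, Affine.Point.some.injEq]
  have hX : V.toAffine.addX (a / wa) (b / wb) (V.toAffine.slope (a / wa) (b / wb) (-1 / wa)
      (-1 / wb)) = z₃ / w₃ := by
    rw [hs, Affine.addX]
    field_simp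
    rw [hwa, hwb, hw₃]
    simp only [hAdef, hBdef, hCdef, lineA, lineB, lineC, lineD] at e1 e2 e3
    set Q := l ^ 2 + V.a₁ * l * m - V.a₂ * m ^ 2
    refine mul_left_cancel₀ hA ?_
    rw [hAdef, lineA]
    linear_combination -(m ^ 4 - Q * l * m ^ 2) * e1 - (2 * l * m ^ 3 - Q * l ^ 2 * m) * e2 -
      (3 * l ^ 2 * m ^ 2 - Q * l ^ 3) * e3
  refine ⟨hX, ?_⟩
  rw [Affine.addY, Affine.negAddY, hX, hs]
  congr 1
  field_simp
  rw [hwa, hw₃]
  ring

end FA.SSDR
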