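import Fermat.Agent.SupersingularDeRham.Series
import Mathlib.RingTheory.MvPowerSeries.Evaluation
import Mathlib.RingTheory.AdicCompletion.Topology

/-!
# Evaluation of power series in an adically complete ring

`evz φ z` evaluates at a family `z` in the radical of an ideal for which the target is complete;
it is the unique homomorphism with these values on the constants and the variables.
-/

set_option autoImplicit false
set_option linter.unusedSectionVars false

noncomputable section

open MvPowerSeries Filter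
open scoped Topology

namespace FA.SSDR

variable {σ τ : Type*} [Finite σ] [Finite τ] {R A : Type*} [CommRing R] [CommRing A]

theorem exists_evalHom (I : Ideal A) [IsAdicComplete I A] (φ : R →+* A) (z : σ → A)
    (hz : ∀ s, z s ∈ I.radical) :
    ∃ e : MvPowerSeries σ R →+* A,
      (∀ r, e (MvPowerSeries.C r) = φ r) ∧ ∀ s, e (MvPowerSeries.X s) = z s := by
  let : UniformSpace R := ⊥
  let : WithIdeal A := ⟨I⟩
  have hadic : IsAdic (R := A) I := rfl
  obtain ⟨hc, ht⟩ := hadic.isAdicComplete_iff.1 ‹_›
  have : IsLinearTopology A A := Ideal.isLinearTopology I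
  have hφ : Continuous φ := continuous_of_discreteTopology
  have hpow : ∀ s, IsTopologicallyNilpotent (z s) := fun s => by
    obtain ⟨k, hk⟩ := hz s
    refine hadic.hasBasis_nhds_zero.tendsto_right_iff.2 fun n _ => ?_
    refine eventually_atTop.2 ⟨k * n, fun m hm => ?_⟩
    obtain ⟨d, rfl⟩ := Nat.exists_eq_add_of_le hm
    rw [SetLike.mem_coe, pow_add, pow_mul]
    exact Ideal.mul_mem_right _ _ (Ideal.pow_mem_pow hk n)
  have ha : MvPowerSeries.HasEval z :=
    ⟨hpow, by rw [Filter.cofinite_eq_bot]; exact tendsto_bot⟩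
  refine ⟨MvPowerSeries.eval₂Hom hφ ha, fun r => ?_, fun s => ?_⟩
  · rw [coe_eval₂Hom, eval₂_C]
  · rw [coe_eval₂Hom, eval₂_X]

/-- Evaluation at `z`; it is meaningful when `z` lies in the radical of `I`. -/
def evz (I : Ideal A) [IsAdicComplete I A] (φ : R →+* A) (z : σ → A) (hz : ∀ s, z s ∈ I.radical) :
    MvPowerSeries σ R →+* A :=
  (exists_evalHom I φ z hz).choose

section

variable (I : Ideal A) [IsAdicComplete I A] (φ : R →+* A) {z : σ → A}
  (hz : ∀ s, z s ∈ I.radical)

@[simp]
theorem evz_C (r : R) : evz I φ z hz (MvPowerSeries.C r) = φ r :=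
  (exists_evalHom I φ z hz).choose_spec.1 r

@[simp]
theorem evz_X (s : σ) : evz I φ z hz (MvPowerSeries.X s) = z s :=
  (exists_evalHom I φ z hz).choose_spec.2 s

/-- A homomorphism with the same values is the evaluation. -/
theorem eq_evz (e : MvPowerSeries σ R →+* A) (hC : ∀ r, e (MvPowerSeries.C r) = φ r)
    (hX : ∀ s, e (MvPowerSeries.X s) = z s) : e = evz I φ z hz :=
  hom_ext I (fun r => by rw [hC, evz_C]) (fun s => by rw [hX, evz_X])
    fun s => by rw [hX]; exact hz s

/-- Evaluation of a series without constant term stays in the radical. -/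
theorem evz_mem_radical {f : MvPowerSeries σ R} (hf : constantCoeff f = 0) :
    evz I φ z hz f ∈ I.radical :=
  apply_mem _ (fun s => by rw [evz_X]; exact hz s) hf

theorem evz_mem {J : Ideal A} (hJ : ∀ s, z s ∈ J) {f : MvPowerSeries σ R}
    (hf : constantCoeff f = 0) : evz I φ z hz f ∈ J :=
  apply_mem _ (fun s => by rw [evz_X]; exact hJ s) hf

/-- Evaluation commutes with substitution. -/
theorem evz_subHom {g : τ → MvPowerSeries σ R} (hg : ∀ t, constantCoeff (g t) = 0)
    {y : τ → A} (hy : ∀ t, y t = evz I φ z hz (g t)) (f : MvPowerSeries τ R) :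
    evz I φ z hz (subHom hg f) =
      evz I φ y (fun t => hy t ▸ evz_mem_radical I φ hz (hg t)) f :=
  RingHom.congr_fun (eq_evz I φ _ ((evz I φ z hz).comp (subHom hg))
    (fun r => by rw [RingHom.comp_apply, subHom_C, evz_C])
    fun t => by rw [RingHom.comp_apply, subHom_X, hy t]) f

theorem evz_congr {y : σ → A} (h : z = y) (f : MvPowerSeries σ R) :
    evz I φ z hz f = evz I φ y (h ▸ hz) f := by
  subst h
  rfl

/-- Evaluation commutes with homomorphisms. -/
theorem map_evz {B : Type*} [CommRing B] (J : Ideal B) [IsAdicComplete J B] (ψ : A →+* B)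
    {φ' : R →+* B} (hφ : ∀ r, ψ (φ r) = φ' r) {y : σ → B} (hy : ∀ s, ψ (z s) = y s)
    (hyr : ∀ s, y s ∈ J.radical) (f : MvPowerSeries σ R) :
    ψ (evz I φ z hz f) = evz J φ' y hyr f :=
  RingHom.congr_fun (eq_evz J φ' hyr (ψ.comp (evz I φ z hz))
    (fun r => by rw [RingHom.comp_apply, evz_C, hφ])
    fun s => by rw [RingHom.comp_apply, evz_X, hy]) f

/-- Evaluation after a change of coefficients. -/
theorem evz_map {S : Type*} [CommRing S] (ψ : R →+* S) (φ' : S →+* A)
    (hφ : ∀ r, φ' (ψ r) = φ r) (f : MvPowerSeries σ R) :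
    evz I φ' z hz (MvPowerSeries.map ψ f) = evz I φ z hz f :=
  RingHom.congr_fun (eq_evz I φ hz ((evz I φ' z hz).comp (MvPowerSeries.map ψ))
    (fun r => by rw [RingHom.comp_apply, map_C, evz_C, hφ])
    fun s => by rw [RingHom.comp_apply, map_X, evz_X]) f

end

/-- At zero only the constant term is left. -/
theorem evz_zero (I : Ideal A) [IsAdicComplete I A] (φ : R →+* A) (f : MvPowerSeries σ R) :
    evz I φ (fun _ => 0) (fun _ => zero_mem _) f = φ (constantCoeff f) :=
  (RingHom.congr_fun (eq_evz I φ (z := fun _ : σ => (0 : A)) (fun _ => zero_mem _)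
    (φ.comp (constantCoeff (σ := σ) (R := R)))
    (fun r => by rw [RingHom.comp_apply, constantCoeff_C])
    fun s => by rw [RingHom.comp_apply, constantCoeff_X, map_zero]) f).symm

end FA.SSDR
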