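import Fermat.Agent.BDRCohomology.Topology
import Fermat.Agent.SupersingularDeRham.Eval

/-!
# The ideal of definition of `A_inf`

`A_inf` is complete and separated for `(p, ξ)`, and an element whose image under `θ` has absolute
value less than one lies in the radical.
-/

set_option autoImplicit false
set_option linter.unusedSectionVars false

noncomputable section

open Ideal Finset FA.TateSen FA.FontaineWintenberger FA.BDR FA.PadicHodge FA.BDRCoh WittVector

namespace FA.SSDR

variable {p : ℕ} [hp : Fact p.Prime]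

local notation "C" => ℂ_[p]

theorem mem_defIdeal_iff {x : AInf p} :
    x ∈ defIdeal p ↔ ∃ a b : AInf p, x = (p : AInf p) * a + xi p * b := by
  rw [defIdeal, mem_span_pair]
  exact ⟨fun ⟨a, b, h⟩ => ⟨a, b, by rw [← h]; ring⟩, fun ⟨a, b, h⟩ => ⟨a, b, by rw [h]; ring⟩⟩

theorem constantCoeff_eq_zero_iff {x : AInf p} :
    WittVector.constantCoeff x = (0 : OFlat p) ↔ (p : AInf p) ∣ x := by
  rw [← mem_span_singleton, mem_span_p_iff_coeff_zero_eq_zero]
  rfl

theorem constantCoeff_mem {n : ℕ} {x : AInf p} (h : x ∈ defIdeal p ^ n) :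
    pFlat p ^ n ∣ WittVector.constantCoeff x := by
  have h1 : (defIdeal p).map (WittVector.constantCoeff (p := p) (R := OFlat p)) ≤
      span {pFlat p} :=
    Ideal.map_le_iff_le_comap.2 fun y hy => by
      obtain ⟨a, b, rfl⟩ := mem_defIdeal_iff.1 hy
      rw [Ideal.mem_comap, map_add, map_mul, map_mul, constantCoeff_xi,
        constantCoeff_natCast_p, zero_mul, zero_add]
      exact mem_span_singleton.2 (dvd_mul_right _ _)
  have h2 := Ideal.mem_map_of_mem (WittVector.constantCoeff (p := p) (R := OFlat p)) h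
  rw [Ideal.map_pow] at h2
  have h3 := Ideal.pow_right_mono h1 n h2
  rwa [span_singleton_pow, mem_span_singleton] at h3

theorem p_pow_mem {n : ℕ} : (p : AInf p) ^ n ∈ defIdeal p ^ n :=
  Ideal.pow_mem_pow p_mem_defIdeal n

theorem xi_mem_defIdeal : xi p ∈ defIdeal p := subset_span (Or.inr rfl)

theorem sup_pow_succ_le {A : Type*} [CommRing A] (P Q : Ideal A) :
    ∀ n : ℕ, (P ⊔ Q) ^ (n + 1) ≤ P * (P ⊔ Q) ^ n ⊔ Q ^ (n + 1)
  | 0 => by simp
  | n + 1 => by
    rw [pow_succ' (P ⊔ Q) (n + 1), Ideal.sup_mul]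
    refine sup_le le_sup_left ((Ideal.mul_mono le_rfl (sup_pow_succ_le P Q n)).trans ?_)
    rw [Ideal.mul_sup, ← pow_succ']
    refine sup_le (le_sup_of_le_left ?_) le_sup_right
    rw [← mul_assoc, mul_comm Q P, mul_assoc]
    exact Ideal.mul_mono le_rfl (by
      rw [pow_succ']; exact Ideal.mul_mono le_sup_right le_rfl)

/-- A multiple of `p` in a power of the ideal. -/
theorem div_p_mem {n : ℕ} {x : AInf p} (h : (p : AInf p) * x ∈ defIdeal p ^ (n + 1)) :
    x ∈ defIdeal p ^ n := by
  have hsub : defIdeal p ^ (n + 1) ≤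
      span {(p : AInf p)} * defIdeal p ^ n ⊔ span {xi p ^ (n + 1)} := by
    rw [defIdeal, span_insert, ← span_singleton_pow]
    exact sup_pow_succ_le _ _ n
  obtain ⟨y, hy, z, hz, e⟩ := Submodule.mem_sup.1 (hsub h)
  obtain ⟨y', hy', rfl⟩ := mem_span_singleton_mul.1 hy
  obtain ⟨c, rfl⟩ := mem_span_singleton.1 hz
  have hc : (p : AInf p) ∣ c := by
    have h0 := congrArg (WittVector.constantCoeff (p := p) (R := OFlat p)) e
    simp only [map_add, map_mul, constantCoeff_natCast_p, zero_mul, zero_add, map_pow,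
      constantCoeff_xi] at h0
    exact constantCoeff_eq_zero_iff.1
      ((mul_eq_zero.1 h0).resolve_left (pow_ne_zero _ pFlat_ne_zero))
  obtain ⟨c', rfl⟩ := hc
  have hx : x = y' + xi p ^ (n + 1) * c' :=
    mul_left_cancel₀ (p_ne_zero_AInf (p := p)) (by linear_combination -e)
  rw [hx]
  exact add_mem hy' (Ideal.mul_mem_right _ _
    (Ideal.pow_le_pow_right n.le_succ (Ideal.pow_mem_pow xi_mem_defIdeal _)))

theorem norm_pFlat : ‖toFlat (pFlat p)‖ = ‖(p : C)‖ := by
  rw [norm_flat_def, ← untilt_eq_seq, untilt_pFlat, coe_natCast_OC]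

theorem eq_zero_of_forall_pFlat_dvd {x : OFlat p} (h : ∀ n, pFlat p ^ n ∣ x) : x = 0 := by
  refine toFlat_injective ((norm_le_zero_iff.1 ?_).trans (map_zero _).symm)
  refine ge_of_tendsto'
    (tendsto_pow_atTop_nhds_zero_of_lt_one (norm_nonneg (p : C)) norm_p_C_lt) fun n => ?_
  obtain ⟨c, rfl⟩ := h n
  rw [map_mul, map_pow, norm_mul, norm_pow, norm_pFlat]
  exact mul_le_of_le_one_right (by positivity) (norm_toFlat_le c)

theorem pFlat_pow_dvd_of_coeff {x : OFlat p} {m : ℕ} (h : PreTilt.coeff m x = 0) :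
    pFlat p ^ p ^ m ∣ x := by
  have h1 : pFlat p ∣ rootsFlat m x := pFlat_dvd (by
    rw [← mem_span_singleton, ← Ideal.Quotient.eq_zero_iff_mem, mk_untilt_roots, h])
  have e : x = rootsFlat m x ^ p ^ m := by
    rw [← iterateFrobenius_def]
    exact (Function.LeftInverse.iterate (frobenius_apply_frobeniusEquiv_symm (OFlat p) p) m x).symm
      |>.trans (iterate_frobenius (R := OFlat p) p m _)
  rw [e]
  exact pow_dvd_pow_of_dvd h1 _

theorem coeff_pFlat_pow (m : ℕ) : PreTilt.coeff m (pFlat p ^ p ^ m) = 0 := by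
  have h0 : PreTilt.coeff 0 (pFlat p) = 0 := by
    rw [← PreTilt.mk_untilt_eq_coeff_zero, untilt_pFlat, Ideal.Quotient.eq_zero_iff_mem]
    exact mem_span_singleton_self _
  rw [← iterateFrobenius_def, iterateFrobenius_def, ← iterate_frobenius (R := OFlat p) p m]
  exact (PreTilt.coeff_iterate_frobenius' (pFlat p) le_rfl).trans (by rwa [Nat.sub_self])

/-- The perfection is complete for the powers of `p♭`. -/
theorem exists_limit_oflat (x : ℕ → OFlat p) (hx : ∀ m n, m ≤ n → pFlat p ^ m ∣ x m - x n) :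
    ∃ y, ∀ n, pFlat p ^ n ∣ y - x n := by
  have hcompat : ∀ m M, p ^ m ≤ M →
      PreTilt.coeff m (x M) = PreTilt.coeff m (x (p ^ m)) := fun m M hM => by
    obtain ⟨c, hc⟩ := hx _ _ hM
    have h1 := congrArg (PreTilt.coeff m) hc
    rw [map_sub, map_mul, coeff_pFlat_pow, zero_mul, sub_eq_zero] at h1
    exact h1.symm
  let y : OFlat p := ⟨fun m => PreTilt.coeff m (x (p ^ m)), fun m => by
    show PreTilt.coeff (m + 1) (x (p ^ (m + 1))) ^ p = _
    rw [PreTilt.coeff_pow_p, hcompat m _ (Nat.pow_le_pow_right hp.out.pos m.le_succ)]⟩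
  have hy : ∀ m, pFlat p ^ p ^ m ∣ y - x (p ^ m) := fun m =>
    pFlat_pow_dvd_of_coeff (by rw [map_sub, sub_eq_zero]; rfl)
  refine ⟨y, fun n => ?_⟩
  have hn : n ≤ p ^ n := (Nat.lt_pow_self hp.out.one_lt).le
  rw [← sub_add_sub_cancel y (x (p ^ n)) (x n)]
  exact dvd_add ((pow_dvd_pow _ hn).trans (hy n)) (dvd_sub_comm.1 (hx n _ hn))

theorem exists_limit_step (f : ℕ → AInf p)
    (hf : ∀ m n, m ≤ n → f m - f n ∈ defIdeal p ^ m) :
    ∃ (x : AInf p) (g : ℕ → AInf p), (∀ m n, m ≤ n → g m - g n ∈ defIdeal p ^ m) ∧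
      ∀ n, x - (p : AInf p) * g n - f (n + 1) ∈ span {xi p ^ (n + 1)} := by
  obtain ⟨y, hy⟩ := exists_limit_oflat (fun n => WittVector.constantCoeff (f n)) fun m n hmn => by
    rw [← map_sub]
    exact constantCoeff_mem (hf m n hmn)
  set x : AInf p := teichmuller p y
  have h : ∀ n, ∃ g c : AInf p, x - f (n + 1) = (p : AInf p) * g + xi p ^ (n + 1) * c := by
    intro n
    obtain ⟨d, hd⟩ := hy (n + 1)
    have h0 : WittVector.constantCoeff (x - f (n + 1) - xi p ^ (n + 1) * teichmuller p d) = 0 := by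
      have hT : ∀ r : OFlat p, WittVector.constantCoeff (teichmuller p r) = r :=
        fun r => teichmuller_coeff_zero p r
      simp only [x, map_sub, map_mul, map_pow, constantCoeff_xi, hT, hd, sub_self]
    obtain ⟨g, hg⟩ := constantCoeff_eq_zero_iff.1 h0
    exact ⟨g, teichmuller p d, by rw [← hg]; ring⟩
  choose g c hgc using h
  refine ⟨x, g, fun m n hmn => div_p_mem ?_, fun n => ?_⟩
  · have e : (p : AInf p) * (g m - g n) = (f (n + 1) - f (m + 1)) +
        (xi p ^ (n + 1) * c n - xi p ^ (m + 1) * c m) := by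
      linear_combination -(hgc m) + hgc n
    rw [e]
    refine add_mem ?_ (sub_mem (Ideal.mul_mem_right _ _ ?_) (Ideal.mul_mem_right _ _
      (Ideal.pow_mem_pow xi_mem_defIdeal _)))
    · rw [← neg_sub]
      exact neg_mem (hf (m + 1) (n + 1) (by omega))
    · exact Ideal.pow_le_pow_right (by omega) (Ideal.pow_mem_pow xi_mem_defIdeal _)
  · exact mem_span_singleton.2 ⟨c n, by linear_combination hgc n⟩

/-- Approximation of the limit by a series in powers of `p`. -/
def approx : ℕ → ∀ f : ℕ → AInf p, (∀ m n, m ≤ n → f m - f n ∈ defIdeal p ^ m) → AInf p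
  | 0, _, _ => 0
  | k + 1, f, hf => (exists_limit_step f hf).choose - (p : AInf p) *
      approx k (exists_limit_step f hf).choose_spec.choose
        (exists_limit_step f hf).choose_spec.choose_spec.1

theorem approx_mem : ∀ (n k : ℕ) (f : ℕ → AInf p)
    (hf : ∀ m n, m ≤ n → f m - f n ∈ defIdeal p ^ m), n ≤ k → approx k f hf - f n ∈ defIdeal p ^ n
  | 0, k, f, hf, _ => by simp
  | n + 1, 0, f, hf, h => absurd h (by omega)
  | n + 1, k + 1, f, hf, h => by
    set x := (exists_limit_step f hf).choose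
    set g := (exists_limit_step f hf).choose_spec.choose
    have hs := (exists_limit_step f hf).choose_spec.choose_spec
    have h1 := approx_mem n k g hs.1 (by omega)
    have e : approx (k + 1) f hf - f (n + 1) =
        (x - (p : AInf p) * g n - f (n + 1)) - (p : AInf p) * (approx k g hs.1 - g n) := by
      rw [approx]
      ring
    rw [e]
    refine sub_mem ((span_singleton_le_iff_mem _).2
      (Ideal.pow_mem_pow xi_mem_defIdeal _) (hs.2 n)) ?_
    rw [pow_succ']
    exact Ideal.mul_mem_mul p_mem_defIdeal h1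

theorem approx_succ_sub : ∀ (k : ℕ) (f : ℕ → AInf p)
    (hf : ∀ m n, m ≤ n → f m - f n ∈ defIdeal p ^ m),
    (p : AInf p) ^ k ∣ approx k f hf - approx (k + 1) f hf
  | 0, _, _ => by simp
  | k + 1, f, hf => by
    have h := approx_succ_sub k (exists_limit_step f hf).choose_spec.choose
      (exists_limit_step f hf).choose_spec.choose_spec.1
    rw [approx.eq_2 (k := k + 1), approx.eq_2 (k := k), pow_succ', sub_sub_sub_cancel_left,
      ← mul_sub]
    exact mul_dvd_mul_left _ (dvd_sub_comm.1 h)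

/-- **`A_inf` is complete for `(p, ξ)`.** -/
instance isAdicComplete_defIdeal : IsAdicComplete (defIdeal p) (AInf p) where
  haus' x hx := by
    have h : ∀ (k : ℕ) (y : AInf p), (∀ n, y ∈ defIdeal p ^ n) → (p : AInf p) ^ k ∣ y := by
      intro k
      induction k with
      | zero => intro y _; simp
      | succ k ih =>
        intro y hy
        obtain ⟨y', rfl⟩ := constantCoeff_eq_zero_iff.1
          (eq_zero_of_forall_pFlat_dvd fun n => constantCoeff_mem (hy n))
        rw [pow_succ']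
        exact mul_dvd_mul_left _ (ih y' fun n => div_p_mem (hy (n + 1)))
    refine IsHausdorff.haus (inferInstance : IsHausdorff (span {(p : AInf p)}) (AInf p)) _
      fun k => ?_
    rw [SModEq.zero, smul_eq_mul, Ideal.mul_top, span_singleton_pow, mem_span_singleton]
    refine h k x fun n => ?_
    have := hx n
    rwa [SModEq.zero, smul_eq_mul, Ideal.mul_top] at this
  prec' f hf := by
    have hf' : ∀ m n, m ≤ n → f m - f n ∈ defIdeal p ^ m := fun m n hmn => by
      have := hf hmn
      rwa [SModEq.sub_mem, smul_eq_mul, Ideal.mul_top] at this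
    have hc : ∀ m n, m ≤ n → (p : AInf p) ^ m ∣ approx m f hf' - approx n f hf' := by
      intro m n hmn
      induction n, hmn using Nat.le_induction with
      | base => simp
      | succ n hmn ih =>
        rw [← sub_add_sub_cancel _ (approx n f hf')]
        exact dvd_add ih ((pow_dvd_pow _ hmn).trans (approx_succ_sub n f hf'))
    obtain ⟨L, hL⟩ := IsPrecomplete.prec
      (inferInstance : IsPrecomplete (span {(p : AInf p)}) (AInf p))
      (f := fun k => approx k f hf') fun {m n} hmn => by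
      rw [SModEq.sub_mem, smul_eq_mul, Ideal.mul_top, span_singleton_pow, mem_span_singleton]
      exact hc m n hmn
    refine ⟨L, fun n => ?_⟩
    rw [SModEq.sub_mem, smul_eq_mul, Ideal.mul_top, ← neg_sub, neg_mem_iff]
    have h := hL n
    rw [SModEq.sub_mem, smul_eq_mul, Ideal.mul_top, span_singleton_pow, mem_span_singleton] at h
    rw [← sub_add_sub_cancel L (approx n f hf') (f n)]
    refine add_mem ?_ (approx_mem n n f hf' le_rfl)
    obtain ⟨c, hc'⟩ := h
    rw [show L - approx n f hf' = -((p : AInf p) ^ n * c) by rw [← hc']; ring]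
    exact neg_mem (Ideal.mul_mem_right _ _ p_pow_mem)

theorem theta_mem_span {n : ℕ} {x : AInf p} (h : x ∈ defIdeal p ^ n) :
    (p : OC p) ^ n ∣ theta p x := by
  have h1 : (defIdeal p).map (theta p) ≤ span {(p : OC p)} :=
    Ideal.map_le_iff_le_comap.2 fun y hy => by
      obtain ⟨a, b, rfl⟩ := mem_defIdeal_iff.1 hy
      rw [Ideal.mem_comap, map_add, map_mul, map_mul, theta_xi, zero_mul, add_zero, map_natCast]
      exact mem_span_singleton.2 (dvd_mul_right _ _)
  have h2 := Ideal.mem_map_of_mem (theta p) h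
  rw [Ideal.map_pow] at h2
  have h3 := Ideal.pow_right_mono h1 n h2
  rwa [span_singleton_pow, mem_span_singleton] at h3

theorem mem_defIdeal_of_theta {x : AInf p} (h : (p : OC p) ∣ theta p x) : x ∈ defIdeal p := by
  obtain ⟨c, hc⟩ := h
  obtain ⟨a, rfl⟩ := surjective_theta c
  obtain ⟨b, hb⟩ : xi p ∣ x - (p : AInf p) * a := by
    rw [← mem_span_singleton, ← ker_theta, RingHom.mem_ker, map_sub, map_mul, map_natCast, hc,
      sub_self]
  exact mem_defIdeal_iff.2 ⟨a, b, by rw [← hb]; ring⟩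

theorem mem_radical_of_norm {y : OC p} (h : ‖(y : C)‖ < 1) :
    y ∈ (span {(p : OC p)}).radical := by
  obtain ⟨k, hk⟩ := exists_pow_lt_of_lt_one (norm_p_pos_C (p := p)) h
  exact ⟨k, mem_span_singleton.2 (dvd_OC.2 (by
    rw [SubmonoidClass.coe_pow, norm_pow]; exact hk.le))⟩

theorem mem_radical_of_theta {x : AInf p} (h : ‖((theta p x : OC p) : C)‖ < 1) :
    x ∈ (defIdeal p).radical := by
  obtain ⟨k, hk⟩ := mem_radical_of_norm h
  exact ⟨k, mem_defIdeal_of_theta (by rwa [map_pow, ← mem_span_singleton])⟩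

theorem norm_theta_lt {x : AInf p} (h : x ∈ (defIdeal p).radical) :
    ‖((theta p x : OC p) : C)‖ < 1 := by
  obtain ⟨k, hk⟩ := h
  rcases Nat.eq_zero_or_pos k with rfl | hk0
  · rw [pow_zero] at hk
    obtain h1 := theta_mem_span (n := 1) (by rwa [pow_one])
    rw [pow_one, map_one] at h1
    exact absurd (isUnit_iff_dvd_one.2 h1) not_isUnit_p
  have h1 := theta_mem_span (n := 1) (by rwa [pow_one])
  rw [pow_one, map_pow, dvd_OC, SubmonoidClass.coe_pow, norm_pow] at h1
  exact (pow_lt_one_iff_of_nonneg (norm_nonneg _) hk0.ne').1 (h1.trans_lt norm_p_C_lt)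

variable (p) in
/-- The kernel of `θ` on `B_dR⁺`. -/
def tIdeal : Ideal (BPlus p) := RingHom.ker (thetaPlus p)

theorem tIdeal_eq : tIdeal p = span {piBDR p} := ker_thetaPlus

instance isAdicComplete_tIdeal : IsAdicComplete (tIdeal p) (BPlus p) where
  haus' x hx := eq_zero_of_dvd_completion _ _ bdrIdeal_eq fun n => by
    have h := hx n
    rwa [SModEq.zero, smul_eq_mul, Ideal.mul_top, tIdeal_eq, span_singleton_pow,
      mem_span_singleton] at h
  prec' f hf := by
    obtain ⟨y, hy⟩ := exists_limit_bPlus f fun m n hmn => by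
      have h := hf hmn
      rwa [SModEq.sub_mem, smul_eq_mul, Ideal.mul_top, tIdeal_eq, span_singleton_pow,
        mem_span_singleton] at h
    refine ⟨y, fun n => ?_⟩
    rw [SModEq.sub_mem, smul_eq_mul, Ideal.mul_top, tIdeal_eq, span_singleton_pow,
      mem_span_singleton]
    exact dvd_sub_comm.1 (hy n)

variable (p) in
/-- `A_inf` inside `B_dR⁺`. -/
def aInfB : AInf p →+* BPlus p := (toBPlus p).comp (algebraMap (AInf p) (AInfP p))

theorem thetaPlus_aInfB (x : AInf p) : thetaPlus p (aInfB p x) = ((theta p x : OC p) : C) := by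
  rw [aInfB, RingHom.comp_apply, thetaPlus_toBPlus, thetaC_algebraMap]

theorem aInfB_mem {x : AInf p} (h : theta p x = 0) : aInfB p x ∈ tIdeal p := by
  rw [tIdeal, RingHom.mem_ker, thetaPlus_aInfB, h]
  rfl

theorem mkQ_aInfB (n : ℕ) (x : AInf p) : mkQ p n (aInfB p x) = imgA p n x := rfl

theorem aInfB_injective : Function.Injective (aInfB p) := by
  rw [injective_iff_map_eq_zero]
  intro x hx
  refine IsHausdorff.haus (inferInstance : IsHausdorff (defIdeal p) (AInf p)) _ fun n => ?_
  rw [SModEq.zero, smul_eq_mul, Ideal.mul_top]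
  have h : imgA p n x = 0 := by rw [← mkQ_aInfB, hx, map_zero]
  obtain ⟨c, rfl⟩ := imgA_eq_zero_iff.1 h
  exact Ideal.mul_mem_right _ _ (Ideal.pow_mem_pow xi_mem_defIdeal _)

theorem smul_aInfB (σ : PadicAlgCl p ≃ₐ[ℚ_[p]] PadicAlgCl p) (x : AInf p) :
    σ • aInfB p x = aInfB p (ainfGal σ x) := by
  rw [smul_bplus_def, aInfB, RingHom.comp_apply, bplusGal_toBPlus, ainfPGal_algebraMap]
  rfl

theorem aInfB_zpHom (z : ℤ_[p]) : aInfB p (zpHom p z) = qpHom p (z : ℚ_[p]) := by
  rw [← PadicInt.algebraMap_apply, qpHom, IsLocalization.lift_eq]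
  rfl

end FA.SSDR
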