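import Fermat.Agent.SupersingularDeRham.WSeries
import Mathlib.RingTheory.FormalGroup.Basic

/-!
# The formal group of a Weierstrass equation

The third zero on the line through two points gives a series `F` in two variables. Under every
homomorphism of rings to a field with an elliptic equation it adds the points with parameters the
values of the variables.
-/

set_option autoImplicit false
set_option linter.unusedSectionVars false

noncomputable section

open Finsupp WeierstrassCurve
open scoped Classical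

namespace FA.SSDR

variable {σ τ : Type*} [Finite σ] [Finite τ] {R : Type*} [CommRing R] (W : WeierstrassCurve R)

local notation "S₂" => MvPowerSeries (Fin 2) R

/-- `w` at the variable `i`. -/
def wAt (i : σ) : MvPowerSeries σ R := comp1 (MvPowerSeries.constantCoeff_X i) (wSeries W)

/-- The slope of the chord. -/
def lamS : S₂ := divDiff (wSeries W)

/-- The intercept of the chord. -/
def nuS : S₂ := wAt W 0 - lamS W * MvPowerSeries.X 0

variable (σ) in
/-- The equation over the series. -/
abbrev serCurve : WeierstrassCurve (MvPowerSeries σ R) :=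
  W.map (MvPowerSeries.C (σ := σ) (R := R))

/-- The leading coefficient on the chord. -/
def cubA : S₂ := lineA (serCurve (Fin 2) W) (lamS W)

/-- The parameter of the third zero. -/
def z3S : S₂ :=
  -MvPowerSeries.X 0 - MvPowerSeries.X 1 -
    lineB (serCurve (Fin 2) W) (lamS W) (nuS W) * inv1 (cubA W)

/-- The value of `w` at the third zero. -/
def w3S : S₂ := lamS W * z3S W + nuS W

/-- The denominator of the opposite of the third zero. -/
def denS : S₂ := 1 - (serCurve (Fin 2) W).a₁ * z3S W - (serCurve (Fin 2) W).a₃ * w3S W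

/-- **The formal addition law.** -/
def fgAdd : S₂ := -(z3S W * inv1 (denS W))

/-- The value of `w` at the sum. -/
def fgAddW : S₂ := -(w3S W * inv1 (denS W))

theorem wAt_onCurve (i : σ) : OnCurve (serCurve σ W) (MvPowerSeries.X i) (wAt W i) := by
  have h := (onCurve_wSeries W).map _ (comp1 (MvPowerSeries.constantCoeff_X i (R := R)))
  have hcomp : (comp1 (MvPowerSeries.constantCoeff_X i (R := R))).comp (PowerSeries.C (R := R)) =
      MvPowerSeries.C := RingHom.ext fun r => comp1_C (MvPowerSeries.constantCoeff_X i) r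
  rwa [WeierstrassCurve.map_map, hcomp, comp1_X] at h

theorem lamS_mul_X_one : lamS W * MvPowerSeries.X 1 + nuS W = wAt W 1 := by
  have h := sub_mul_divDiff (wSeries W)
  rw [nuS, lamS, wAt, wAt]
  linear_combination -h

theorem lamS_mul_X_zero : lamS W * MvPowerSeries.X 0 + nuS W = wAt W 0 := by
  rw [nuS]
  ring

theorem coeff_wSeries_low : ∀ {n : ℕ}, n < 3 → PowerSeries.coeff n (wSeries W) = 0 := by
  obtain ⟨u, hu, -⟩ := exists_wSeries_eq W
  intro n hn
  exact PowerSeries.X_pow_dvd_iff.1 ⟨u, hu⟩ n hn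

theorem lamS_mem : lamS W ∈ varIdeal (Fin 2) R ^ 2 := by
  refine mem_varIdeal_pow 2 _ fun d hd => coeff_wSeries_low W ?_
  rw [degree_eq_sum, Fin.sum_univ_two] at hd
  omega

theorem nuS_mem : nuS W ∈ varIdeal (Fin 2) R ^ 2 := by
  refine sub_mem ?_ (Ideal.mul_mem_right _ _ (lamS_mem W))
  obtain ⟨u, hu, -⟩ := exists_wSeries_eq W
  rw [wAt, hu, map_mul, map_pow, comp1_X]
  exact Ideal.mul_mem_right _ _
    (Ideal.pow_le_pow_right (by omega : 2 ≤ 3) (Ideal.pow_mem_pow (X_mem_varIdeal 0) 3))

theorem constantCoeff_lamS : MvPowerSeries.constantCoeff (lamS W) = 0 :=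
  constantCoeff_eq_zero_of_mem (Ideal.pow_le_self two_ne_zero (lamS_mem W))

theorem constantCoeff_nuS : MvPowerSeries.constantCoeff (nuS W) = 0 :=
  constantCoeff_eq_zero_of_mem (Ideal.pow_le_self two_ne_zero (nuS_mem W))

theorem constantCoeff_cubA : MvPowerSeries.constantCoeff (cubA W) = 1 := by
  simp [cubA, lineA, constantCoeff_lamS]

theorem z3S_add_mem :
    z3S W + (MvPowerSeries.X 0 + MvPowerSeries.X 1) ∈ varIdeal (Fin 2) R ^ 2 := by
  have e : z3S W + (MvPowerSeries.X 0 + MvPowerSeries.X 1) =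
      -(lineB (serCurve (Fin 2) W) (lamS W) (nuS W) * inv1 (cubA W)) := by
    rw [z3S]
    ring
  rw [e]
  refine neg_mem (Ideal.mul_mem_right _ _ ?_)
  have hl := lamS_mem W
  have hn := nuS_mem W
  simp only [lineB, sq (lamS W)]
  refine add_mem (add_mem (add_mem (add_mem ?_ ?_) ?_) ?_) ?_
  · exact Ideal.mul_mem_left _ _ hl
  · exact Ideal.mul_mem_left _ _ hn
  · exact Ideal.mul_mem_left _ _ (Ideal.mul_mem_left _ _ hl)
  · exact Ideal.mul_mem_left _ _ hn
  · exact Ideal.mul_mem_left _ _ hn

theorem constantCoeff_z3S : MvPowerSeries.constantCoeff (z3S W) = 0 := by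
  have h := constantCoeff_eq_zero_of_mem (Ideal.pow_le_self two_ne_zero (z3S_add_mem W))
  simpa using h

theorem constantCoeff_w3S : MvPowerSeries.constantCoeff (w3S W) = 0 := by
  simp [w3S, constantCoeff_lamS, constantCoeff_nuS]

theorem constantCoeff_denS : MvPowerSeries.constantCoeff (denS W) = 1 := by
  simp [denS, constantCoeff_z3S, constantCoeff_w3S]

theorem constantCoeff_fgAdd : MvPowerSeries.constantCoeff (fgAdd W) = 0 := by
  simp [fgAdd, constantCoeff_z3S]

/-- `F ≡ X + Y` in degree one. -/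
theorem fgAdd_sub_mem :
    fgAdd W - (MvPowerSeries.X 0 + MvPowerSeries.X 1) ∈ varIdeal (Fin 2) R ^ 2 := by
  have e : fgAdd W - (MvPowerSeries.X 0 + MvPowerSeries.X 1) =
      -(z3S W + (MvPowerSeries.X 0 + MvPowerSeries.X 1)) - z3S W * (inv1 (denS W) - 1) := by
    rw [fgAdd]
    ring
  rw [e]
  refine sub_mem (neg_mem (z3S_add_mem W)) ?_
  rw [sq]
  exact Ideal.mul_mem_mul (mem_varIdeal (constantCoeff_z3S W))
    (mem_varIdeal (by rw [map_sub, constantCoeff_inv1, map_one, sub_self]))

variable [IsDomain R]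

theorem X_zero_sub_X_one_ne_zero :
    (MvPowerSeries.X 0 - MvPowerSeries.X 1 : S₂) ≠ 0 := fun h => by
  classical
  have := congrArg (MvPowerSeries.coeff (single (0 : Fin 2) 1)) h
  simp [MvPowerSeries.coeff_X, single_left_inj] at this

theorem chord_eq :
    cubA W * (MvPowerSeries.X 0 ^ 2 + MvPowerSeries.X 0 * MvPowerSeries.X 1 +
      MvPowerSeries.X 1 ^ 2) +
      lineB (serCurve (Fin 2) W) (lamS W) (nuS W) * (MvPowerSeries.X 0 + MvPowerSeries.X 1) +
      lineC (serCurve (Fin 2) W) (lamS W) (nuS W) = 0 := by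
  have h0 := wAt_onCurve W (0 : Fin 2)
  have h1 := wAt_onCurve W (1 : Fin 2)
  rw [← lamS_mul_X_zero, onCurve_line_iff] at h0
  rw [← lamS_mul_X_one, onCurve_line_iff] at h1
  refine (mul_eq_zero.1 ?_).resolve_left (X_zero_sub_X_one_ne_zero (R := R))
  rw [cubA]
  linear_combination h0 - h1

theorem cubA_mul_z3S :
    cubA W * z3S W = -(cubA W * (MvPowerSeries.X 0 + MvPowerSeries.X 1)) -
      lineB (serCurve (Fin 2) W) (lamS W) (nuS W) := by
  rw [z3S]
  linear_combination
    -(lineB (serCurve (Fin 2) W) (lamS W) (nuS W)) * mul_inv1 (constantCoeff_cubA W)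

theorem w3S_onCurve : OnCurve (serCurve (Fin 2) W) (z3S W) (w3S W) := by
  have h0 := (onCurve_line_iff _ _ _ _).1 ((lamS_mul_X_zero W).symm ▸ wAt_onCurve W (0 : Fin 2))
  have hch := chord_eq W
  have hz := cubA_mul_z3S W
  rw [w3S, onCurve_line_iff]
  rw [cubA] at hz hch
  linear_combination (z3S W - MvPowerSeries.X 0) * (z3S W - MvPowerSeries.X 1) * hz +
    (z3S W - MvPowerSeries.X 0) * hch + h0

theorem fgAddW_eq : fgAddW W = comp1 (constantCoeff_fgAdd W) (wSeries W) :=
  eq_comp1_wSeries W _ (by simp [fgAddW, constantCoeff_w3S])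
    ((w3S_onCurve W).negPair _ (mul_inv1 (constantCoeff_denS W)))

section Points

variable {K : Type*} [Field K] {φ : R →+* K} [(W.map φ).IsElliptic]

/-- **The values of `F` add the points.** -/
theorem fgAdd_spec (e : S₂ →+* K) (he : ∀ r, e (MvPowerSeries.C r) = φ r) :
    aff (W.map φ) (e (MvPowerSeries.X 0)) (e (wAt W 0)) +
        aff (W.map φ) (e (MvPowerSeries.X 1)) (e (wAt W 1)) =
      aff (W.map φ) (e (fgAdd W)) (e (fgAddW W)) := by
  have hV : (serCurve (Fin 2) W).map e = W.map φ := by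
    rw [serCurve, WeierstrassCurve.map_map]
    congr 1
    exact RingHom.ext he
  have hA : ∀ l, e (lineA (serCurve (Fin 2) W) l) = lineA (W.map φ) (e l) := fun l => by
    rw [← hV]
    simp [lineA]
  have hB : ∀ l m, e (lineB (serCurve (Fin 2) W) l m) = lineB (W.map φ) (e l) (e m) := fun l m => by
    rw [← hV]
    simp [lineB, map_ofNat]
  have hC : ∀ l m, e (lineC (serCurve (Fin 2) W) l m) = lineC (W.map φ) (e l) (e m) := fun l m => by
    rw [← hV]
    simp [lineC, map_ofNat]
  have h0 : e (wAt W (0 : Fin 2)) = e (lamS W) * e (MvPowerSeries.X 0) + e (nuS W) := by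
    rw [← lamS_mul_X_zero, map_add, map_mul]
  have h1 : e (wAt W (1 : Fin 2)) = e (lamS W) * e (MvPowerSeries.X 1) + e (nuS W) := by
    rw [← lamS_mul_X_one, map_add, map_mul]
  have ha := (wAt_onCurve W (0 : Fin 2)).map _ e
  have hb := (wAt_onCurve W (1 : Fin 2)).map _ e
  rw [hV, h0] at ha
  rw [hV, h1] at hb
  have hA0 : lineA (W.map φ) (e (lamS W)) ≠ 0 := by
    rw [← hA]
    exact ((isUnit_of_constantCoeff (constantCoeff_cubA W)).map e).ne_zero
  have hch := congrArg e (chord_eq W)
  have hz := congrArg e (cubA_mul_z3S W)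
  simp only [cubA, map_add, map_sub, map_neg, map_mul, map_pow, map_zero, hA, hB, hC] at hch hz
  obtain ⟨h₃, hsum⟩ := aff_add (W.map φ) ha hb hA0 hch hz
  have hd : (1 - (W.map φ).a₁ * e (z3S W) - (W.map φ).a₃ * e (w3S W)) * e (inv1 (denS W)) = 1 := by
    have := congrArg e (mul_inv1 (constantCoeff_denS W))
    rw [← hV]
    simpa [denS] using this
  have hw3 : e (w3S W) = e (lamS W) * e (z3S W) + e (nuS W) := by
    rw [w3S, map_add, map_mul]
  rw [← hw3] at h₃ hsum
  rw [h0, h1, hsum, ← aff_neg (W.map φ) h₃ hd, fgAdd, fgAddW, map_neg, map_neg, map_mul, map_mul]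

/-- The point with parameter the value of a series without constant term. -/
def pnt (φ : R →+* K) (e : MvPowerSeries σ R →+* K) (f : MvPowerSeries σ R)
    (hf : MvPowerSeries.constantCoeff f = 0) : (W.map φ).toAffine.Point :=
  aff (W.map φ) (e f) (e (comp1 hf (wSeries W)))

theorem pnt_congr (e : MvPowerSeries σ R →+* K) {f g : MvPowerSeries σ R}
    (hf : MvPowerSeries.constantCoeff f = 0) (h : f = g) :
    pnt W φ e f hf = pnt W φ e g (h ▸ hf) := by
  subst h
  rfl

theorem pnt_add (e : MvPowerSeries σ R →+* K) (he : ∀ r, e (MvPowerSeries.C r) = φ r)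
    {f g : MvPowerSeries σ R} (hfg : ∀ i, MvPowerSeries.constantCoeff (![f, g] i) = 0) :
    pnt W φ e f (hfg 0) + pnt W φ e g (hfg 1) =
      pnt W φ e (subHom hfg (fgAdd W))
        ((constantCoeff_subHom hfg _).trans (constantCoeff_fgAdd W)) := by
  have h := fgAdd_spec W (φ := φ) (e.comp (subHom hfg))
    fun r => by rw [RingHom.comp_apply, subHom_C, he]
  have hw : ∀ i, subHom hfg (wAt W i) = comp1 (hfg i) (wSeries W) := fun i =>
    subHom_comp1 _ hfg (hfg i) (subHom_X hfg i) _
  simp only [RingHom.comp_apply, subHom_X, hw, fgAddW_eq] at h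
  rw [subHom_comp1 (constantCoeff_fgAdd W) hfg
    ((constantCoeff_subHom hfg _).trans (constantCoeff_fgAdd W)) rfl] at h
  exact h

theorem pnt_zero (e : MvPowerSeries σ R →+* K) :
    pnt W φ e 0 (map_zero _) = 0 := by
  obtain ⟨u, hu, -⟩ := exists_wSeries_eq W
  rw [pnt, hu, map_mul, map_pow, comp1_X, zero_pow three_ne_zero, zero_mul, map_zero, aff_zero]

theorem pnt_onCurve (e : MvPowerSeries σ R →+* K) (he : ∀ r, e (MvPowerSeries.C r) = φ r)
    {f : MvPowerSeries σ R} (hf : MvPowerSeries.constantCoeff f = 0) :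
    OnCurve (W.map φ) (e f) (e (comp1 hf (wSeries W))) := by
  have h := ((onCurve_wSeries W).map _ (comp1 hf)).map _ e
  have hcomp : (e.comp (comp1 hf)).comp (PowerSeries.C (R := R)) = φ :=
    RingHom.ext fun r => by rw [RingHom.comp_apply, RingHom.comp_apply, comp1_C, he]
  rwa [WeierstrassCurve.map_map, WeierstrassCurve.map_map, hcomp, comp1_X] at h

theorem pnt_inj (e : MvPowerSeries σ R →+* K) (he : ∀ r, e (MvPowerSeries.C r) = φ r)
    {f g : MvPowerSeries σ R} (hf : MvPowerSeries.constantCoeff f = 0)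
    (hg : MvPowerSeries.constantCoeff g = 0) (h : pnt W φ e f hf = pnt W φ e g hg) :
    e f = e g :=
  (aff_inj _ (pnt_onCurve W e he hf) (pnt_onCurve W e he hg) h).1

/-- The series of the opposite. -/
def fgNeg : PowerSeries R :=
  -(PowerSeries.X * inv1 (1 - PowerSeries.C W.a₁ * PowerSeries.X -
    PowerSeries.C W.a₃ * wSeries W))

theorem constantCoeff_fgNeg : PowerSeries.constantCoeff (fgNeg W) = 0 := by
  simp [fgNeg]

theorem comp1_fgNeg_dvd {f : MvPowerSeries σ R} (hf : MvPowerSeries.constantCoeff f = 0) :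
    f ∣ comp1 hf (fgNeg W) := by
  rw [fgNeg, map_neg, map_mul, comp1_X]
  exact dvd_neg.2 (dvd_mul_right _ _)

theorem pnt_neg (e : MvPowerSeries σ R →+* K) (he : ∀ r, e (MvPowerSeries.C r) = φ r)
    {f : MvPowerSeries σ R} (hf : MvPowerSeries.constantCoeff f = 0) :
    pnt W φ e (comp1 hf (fgNeg W))
        ((constantCoeff_comp1 hf _).trans (constantCoeff_fgNeg W)) =
      -pnt W φ e f hf := by
  set den : PowerSeries R :=
    1 - PowerSeries.C W.a₁ * PowerSeries.X - PowerSeries.C W.a₃ * wSeries W with hden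
  have hd1 : MvPowerSeries.constantCoeff den = 1 := by
    show PowerSeries.constantCoeff den = 1
    simp [hden, constantCoeff_wSeries]
  have hneg : (-(wSeries W * inv1 den) : PowerSeries R) =
      comp1 (σ := Unit) (constantCoeff_fgNeg W) (wSeries W) := by
    refine eq_comp1_wSeries (σ := Unit) W (z := fgNeg W) (constantCoeff_fgNeg W)
      (w := -(wSeries W * inv1 den)) ?_ ?_
    · show PowerSeries.constantCoeff _ = 0
      simp [constantCoeff_wSeries]
    · refine (onCurve_wSeries W).negPair _ ?_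
      rw [WeierstrassCurve.map_a₁, WeierstrassCurve.map_a₃]
      exact mul_inv1 hd1
  have hw : comp1 hf (-(wSeries W * inv1 den)) =
      comp1 ((constantCoeff_comp1 hf _).trans (constantCoeff_fgNeg W)) (wSeries W) := by
    rw [hneg]
    exact subHom_comp1 (σ := Unit) (constantCoeff_fgNeg W) (fun _ => hf) _ rfl _
  rw [pnt, pnt, ← hw]
  have hd : (1 - (W.map φ).a₁ * e f - (W.map φ).a₃ * e (comp1 hf (wSeries W))) *
      e (comp1 hf (inv1 den)) = 1 := by
    have := congrArg (fun x => e (comp1 hf x)) (mul_inv1 hd1)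
    simpa [hden, comp1_X, comp1_C, he] using this
  rw [← aff_neg (W.map φ) (pnt_onCurve W e he hf) hd, fgNeg]
  simp only [map_neg, map_mul, comp1_X]
  rfl

end Points

end FA.SSDR
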