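import Fermat.Agent.SupersingularDeRham.FormalLaw
import Mathlib.RingTheory.Localization.FractionRing
import Mathlib.RingTheory.MvPowerSeries.NoZeroDivisors

/-!
# The group structure of the formal law

Series without constant term give points over the field of fractions of the series, injectively, so
the identities of the formal group follow from those of the group of points.
-/

set_option autoImplicit false
set_option linter.unusedSectionVars false

noncomputable section

open Finsupp WeierstrassCurve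
open scoped Classical

namespace FA.SSDR

universe u₁ u₂ u₃

variable {σ : Type u₁} {τ : Type u₃} [Finite σ] [Finite τ] {R : Type u₂} [CommRing R]
  (W : WeierstrassCurve R)

theorem constantCoeff_pair {f g : MvPowerSeries σ R} (hf : MvPowerSeries.constantCoeff f = 0)
    (hg : MvPowerSeries.constantCoeff g = 0) :
    ∀ i, MvPowerSeries.constantCoeff (![f, g] i) = 0 :=
  Fin.forall_fin_two.2 ⟨hf, hg⟩

/-- The formal sum of two series without constant term. -/
def fAdd {f g : MvPowerSeries σ R} (hf : MvPowerSeries.constantCoeff f = 0)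
    (hg : MvPowerSeries.constantCoeff g = 0) : MvPowerSeries σ R :=
  subHom (constantCoeff_pair hf hg) (fgAdd W)

theorem constantCoeff_fAdd {f g : MvPowerSeries σ R} (hf : MvPowerSeries.constantCoeff f = 0)
    (hg : MvPowerSeries.constantCoeff g = 0) :
    MvPowerSeries.constantCoeff (fAdd W hf hg) = 0 :=
  (constantCoeff_subHom _ _).trans (constantCoeff_fgAdd W)

theorem fAdd_congr {f g f' g' : MvPowerSeries σ R} (hf : MvPowerSeries.constantCoeff f = 0)
    (hg : MvPowerSeries.constantCoeff g = 0) (e₁ : f = f') (e₂ : g = g') :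
    fAdd W hf hg = fAdd W (e₁ ▸ hf) (e₂ ▸ hg) := by
  subst e₁ e₂
  rfl

theorem subHom_fAdd {f g : MvPowerSeries σ R} (hf : MvPowerSeries.constantCoeff f = 0)
    (hg : MvPowerSeries.constantCoeff g = 0) {h : σ → MvPowerSeries τ R}
    (hh : ∀ s, MvPowerSeries.constantCoeff (h s) = 0) :
    subHom hh (fAdd W hf hg) =
      fAdd W ((constantCoeff_subHom hh f).trans hf) ((constantCoeff_subHom hh g).trans hg) :=
  subHom_subHom _ hh _ (Fin.forall_fin_two.2 ⟨rfl, rfl⟩) _

/-- `f +_F g ≡ f + g` up to the square of an ideal containing both. -/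
theorem fAdd_sub_mem {I : Ideal (MvPowerSeries σ R)} {f g : MvPowerSeries σ R}
    (hf : MvPowerSeries.constantCoeff f = 0) (hg : MvPowerSeries.constantCoeff g = 0)
    (hfI : f ∈ I) (hgI : g ∈ I) : fAdd W hf hg - (f + g) ∈ I ^ 2 := by
  have h1 : (varIdeal (Fin 2) R).map (subHom (constantCoeff_pair hf hg)) ≤ I := by
    refine Ideal.map_le_iff_le_comap.2 (Ideal.span_le.2 ?_)
    rintro _ ⟨i, rfl⟩
    show subHom (constantCoeff_pair hf hg) (MvPowerSeries.X i) ∈ I
    rw [subHom_X]
    fin_cases i <;> simpa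
  have h2 := Ideal.mem_map_of_mem (subHom (constantCoeff_pair hf hg)) (fgAdd_sub_mem W)
  rw [Ideal.map_pow] at h2
  have h3 := Ideal.pow_right_mono h1 2 h2
  rwa [map_sub, map_add, subHom_X, subHom_X] at h3

theorem fAdd_mem {I : Ideal (MvPowerSeries σ R)} {f g : MvPowerSeries σ R}
    (hf : MvPowerSeries.constantCoeff f = 0) (hg : MvPowerSeries.constantCoeff g = 0)
    (hfI : f ∈ I) (hgI : g ∈ I) : fAdd W hf hg ∈ I := by
  have h := add_mem (Ideal.pow_le_self two_ne_zero (fAdd_sub_mem W hf hg hfI hgI))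
    (add_mem hfI hgI)
  rwa [sub_add_cancel] at h

variable [IsDomain R]

section Points

variable {K : Type*} [Field K] {φ : R →+* K} [(W.map φ).IsElliptic]
  {e : MvPowerSeries σ R →+* K} (he : ∀ r, e (MvPowerSeries.C r) = φ r)

include he in
theorem pnt_fAdd {f g : MvPowerSeries σ R} (hf : MvPowerSeries.constantCoeff f = 0)
    (hg : MvPowerSeries.constantCoeff g = 0) :
    pnt W φ e (fAdd W hf hg) (constantCoeff_fAdd W hf hg) = pnt W φ e f hf + pnt W φ e g hg :=
  (pnt_add W e he (constantCoeff_pair hf hg)).symm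

end Points

section Generic

/-- A field containing the series over which the equation is elliptic. -/
theorem exists_generic (hΔ : W.Δ ≠ 0) :
    ∃ (K : Type (max u₁ u₂)) (_ : Field K) (φ : R →+* K) (_ : (W.map φ).IsElliptic)
      (e : MvPowerSeries σ R →+* K),
      Function.Injective e ∧ ∀ r, e (MvPowerSeries.C r) = φ r := by
  refine ⟨FractionRing (MvPowerSeries σ R), inferInstance,
    (algebraMap (MvPowerSeries σ R) _).comp MvPowerSeries.C, ⟨isUnit_iff_ne_zero.2 ?_⟩,
    algebraMap _ _, IsFractionRing.injective _ _, fun _ => rfl⟩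
  rw [WeierstrassCurve.map_Δ, RingHom.comp_apply]
  refine (map_ne_zero_iff _ (IsFractionRing.injective (MvPowerSeries σ R) _)).2 fun h => hΔ ?_
  simpa using congrArg MvPowerSeries.constantCoeff h

variable (hΔ : W.Δ ≠ 0)

include hΔ in
theorem fAdd_zero {f : MvPowerSeries σ R} (hf : MvPowerSeries.constantCoeff f = 0) :
    fAdd W hf (g := 0) (map_zero _) = f := by
  obtain ⟨K, _, φ, _, e, hinj, he⟩ := exists_generic (σ := σ) W hΔ
  refine hinj (pnt_inj W (φ := φ) e he (constantCoeff_fAdd W _ _) hf ?_)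
  rw [pnt_fAdd W he, pnt_zero, add_zero]

include hΔ in
theorem fAdd_comm {f g : MvPowerSeries σ R} (hf : MvPowerSeries.constantCoeff f = 0)
    (hg : MvPowerSeries.constantCoeff g = 0) : fAdd W hf hg = fAdd W hg hf := by
  obtain ⟨K, _, φ, _, e, hinj, he⟩ := exists_generic (σ := σ) W hΔ
  refine hinj (pnt_inj W (φ := φ) e he (constantCoeff_fAdd W _ _) (constantCoeff_fAdd W _ _) ?_)
  rw [pnt_fAdd W he, pnt_fAdd W he, add_comm]

include hΔ in
theorem fAdd_assoc {f g h : MvPowerSeries σ R} (hf : MvPowerSeries.constantCoeff f = 0)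
    (hg : MvPowerSeries.constantCoeff g = 0) (hh : MvPowerSeries.constantCoeff h = 0) :
    fAdd W (constantCoeff_fAdd W hf hg) hh = fAdd W hf (constantCoeff_fAdd W hg hh) := by
  obtain ⟨K, _, φ, _, e, hinj, he⟩ := exists_generic (σ := σ) W hΔ
  refine hinj (pnt_inj W (φ := φ) e he (constantCoeff_fAdd W _ _) (constantCoeff_fAdd W _ _) ?_)
  rw [pnt_fAdd W he, pnt_fAdd W he, pnt_fAdd W he,
    pnt_fAdd W he, add_assoc]

/-- **The formal group of the equation.** -/
def weierstrassLaw : FormalGroup R where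
  toPowerSeries := fgAdd W
  zero_constantCoeff := constantCoeff_fgAdd W
  lin_coeff_X := by
    have h := coeff_eq_zero_of_mem (fgAdd_sub_mem W) (single (0 : Fin 2) 1)
      (by rw [degree_single]; exact one_lt_two)
    simp [sub_eq_zero, MvPowerSeries.coeff_X, single_left_inj] at h
    exact h
  lin_coeff_Y := by
    have h := coeff_eq_zero_of_mem (fgAdd_sub_mem W) (single (1 : Fin 2) 1)
      (by rw [degree_single]; exact one_lt_two)
    simp [sub_eq_zero, MvPowerSeries.coeff_X, single_left_inj] at h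
    exact h
  assoc := by
    have h0 : ∀ i : Fin 3,
        MvPowerSeries.constantCoeff (MvPowerSeries.X i : MvPowerSeries _ R) = 0 :=
      fun i => MvPowerSeries.constantCoeff_X i
    have e := fAdd_assoc W hΔ (h0 0) (h0 1) (h0 2)
    simp only [fAdd, subHom_apply] at e
    exact e

theorem toPowerSeries_weierstrassLaw : (weierstrassLaw W hΔ).toPowerSeries = fgAdd W := rfl

end Generic

section MulN

/-- Multiplication by `n`, with its vanishing at zero. -/
def mulAux : ℕ → {f : PowerSeries R // MvPowerSeries.constantCoeff f = 0}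
  | 0 => ⟨0, map_zero _⟩
  | n + 1 => ⟨fAdd W (mulAux n).2 (MvPowerSeries.constantCoeff_X ()),
      constantCoeff_fAdd W _ _⟩

/-- The series of multiplication by `n`. -/
def mulN (n : ℕ) : PowerSeries R := (mulAux W n).1

theorem constantCoeff_mulN (n : ℕ) : MvPowerSeries.constantCoeff (mulN W n) = 0 := (mulAux W n).2

theorem mulN_zero : mulN W 0 = 0 := rfl

theorem mulN_succ (n : ℕ) :
    mulN W (n + 1) = fAdd W (constantCoeff_mulN W n) (MvPowerSeries.constantCoeff_X ()) := rfl

theorem constantCoeff_comp1_mulN {f : MvPowerSeries σ R}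
    (hf : MvPowerSeries.constantCoeff f = 0) (n : ℕ) :
    MvPowerSeries.constantCoeff (comp1 hf (mulN W n)) = 0 :=
  (constantCoeff_comp1 hf _).trans (constantCoeff_mulN W n)

theorem comp1_mulN_succ {f : MvPowerSeries σ R} (hf : MvPowerSeries.constantCoeff f = 0) (n : ℕ) :
    comp1 hf (mulN W (n + 1)) = fAdd W (constantCoeff_comp1_mulN W hf n) hf := by
  unfold comp1
  rw [mulN_succ,
    subHom_fAdd W (constantCoeff_mulN W n) (MvPowerSeries.constantCoeff_X ()) fun _ => hf]
  exact fAdd_congr W _ _ rfl (subHom_X (fun _ => hf) ())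

variable {K : Type*} [Field K] {φ : R →+* K} [(W.map φ).IsElliptic]
  {e : MvPowerSeries σ R →+* K} (he : ∀ r, e (MvPowerSeries.C r) = φ r)

include he in
theorem pnt_mulN {f : MvPowerSeries σ R} (hf : MvPowerSeries.constantCoeff f = 0) : ∀ n : ℕ,
    pnt W φ e (comp1 hf (mulN W n)) (constantCoeff_comp1_mulN W hf n) = n • pnt W φ e f hf
  | 0 => by
    rw [zero_nsmul, pnt_congr W e _ (show comp1 hf (mulN W 0) = 0 by rw [mulN_zero, map_zero]),
      pnt_zero]
  | n + 1 => by
    rw [pnt_congr W e _ (comp1_mulN_succ W hf n), pnt_fAdd W he, pnt_mulN hf n, succ_nsmul]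

end MulN

/-- Multiplication by `n` is an endomorphism. -/
theorem comp1_mulN_fAdd (hΔ : W.Δ ≠ 0) {f g : MvPowerSeries σ R}
    (hf : MvPowerSeries.constantCoeff f = 0) (hg : MvPowerSeries.constantCoeff g = 0) (n : ℕ) :
    comp1 (constantCoeff_fAdd W hf hg) (mulN W n) =
      fAdd W (constantCoeff_comp1_mulN W hf n) (constantCoeff_comp1_mulN W hg n) := by
  obtain ⟨K, _, φ, _, e, hinj, he⟩ := exists_generic (σ := σ) W hΔ
  refine hinj
    (pnt_inj W (φ := φ) e he (constantCoeff_comp1_mulN W _ n) (constantCoeff_fAdd W _ _) ?_)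
  rw [pnt_fAdd W he, pnt_mulN W he, pnt_mulN W he,
    pnt_mulN W he, pnt_fAdd W he, nsmul_add]

theorem mulN_sub_mem : ∀ n : ℕ,
    mulN W n - (n : PowerSeries R) * PowerSeries.X ∈ varIdeal Unit R ^ 2
  | 0 => by simp [mulN_zero]
  | n + 1 => by
    have h1 := fAdd_sub_mem W (constantCoeff_mulN W n) (MvPowerSeries.constantCoeff_X ())
      (mem_varIdeal (constantCoeff_mulN W n)) (X_mem_varIdeal ())
    have h2 := mulN_sub_mem n
    have e : mulN W (n + 1) - ((n + 1 : ℕ) : PowerSeries R) * PowerSeries.X =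
        (mulN W (n + 1) - (mulN W n + PowerSeries.X)) +
          (mulN W n - (n : PowerSeries R) * PowerSeries.X) := by
      push_cast
      ring
    rw [e]
    exact add_mem h1 h2

theorem coeff_one_mulN (n : ℕ) : PowerSeries.coeff 1 (mulN W n) = n := by
  have h := coeff_eq_zero_of_mem (mulN_sub_mem W n) (single () 1)
    (by rw [degree_single]; exact one_lt_two)
  change PowerSeries.coeff 1 (mulN W n - (n : PowerSeries R) * PowerSeries.X) = 0 at h
  rw [map_sub, ← map_natCast (PowerSeries.C (R := R)), PowerSeries.coeff_C_mul,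
    PowerSeries.coeff_one_X, mul_one, sub_eq_zero] at h
  exact h

end FA.SSDR
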