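import Fermat.Agent.SupersingularDeRham.Log
import Fermat.Agent.Supersingular.Criterion
import Mathlib.RingTheory.PowerSeries.Expand
import Mathlib.RingTheory.PowerSeries.Order

/-!
# Multiplication by `p` on the formal group at a prime of supersingular reduction

The generic point of the reduced formal group satisfies the equation of Frobenius, so
`[p] (T) = p T A (T) + T ^ (p ^ 2) U (T)` with `A (0) = 1` and `U` a unit.
-/

set_option autoImplicit false
set_option linter.unusedSectionVars false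

noncomputable section

open Finsupp WeierstrassCurve
open scoped Classical

namespace FA.SSDR

universe u

variable {p : ℕ} [hp : Fact p.Prime]

/-- An integral equation over `ℤ_p`. -/
abbrev wZp (p : ℕ) [Fact p.Prime] (W : WeierstrassCurve ℤ) : WeierstrassCurve ℤ_[p] :=
  W.map (Int.castRingHom ℤ_[p])

theorem wZp_Δ_ne_zero {W : WeierstrassCurve ℤ} (h : W.Δ ≠ 0) : (wZp p W).Δ ≠ 0 := by
  rw [WeierstrassCurve.map_Δ, eq_intCast, Int.cast_ne_zero]
  exact h

/-- A field of characteristic `p` containing the series modulo `p`. -/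
theorem exists_red_field :
    ∃ (K : Type) (_ : Field K) (_ : IsAlgClosed K) (_ : CharP K p) (f : ZMod p →+* K)
      (e : PowerSeries ℤ_[p] →+* K), (∀ r, e (MvPowerSeries.C r) = f (PadicInt.toZMod r)) ∧
      ∀ g, e g = 0 ↔ MvPowerSeries.map (PadicInt.toZMod (p := p)) g = 0 := by
  set L := FractionRing (MvPowerSeries Unit (ZMod p))
  set ι : MvPowerSeries Unit (ZMod p) →+* AlgebraicClosure L :=
    (algebraMap L (AlgebraicClosure L)).comp (algebraMap (MvPowerSeries Unit (ZMod p)) L)
  have hι : Function.Injective ι :=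
    (algebraMap L (AlgebraicClosure L)).injective.comp (IsFractionRing.injective _ _)
  refine ⟨AlgebraicClosure L, inferInstance, inferInstance, ?_, ι.comp MvPowerSeries.C,
    ι.comp (MvPowerSeries.map PadicInt.toZMod), fun r => ?_, fun g => map_eq_zero_iff ι hι⟩
  · exact charP_of_injective_ringHom (f := ι.comp MvPowerSeries.C)
      (hι.comp MvPowerSeries.C_injective) p
  · rw [RingHom.comp_apply, MvPowerSeries.map_C]
    rfl

theorem quadratic_of_eq {k : Type u} [Field k] [IsAlgClosed k] [CharP k p]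
    {W₀ : WeierstrassCurve (ZMod p)}
    {f : ZMod p →+* k} {V : WeierstrassCurve k} [W₀.IsElliptic] [V.IsElliptic]
    (h : V = W₀.map f) (hV : V.map (frobenius k p) = V) (P : V.toAffine.Point) :
    FA.Frob.frobEnd V hV (FA.Frob.frobEnd V hV P) -
      W₀.traceOfFrobenius • FA.Frob.frobEnd V hV P + (p : ℤ) • P = 0 := by
  subst h
  rw [← FA.Frob.trEnd_map W₀ f]
  exact FA.Frob.frobEnd_quadratic _ hV P

section Frobenius

variable {K : Type u} [Field K] [CharP K p] {f : ZMod p →+* K} {e : PowerSeries ℤ_[p] →+* K}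
  (he : ∀ r, e (MvPowerSeries.C r) = f (PadicInt.toZMod r)) (W : WeierstrassCurve ℤ_[p])

include he in
theorem e_comp1_pow (g : MvPowerSeries Unit ℤ_[p]) (hg : MvPowerSeries.constantCoeff g = 0)
    (F : PowerSeries ℤ_[p]) :
    e (comp1 (g := g ^ p) (by rw [map_pow, hg, zero_pow hp.out.ne_zero]) F) =
      e (comp1 hg F) ^ p := by
  obtain ⟨c, hc⟩ := exists_pow_congr (p := p) (σ := Unit) F
  have h : e (comp1 hg (subHom (constantCoeff_powVars (σ := Unit) (R := ℤ_[p]) hp.out.ne_zero) F)) =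
      e (comp1 hg F) ^ p := by
    have h0 : e (comp1 hg (MvPowerSeries.C (p : ℤ_[p]))) = 0 := by
      rw [show comp1 hg (MvPowerSeries.C (p : ℤ_[p])) = MvPowerSeries.C (p : ℤ_[p]) from
        comp1_C hg _, he, map_toZMod_p, map_zero]
    rw [hc, map_add, map_mul, map_pow, map_add, map_mul, map_pow, h0, zero_mul, add_zero]
  rw [← h]
  refine congrArg e (subHom_comp1 (σ := Unit) (g := powVars Unit ℤ_[p] p ())
    (constantCoeff_powVars hp.out.ne_zero ()) (fun _ => hg) _ ?_ F).symm
  rw [powVars, map_pow, subHom_X]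

variable [(W.map (f.comp PadicInt.toZMod)).IsElliptic]

include he in
theorem frobEnd_pnt
    (hV : (W.map (f.comp PadicInt.toZMod)).map (frobenius K p) = W.map (f.comp PadicInt.toZMod))
    {g : MvPowerSeries Unit ℤ_[p]} (hg : MvPowerSeries.constantCoeff g = 0) :
    FA.Frob.frobEnd _ hV (pnt W (f.comp PadicInt.toZMod) e g hg) =
      pnt W (f.comp PadicInt.toZMod) e (g ^ p) (by rw [map_pow, hg, zero_pow hp.out.ne_zero]) := by
  set z := e g
  set w := e (comp1 hg (wSeries W))
  have hzw : OnCurve (W.map (f.comp PadicInt.toZMod)) z w := pnt_onCurve W e he hg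
  have hp' : OnCurve (W.map (f.comp PadicInt.toZMod)) (z ^ p) (w ^ p) := by
    have := hzw.map _ (frobenius K p)
    rwa [hV] at this
  show FA.Frob.frobEnd _ hV (aff _ z w) = aff _ (e (g ^ p)) (e (comp1 _ (wSeries W)))
  rw [map_pow e, e_comp1_pow he g hg]
  by_cases hw : w = 0
  · rw [hw, aff_zero, map_zero, show e (comp1 hg (wSeries W)) = 0 from hw,
      zero_pow hp.out.ne_zero, aff_zero]
  · rw [aff_eq_some _ hzw hw, aff_eq_some _ hp' (pow_ne_zero p hw)]
    rw [FA.Frob.frobEnd, FA.Frob.mapHom_some, Affine.Point.some.injEq]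
    have h1 : frobenius K p (-1) = -1 := by rw [map_neg, map_one]
    rw [map_div₀, map_div₀, h1, frobenius_def, frobenius_def]
    exact ⟨rfl, rfl⟩

end Frobenius

section Order

/-- Series over a field with one linear coefficient compose to powers of the variable. -/
theorem order_eq_of_comp {F : Type*} [Field F] {u G R : PowerSeries F}
    (hG0 : MvPowerSeries.constantCoeff G = 0) (hG1 : PowerSeries.coeff 1 G = 1)
    {q : ℕ} (hR : PowerSeries.constantCoeff R ≠ 0)
    (h : comp1 hG0 u = PowerSeries.X ^ q * R) :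
    ∃ v, u = PowerSeries.X ^ q * v ∧ PowerSeries.constantCoeff v ≠ 0 := by
  have hu : u ≠ 0 := fun h0 => by
    rw [h0, map_zero] at h
    rcases mul_eq_zero.1 h.symm with h1 | h1
    · exact pow_ne_zero q PowerSeries.X_ne_zero h1
    · exact hR (by rw [h1, map_zero])
  set m := u.order.toNat
  set v := u.divXPowOrder
  have hv : PowerSeries.constantCoeff v ≠ 0 := fun h0 =>
    hu (PowerSeries.constantCoeff_divXPowOrder_eq_zero_iff.1 h0)
  have huv : u = PowerSeries.X ^ m * v := by
    ext n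
    rw [PowerSeries.coeff_X_pow_mul']
    split_ifs with hn
    · rw [PowerSeries.coeff_divXPowOrder, Nat.sub_add_cancel hn]
    · exact PowerSeries.coeff_of_lt_order_toNat n (not_le.1 hn)
  obtain ⟨G', hG'⟩ := PowerSeries.X_dvd_iff.2 (show PowerSeries.constantCoeff G = 0 from hG0)
  have hG'0 : PowerSeries.constantCoeff G' = 1 := by
    rw [← hG1, hG', PowerSeries.coeff_succ_X_mul, PowerSeries.coeff_zero_eq_constantCoeff_apply]
  set R' := G' ^ m * comp1 hG0 v
  have hR' : PowerSeries.constantCoeff R' ≠ 0 := by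
    have : PowerSeries.constantCoeff (comp1 hG0 v) = PowerSeries.constantCoeff v :=
      constantCoeff_comp1 hG0 v
    simp [R', hG'0, this, hv]
  have h2 : PowerSeries.X ^ m * R' = PowerSeries.X ^ q * R := by
    rw [← h, huv, map_mul, map_pow, (comp1_X hG0).trans hG', mul_pow]
    simp only [R', mul_assoc]
  have key : ∀ {a b : ℕ} {S T : PowerSeries F}, PowerSeries.constantCoeff S ≠ 0 →
      PowerSeries.X ^ a * S = PowerSeries.X ^ b * T → b ≤ a := by
    intro a b S T hS hST
    by_contra hlt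
    have := congrArg (PowerSeries.coeff a) hST
    rw [PowerSeries.coeff_X_pow_mul', PowerSeries.coeff_X_pow_mul', if_pos le_rfl, if_neg hlt,
      Nat.sub_self, PowerSeries.coeff_zero_eq_constantCoeff_apply] at this
    exact hS this
  obtain rfl : m = q := le_antisymm (key hR h2.symm) (key hR' h2)
  exact ⟨v, huv, hv⟩

end Order

variable {W : WeierstrassCurve ℤ}

theorem reductionMod_isElliptic (hg : W.IsGoodPrimeFor p) : (W.reductionMod p).IsElliptic := ⟨by
  rw [reductionMod, WeierstrassCurve.map_Δ]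
  refine (Ne.isUnit fun h => hg ?_)
  exact (ZMod.intCast_zmod_eq_zero_iff_dvd _ p).mp h⟩

theorem Δ_ne_zero_of_good (hg : W.IsGoodPrimeFor p) : W.Δ ≠ 0 := fun h =>
  hg (h ▸ dvd_zero _)

/-- The reduced series of multiplication by `p` has order `p ^ 2`. -/
theorem exists_mulN_mod (hg : W.IsGoodPrimeFor p) (ha : (p : ℤ) ∣ W.apOfModel p) :
    ∃ v : PowerSeries (ZMod p),
      MvPowerSeries.map (PadicInt.toZMod (p := p)) (mulN (wZp p W) p) =
          PowerSeries.X ^ p ^ 2 * v ∧ PowerSeries.constantCoeff v ≠ 0 := by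
  obtain ⟨K, _, _, _, f, e, he, hker⟩ := exists_red_field (p := p)
  have := reductionMod_isElliptic hg
  set φ : ℤ_[p] →+* K := f.comp PadicInt.toZMod
  have hV : (wZp p W).map φ = (W.reductionMod p).map f := by
    rw [wZp, reductionMod, WeierstrassCurve.map_map, WeierstrassCurve.map_map]
    congr 1
    exact RingHom.ext_int _ _
  have : ((wZp p W).map φ).IsElliptic := hV ▸ inferInstance
  have hfix : ((wZp p W).map φ).map (frobenius K p) = (wZp p W).map φ := by
    rw [hV]
    exact FA.Frob.map_frobenius_map _ _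
  set Q := fun (g : PowerSeries ℤ_[p]) (h : MvPowerSeries.constantCoeff g = 0) =>
    pnt (wZp p W) φ e g h with hQ
  have hX : MvPowerSeries.constantCoeff (PowerSeries.X : PowerSeries ℤ_[p]) = 0 :=
    MvPowerSeries.constantCoeff_X ()
  set P := pnt (wZp p W) φ e PowerSeries.X hX
  obtain ⟨b, hb⟩ := ha
  set π := FA.Frob.frobEnd ((wZp p W).map φ) hfix
  have hquad := quadratic_of_eq hV hfix P
  rw [← apOfModel, hb] at hquad
  -- the subgroup of the points of order at least two
  let S : AddSubgroup ((wZp p W).map φ).toAffine.Point :=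
    { carrier := {R | ∃ (g : PowerSeries ℤ_[p]) (h : MvPowerSeries.constantCoeff g = 0),
        g ∈ varIdeal Unit ℤ_[p] ^ 2 ∧ R = pnt (wZp p W) φ e g h}
      zero_mem' := ⟨0, map_zero _, zero_mem _, (pnt_zero _ e).symm⟩
      add_mem' := by
        rintro _ _ ⟨g, hg0, hg2, rfl⟩ ⟨h, hh0, hh2, rfl⟩
        exact ⟨_, constantCoeff_fAdd _ hg0 hh0, fAdd_mem _ hg0 hh0 hg2 hh2,
          (pnt_fAdd _ he hg0 hh0).symm⟩
      neg_mem' := by
        rintro _ ⟨g, hg0, hg2, rfl⟩
        refine ⟨_, (constantCoeff_comp1 hg0 _).trans (constantCoeff_fgNeg (wZp p W)), ?_,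
          (pnt_neg _ e he hg0).symm⟩
        obtain ⟨c, hc⟩ := comp1_fgNeg_dvd (wZp p W) hg0
        rw [hc]
        exact Ideal.mul_mem_right _ _ hg2 }
  have hπP : π P ∈ S := ⟨PowerSeries.X ^ p, constantCoeff_pow_Xp, Ideal.pow_le_pow_right
      hp.out.two_le (Ideal.pow_mem_pow (X_mem_varIdeal ()) p), frobEnd_pnt he _ hfix hX⟩
  obtain ⟨g, hg0, hg2, hg⟩ := S.neg_mem (S.zsmul_mem hπP b)
  set G := fAdd (wZp p W) hX hg0
  have hG0 : MvPowerSeries.constantCoeff G = 0 := constantCoeff_fAdd _ _ _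
  have hG2 : G - PowerSeries.X ∈ varIdeal Unit ℤ_[p] ^ 2 := by
    have h1 := fAdd_sub_mem (wZp p W) hX hg0 (mem_varIdeal hX) (mem_varIdeal hg0)
    have e1 : G - PowerSeries.X = (G - (PowerSeries.X + g)) + g := by ring
    rw [e1]
    exact add_mem h1 hg2
  have hq0 : MvPowerSeries.constantCoeff ((PowerSeries.X : PowerSeries ℤ_[p]) ^ p ^ 2) = 0 := by
    rw [map_pow, hX, zero_pow (pow_ne_zero _ hp.out.ne_zero)]
  have hπ2 : π (π P) = pnt (wZp p W) φ e (PowerSeries.X ^ p ^ 2) hq0 := by
    rw [frobEnd_pnt he _ hfix hX, frobEnd_pnt he _ hfix]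
    exact pnt_congr _ e _ (by rw [← pow_mul, sq])
  have hpG : pnt (wZp p W) φ e (comp1 hG0 (mulN (wZp p W) p))
      (constantCoeff_comp1_mulN _ hG0 p) =
      pnt (wZp p W) φ e (comp1 hq0 (fgNeg (wZp p W)))
        ((constantCoeff_comp1 hq0 _).trans (constantCoeff_fgNeg _)) := by
    rw [pnt_mulN _ he, pnt_neg _ e he hq0, ← hπ2]
    show p • pnt (wZp p W) φ e (fAdd (wZp p W) hX hg0) _ = _
    rw [pnt_fAdd _ he, ← hg]
    rw [mul_smul, natCast_zsmul, natCast_zsmul] at hquad
    rw [nsmul_add, smul_neg, ← sub_eq_add_neg, eq_neg_iff_add_eq_zero, ← hquad]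
    abel
  have heq := pnt_inj _ e he _ _ hpG
  rw [← sub_eq_zero, ← map_sub, hker, map_sub, sub_eq_zero, map_comp1, map_comp1] at heq
  -- the opposite is minus the variable times a unit
  obtain ⟨J, hJ, hJ0⟩ : ∃ J, PowerSeries.map (PadicInt.toZMod (p := p)) (fgNeg (wZp p W)) =
      PowerSeries.X * J ∧ PowerSeries.constantCoeff J ≠ 0 := by
    refine ⟨-PowerSeries.map (PadicInt.toZMod (p := p))
      (inv1 (1 - PowerSeries.C (wZp p W).a₁ * PowerSeries.X -
        PowerSeries.C (wZp p W).a₃ * wSeries (wZp p W))), ?_, ?_⟩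
    · rw [fgNeg, map_neg, map_mul, PowerSeries.map_X, mul_neg]
    · rw [map_neg, neg_ne_zero, ← PowerSeries.coeff_zero_eq_constantCoeff_apply,
        PowerSeries.coeff_map, PowerSeries.coeff_zero_eq_constantCoeff_apply]
      erw [constantCoeff_inv1]
      simp
  have hXq : MvPowerSeries.map (PadicInt.toZMod (p := p))
      ((PowerSeries.X : PowerSeries ℤ_[p]) ^ p ^ 2) = PowerSeries.X ^ p ^ 2 := by
    rw [map_pow]
    exact congrArg (· ^ p ^ 2) (MvPowerSeries.map_X _ _)
  rw [hJ, comp1_congr _ hXq, map_mul, comp1_X] at heq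
  refine order_eq_of_comp (G := MvPowerSeries.map (PadicInt.toZMod (p := p)) G) ?_ ?_ ?_ heq
  · rw [MvPowerSeries.constantCoeff_map, hG0, map_zero]
  · have h1 := coeff_eq_zero_of_mem hG2 (single () 1) (by rw [degree_single]; exact one_lt_two)
    change PowerSeries.coeff 1 (G - PowerSeries.X) = 0 at h1
    rw [map_sub, PowerSeries.coeff_one_X, sub_eq_zero] at h1
    show PowerSeries.coeff 1 (PowerSeries.map (PadicInt.toZMod (p := p)) G) = 1
    rw [PowerSeries.coeff_map, h1, map_one]
  · show MvPowerSeries.constantCoeff (comp1 _ J) ≠ 0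
    rw [constantCoeff_comp1]
    exact hJ0
where
  constantCoeff_pow_Xp :
      MvPowerSeries.constantCoeff ((PowerSeries.X : PowerSeries ℤ_[p]) ^ p) = 0 := by
    rw [map_pow, PowerSeries.X, MvPowerSeries.constantCoeff_X, zero_pow hp.out.ne_zero]

/-- **The shape of `[p]` in the supersingular case.** -/
theorem exists_mulN_eq (hg : W.IsGoodPrimeFor p) (ha : (p : ℤ) ∣ W.apOfModel p) :
    ∃ A U : PowerSeries ℤ_[p], PowerSeries.constantCoeff A = 1 ∧ IsUnit U ∧
      mulN (wZp p W) p = MvPowerSeries.C (p : ℤ_[p]) * (PowerSeries.X * A) +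
        PowerSeries.X ^ p ^ 2 * U := by
  obtain ⟨v, hv, hv0⟩ := exists_mulN_mod hg ha
  set U : PowerSeries ℤ_[p] := PowerSeries.mk fun n => ((PowerSeries.coeff n v).val : ℤ_[p])
  have hU : PowerSeries.map (PadicInt.toZMod (p := p)) U = v := by
    ext n
    rw [PowerSeries.coeff_map, PowerSeries.coeff_mk, map_natCast, ZMod.natCast_zmod_val]
  obtain ⟨M, hM⟩ := exists_p_mul (f := mulN (wZp p W) p - PowerSeries.X ^ p ^ 2 * U) (by
    rw [map_sub, hv, sub_eq_zero]
    show _ = PowerSeries.map (PadicInt.toZMod (p := p)) (PowerSeries.X ^ p ^ 2 * U)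
    rw [map_mul, map_pow, PowerSeries.map_X, hU])
  have hq : 1 < p ^ 2 := one_lt_pow₀ hp.out.one_lt two_ne_zero
  have hp0 : (p : ℤ_[p]) ≠ 0 := Nat.cast_ne_zero.2 hp.out.ne_zero
  have key : ∀ n, n < p ^ 2 →
      (p : ℤ_[p]) * PowerSeries.coeff n M = PowerSeries.coeff n (mulN (wZp p W) p) := by
    intro n hn
    have := congrArg (PowerSeries.coeff n) hM
    rw [map_sub, PowerSeries.coeff_X_pow_mul', if_neg (not_le.2 hn), sub_zero] at this
    exact ((PowerSeries.coeff_C_mul n M (p : ℤ_[p])).symm.trans this.symm)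
  have hM0 : PowerSeries.constantCoeff M = 0 := by
    have h := key 0 (zero_lt_one.trans hq)
    rw [PowerSeries.coeff_zero_eq_constantCoeff_apply,
      PowerSeries.coeff_zero_eq_constantCoeff_apply,
      show PowerSeries.constantCoeff (mulN (wZp p W) p) = 0 from constantCoeff_mulN _ p] at h
    exact (mul_eq_zero.1 h).resolve_left hp0
  obtain ⟨A, hA⟩ := PowerSeries.X_dvd_iff.2 hM0
  refine ⟨A, U, ?_, PowerSeries.isUnit_iff_constantCoeff.2 ?_, ?_⟩
  · have h := key 1 hq
    rw [hA, PowerSeries.coeff_succ_X_mul, PowerSeries.coeff_zero_eq_constantCoeff_apply,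
      coeff_one_mulN] at h
    exact mul_left_cancel₀ hp0 (h.trans (mul_one _).symm)
  · by_contra hu
    have hu : PowerSeries.constantCoeff U ∈ IsLocalRing.maximalIdeal ℤ_[p] := hu
    rw [← PadicInt.ker_toZMod, RingHom.mem_ker] at hu
    refine hv0 ?_
    rw [← hU, ← PowerSeries.coeff_zero_eq_constantCoeff_apply, PowerSeries.coeff_map,
      PowerSeries.coeff_zero_eq_constantCoeff_apply, hu]
  · rw [← hA, ← hM, sub_add_cancel]

/-- **Modulo `p`, `[p]` is a series in `T ^ p`.** -/
theorem exists_mulN_expand (hΔ : W.Δ ≠ 0) :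
    ∃ M V : PowerSeries ℤ_[p], mulN (wZp p W) p = MvPowerSeries.C (p : ℤ_[p]) * M +
      PowerSeries.expand p hp.out.ne_zero V := by
  set g := mulN (wZp p W) p
  set V : PowerSeries ℤ_[p] := PowerSeries.mk fun n => PowerSeries.coeff (p * n) g
  obtain ⟨v, hv⟩ := exists_derivative_mulN (wZp p W) (wZp_Δ_ne_zero hΔ) p
  obtain ⟨M, hM⟩ := exists_p_mul (f := g - PowerSeries.expand p hp.out.ne_zero V) (by
    refine PowerSeries.ext fun n => ?_
    show PowerSeries.coeff n (PowerSeries.map (PadicInt.toZMod (p := p))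
      (g - PowerSeries.expand p hp.out.ne_zero V)) = PowerSeries.coeff n 0
    rw [PowerSeries.coeff_map, map_sub, PowerSeries.coeff_expand, map_zero]
    split_ifs with h
    · obtain ⟨m, rfl⟩ := h
      rw [PowerSeries.coeff_mk, Nat.mul_div_cancel_left _ hp.out.pos, sub_self, map_zero]
    · rw [sub_zero]
      obtain ⟨k, rfl⟩ : ∃ k, n = k + 1 := by
        rcases n with _ | k
        · exact absurd (dvd_zero p) h
        · exact ⟨k, rfl⟩
      have h1 := congrArg (PowerSeries.coeff k) hv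
      rw [PowerSeries.coeff_derivative, ← map_natCast (PowerSeries.C (R := ℤ_[p])),
        PowerSeries.coeff_C_mul] at h1
      have h2 := congrArg (PadicInt.toZMod (p := p)) h1
      rw [map_mul, map_mul, map_toZMod_p, zero_mul, map_add, map_natCast, map_one, mul_eq_zero]
        at h2
      refine h2.resolve_right ?_
      rw [← Nat.cast_succ, ZMod.natCast_eq_zero_iff]
      exact h)
  exact ⟨M, V, by rw [← hM, sub_add_cancel]⟩

end FA.SSDR
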