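import Fermat.Agent.SupersingularDeRham.AInfComplete
import Fermat.Agent.SupersingularDeRham.Height

/-!
# Canonical lifts to `A_inf` of compatible systems

Multiplication by `p` contracts for the `(p, ξ)`-adic topology, so a system compatible under it has
exactly one compatible lift along `θ`.
-/

set_option autoImplicit false
set_option linter.unusedSectionVars false

noncomputable section

open Ideal FA.TateSen FA.FontaineWintenberger FA.BDR FA.PadicHodge FA.BDRCoh

namespace FA.SSDR

variable {σ τ : Type*} [Finite σ] [Finite τ] {p : ℕ} [hp : Fact p.Prime]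

local notation "C" => ℂ_[p]

attribute [local irreducible] fgAdd wSeries

/-- Evaluation in `A_inf`. -/
abbrev evA (a : σ → AInf p) (ha : ∀ s, a s ∈ (defIdeal p).radical) :
    MvPowerSeries σ ℤ_[p] →+* AInf p :=
  evz (defIdeal p) (zpHom p) a ha

variable (p) in
/-- The `p`-adic integers in `O`. -/
abbrev zpO : ℤ_[p] →+* OC p := (theta p).comp (zpHom p)

/-- Evaluation in `O`. -/
abbrev evO (t : σ → OC p) (ht : ∀ s, t s ∈ (span {(p : OC p)}).radical) :
    MvPowerSeries σ ℤ_[p] →+* OC p :=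
  evz (span {(p : OC p)}) (zpO p) t ht

theorem theta_radical {a : AInf p} (h : a ∈ (defIdeal p).radical) :
    theta p a ∈ (span {(p : OC p)}).radical :=
  mem_radical_of_norm (norm_theta_lt h)

theorem theta_evA {a : σ → AInf p} (ha : ∀ s, a s ∈ (defIdeal p).radical)
    (f : MvPowerSeries σ ℤ_[p]) :
    theta p (evA a ha f) = evO (fun s => theta p (a s)) (fun s => theta_radical (ha s)) f :=
  map_evz _ _ ha _ (theta p) (fun _ => rfl) (fun _ => rfl) _ f

theorem pair_radical {I : Ideal (AInf p)} {a b : AInf p} (ha : a ∈ I) (hb : b ∈ I) :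
    ∀ i, (![a, b] : Fin 2 → AInf p) i ∈ I :=
  Fin.forall_fin_two.2 ⟨ha, hb⟩

theorem evA_radical {a : σ → AInf p} (ha : ∀ s, a s ∈ (defIdeal p).radical)
    {f : MvPowerSeries σ ℤ_[p]} (hf : MvPowerSeries.constantCoeff f = 0) :
    evA a ha f ∈ (defIdeal p).radical :=
  evz_mem_radical _ _ ha hf

theorem evA_comp1 {a : σ → AInf p} (ha : ∀ s, a s ∈ (defIdeal p).radical)
    {g : MvPowerSeries σ ℤ_[p]} (hg : MvPowerSeries.constantCoeff g = 0) {c : AInf p}
    (hc : c ∈ (defIdeal p).radical) (e : evA a ha g = c) (f : PowerSeries ℤ_[p]) :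
    evA a ha (comp1 hg f) = evA (fun _ : Unit => c) (fun _ => hc) f :=
  evz_subHom (defIdeal p) (zpHom p) ha (fun _ => hg) (fun _ : Unit => e.symm) f

/-- Values of a series in one variable at two arguments. -/
theorem sub_evA_mem (f : PowerSeries ℤ_[p]) {a b : AInf p} (ha : a ∈ (defIdeal p).radical)
    (hb : b ∈ (defIdeal p).radical) :
    evA (fun _ : Unit => a) (fun _ => ha) f - evA (fun _ : Unit => b) (fun _ => hb) f ∈
      span {a - b} := by
  have h := congrArg (evA ![a, b] (pair_radical ha hb)) (sub_mul_divDiff f)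
  rw [map_mul, map_sub, map_sub, evz_X, evz_X] at h
  have h0 : evA ![a, b] (pair_radical ha hb)
      (comp1 (MvPowerSeries.constantCoeff_X (0 : Fin 2)) f) =
        evA (fun _ : Unit => a) (fun _ => ha) f :=
    evA_comp1 _ _ ha (evz_X _ _ _ 0) f
  have h1 : evA ![a, b] (pair_radical ha hb)
      (comp1 (MvPowerSeries.constantCoeff_X (1 : Fin 2)) f) =
        evA (fun _ : Unit => b) (fun _ => hb) f :=
    evA_comp1 _ _ hb (evz_X _ _ _ 1) f
  rw [h0, h1] at h
  rw [← h]
  exact mem_span_singleton.2 ⟨_, rfl⟩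

variable (W : WeierstrassCurve ℤ)

/-- Multiplication by `p` in `A_inf`. -/
def mulPA {a : AInf p} (ha : a ∈ (defIdeal p).radical) : AInf p :=
  evA (fun _ : Unit => a) (fun _ => ha) (mulN (wZp p W) p)

theorem mulPA_radical {a : AInf p} (ha : a ∈ (defIdeal p).radical) :
    mulPA W ha ∈ (defIdeal p).radical :=
  evz_mem_radical _ _ _ (constantCoeff_mulN _ _)

/-- **Contraction.** -/
theorem mulPA_sub_mem (hΔ : W.Δ ≠ 0) {a b : AInf p} (ha : a ∈ (defIdeal p).radical)
    (hb : b ∈ (defIdeal p).radical) {k : ℕ} (hk : 1 ≤ k) (h : a - b ∈ defIdeal p ^ k) :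
    mulPA W ha - mulPA W hb ∈ defIdeal p ^ (k + 1) := by
  obtain ⟨M, V, hMV⟩ := exists_mulN_expand (p := p) (W := W) hΔ
  have hap : a ^ p ∈ (defIdeal p).radical := Ideal.pow_mem_of_mem _ ha _ hp.out.pos
  have hbp : b ^ p ∈ (defIdeal p).radical := Ideal.pow_mem_of_mem _ hb _ hp.out.pos
  have hX : MvPowerSeries.constantCoeff ((PowerSeries.X : PowerSeries ℤ_[p]) ^ p) = 0 := by
    rw [map_pow, PowerSeries.X, MvPowerSeries.constantCoeff_X, zero_pow hp.out.ne_zero]
  have hexp : ∀ {c : AInf p} (hc : c ∈ (defIdeal p).radical)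
      (hcp : c ^ p ∈ (defIdeal p).radical),
      evA (fun _ : Unit => c) (fun _ => hc) (PowerSeries.expand p hp.out.ne_zero V) =
        evA (fun _ : Unit => c ^ p) (fun _ => hcp) V := by
    intro c hc hcp
    rw [PowerSeries.expand_apply, ← comp1_apply hX]
    refine evA_comp1 _ _ hcp ?_ V
    rw [map_pow, PowerSeries.X, evz_X]
  rw [mulPA, mulPA, hMV, map_add, map_add, map_mul, map_mul, evz_C, evz_C, hexp ha hap,
    hexp hb hbp, add_sub_add_comm, ← mul_sub, map_natCast]
  refine add_mem ?_ ?_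
  · rw [pow_succ']
    refine Ideal.mul_mem_mul p_mem_defIdeal ?_
    exact (span_singleton_le_iff_mem _).2 h (sub_evA_mem M ha hb)
  · refine (span_singleton_le_iff_mem _).2 ?_ (sub_evA_mem V hap hbp)
    exact pow_p_sub_pow_mem p_mem_defIdeal (Ideal.pow_le_self (by omega) h) h

/-- A system compatible under multiplication by `p`. -/
structure IsLiftSys (z : ℕ → AInf p) : Prop where
  rad : ∀ n, z n ∈ (defIdeal p).radical
  compat : ∀ n, mulPA W (rad (n + 1)) = z n

/-- **Uniqueness of lifts.** -/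
theorem IsLiftSys.ext (hΔ : W.Δ ≠ 0) {z z' : ℕ → AInf p} (h : IsLiftSys W z)
    (h' : IsLiftSys W z') (e : ∀ n, theta p (z n) = theta p (z' n)) : z = z' := by
  have key : ∀ m n, z n - z' n ∈ defIdeal p ^ (m + 1) := by
    intro m
    induction m with
    | zero =>
      intro n
      rw [zero_add, pow_one]
      exact mem_defIdeal_of_theta (by rw [map_sub, e, sub_self]; exact dvd_zero _)
    | succ m ih =>
      intro n
      rw [← h.compat n, ← h'.compat n]
      exact mulPA_sub_mem W hΔ _ _ (Nat.succ_pos m) (ih (n + 1))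
  funext n
  refine (IsHausdorff.eq_iff_smodEq (I := defIdeal p)).2 fun m => ?_
  rw [SModEq.sub_mem, smul_eq_mul, Ideal.mul_top]
  exact Ideal.pow_le_pow_right m.le_succ (key m n)

/-- The approximations of the lift. -/
def liftApprox (x : ℕ → {a : AInf p // a ∈ (defIdeal p).radical}) :
    ℕ → ℕ → {a : AInf p // a ∈ (defIdeal p).radical}
  | 0, n => x n
  | m + 1, n => ⟨mulPA W (liftApprox x m (n + 1)).2, mulPA_radical W _⟩

/-- **Existence of lifts.** -/
theorem exists_isLiftSys (hΔ : W.Δ ≠ 0) {t : ℕ → OC p}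
    (ht : ∀ n, t n ∈ (span {(p : OC p)}).radical)
    (hc : ∀ n, evO (fun _ : Unit => t (n + 1)) (fun _ => ht (n + 1)) (mulN (wZp p W) p) = t n) :
    ∃ z, IsLiftSys W z ∧ ∀ n, theta p (z n) = t n := by
  choose x hx using fun n => surjective_theta (t n)
  have hx' : ∀ n, x n ∈ (defIdeal p).radical := fun n => by
    obtain ⟨k, hk⟩ := ht n
    refine ⟨k, mem_defIdeal_of_theta ?_⟩
    rw [map_pow, hx, ← mem_span_singleton]
    exact hk
  set Y := liftApprox W (fun n => ⟨x n, hx' n⟩)
  have hθ : ∀ m n, theta p (Y m n : AInf p) = t n := by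
    intro m
    induction m with
    | zero => exact hx
    | succ m ih =>
      intro n
      show theta p (mulPA W (Y m (n + 1)).2) = _
      rw [mulPA, theta_evA, ← hc n]
      exact RingHom.congr_fun (congrArg (fun f : {f : Unit → OC p //
          ∀ s, f s ∈ (span {(p : OC p)}).radical} => evO f.1 f.2)
        (Subtype.ext (funext fun _ : Unit => ih (n + 1)) :
          (⟨fun _ => theta p (Y m (n + 1) : AInf p), fun _ => theta_radical (Y m (n + 1)).2⟩ :
            {f : Unit → OC p // ∀ s, f s ∈ (span {(p : OC p)}).radical}) =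
            ⟨fun _ => t (n + 1), fun _ => ht (n + 1)⟩)) _
  have hstep : ∀ m n, (Y m n : AInf p) - Y (m + 1) n ∈ defIdeal p ^ (m + 1) := by
    intro m
    induction m with
    | zero =>
      intro n
      rw [zero_add, pow_one]
      exact mem_defIdeal_of_theta (by rw [map_sub, hθ, hθ, sub_self]; exact dvd_zero _)
    | succ m ih =>
      intro n
      exact mulPA_sub_mem W hΔ (Y m (n + 1)).2 (Y (m + 1) (n + 1)).2 (Nat.succ_pos m) (ih (n + 1))
  have hcau : ∀ n k l, k ≤ l → (Y k n : AInf p) - Y l n ∈ defIdeal p ^ (k + 1) := by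
    intro n k l hkl
    induction l, hkl using Nat.le_induction with
    | base => rw [sub_self]; exact zero_mem _
    | succ l hkl ih =>
      rw [← sub_add_sub_cancel _ (Y l n : AInf p)]
      exact add_mem ih (Ideal.pow_le_pow_right (by omega) (hstep l n))
  have hlim : ∀ n, ∃ L : AInf p, ∀ m, L - (Y m n : AInf p) ∈ defIdeal p ^ (m + 1) := fun n => by
    obtain ⟨L, hL⟩ := IsPrecomplete.prec
      (inferInstance : IsPrecomplete (defIdeal p) (AInf p)) (f := fun m => (Y m n : AInf p))
      fun {k l} hkl => by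
        rw [SModEq.sub_mem, smul_eq_mul, Ideal.mul_top]
        exact Ideal.pow_le_pow_right k.le_succ (hcau n k l hkl)
    refine ⟨L, fun m => ?_⟩
    have h := hL (m + 1)
    rw [SModEq.sub_mem, smul_eq_mul, Ideal.mul_top] at h
    rw [← sub_add_sub_cancel L (Y (m + 1) n : AInf p), ← neg_sub (Y (m + 1) n : AInf p),
      ← neg_sub (Y m n : AInf p) (Y (m + 1) n)]
    exact add_mem (neg_mem h) (neg_mem (hstep m n))
  choose L hL using hlim
  have hθL : ∀ n, theta p (L n) = t n := fun n => by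
    refine (IsHausdorff.eq_iff_smodEq (I := span {(p : OC p)})).2 fun m => ?_
    rw [SModEq.sub_mem, smul_eq_mul, Ideal.mul_top, span_singleton_pow, mem_span_singleton,
      ← hθ m n, ← map_sub]
    exact (pow_dvd_pow _ m.le_succ).trans (theta_mem_span (hL n m))
  have hrad : ∀ n, L n ∈ (defIdeal p).radical := fun n => by
    obtain ⟨k, hk⟩ := ht n
    refine ⟨k, mem_defIdeal_of_theta ?_⟩
    rw [map_pow, hθL, ← mem_span_singleton]
    exact hk
  refine ⟨L, ⟨hrad, fun n => ?_⟩, hθL⟩
  refine (IsHausdorff.eq_iff_smodEq (I := defIdeal p)).2 fun m => ?_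
  rw [SModEq.sub_mem, smul_eq_mul, Ideal.mul_top]
  rw [← sub_sub_sub_cancel_right _ (L n) (Y (m + 1) n : AInf p)]
  refine sub_mem ?_ (Ideal.pow_le_pow_right (by omega) (hL n (m + 1)))
  exact Ideal.pow_le_pow_right (by omega)
    (mulPA_sub_mem W hΔ (hrad (n + 1)) (Y m (n + 1)).2 (Nat.succ_pos m) (hL (n + 1) m))

/-- The formal sum in `A_inf`. -/
def addA {a b : AInf p} (ha : a ∈ (defIdeal p).radical) (hb : b ∈ (defIdeal p).radical) : AInf p :=
  evA ![a, b] (pair_radical ha hb) (fgAdd (wZp p W))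

theorem addA_congr {a b a' b' : AInf p} (ha : a ∈ (defIdeal p).radical)
    (hb : b ∈ (defIdeal p).radical) (e₁ : a = a') (e₂ : b = b') :
    addA W ha hb = addA W (e₁ ▸ ha) (e₂ ▸ hb) := by
  subst e₁ e₂
  rfl

theorem mulPA_addA (hΔ : W.Δ ≠ 0) {a b : AInf p} (ha : a ∈ (defIdeal p).radical)
    (hb : b ∈ (defIdeal p).radical) :
    mulPA W (evA_radical (pair_radical ha hb) (constantCoeff_fgAdd (wZp p W))) =
      addA W (mulPA_radical W ha) (mulPA_radical W hb) := by
  have hX0 := MvPowerSeries.constantCoeff_X (0 : Fin 2) (R := ℤ_[p])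
  have hX1 := MvPowerSeries.constantCoeff_X (1 : Fin 2) (R := ℤ_[p])
  have h := congrArg (evA ![a, b] (pair_radical ha hb))
    (comp1_mulN_fAdd (wZp p W) (wZp_Δ_ne_zero hΔ) hX0 hX1 p)
  have hF : fAdd (wZp p W) hX0 hX1 = fgAdd (wZp p W) := subHom_pair_self _ _
  rw [comp1_congr _ hF] at h
  have hl : ∀ (i : Fin 2) (c : AInf p) (hc : c ∈ (defIdeal p).radical),
      (![a, b] : Fin 2 → AInf p) i = c →
      evA ![a, b] (pair_radical ha hb)
        (comp1 (MvPowerSeries.constantCoeff_X i) (mulN (wZp p W) p)) = mulPA W hc := by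
    rintro i c hc rfl
    exact evA_comp1 _ _ hc (evz_X _ _ _ i) _
  unfold fAdd at h
  unfold addA
  refine Eq.trans ?_ (h.trans ?_)
  · exact (evA_comp1 (pair_radical ha hb) _ _ rfl (mulN (wZp p W) p)).symm
  · exact evz_subHom _ _ (pair_radical ha hb) _
      (Fin.forall_fin_two.2 ⟨(hl 0 a ha rfl).symm, (hl 1 b hb rfl).symm⟩) (fgAdd (wZp p W))

/-- Lifts add. -/
theorem IsLiftSys.addA (hΔ : W.Δ ≠ 0) {z z' : ℕ → AInf p} (h : IsLiftSys W z)
    (h' : IsLiftSys W z') : IsLiftSys W fun n => FA.SSDR.addA W (h.rad n) (h'.rad n) where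
  rad _ := evA_radical _ (constantCoeff_fgAdd _)
  compat n := (mulPA_addA W hΔ (h.rad (n + 1)) (h'.rad (n + 1))).trans
    (addA_congr W _ _ (h.compat n) (h'.compat n))

theorem ainfGal_radical (g : PadicAlgCl p ≃ₐ[ℚ_[p]] PadicAlgCl p) {a : AInf p}
    (ha : a ∈ (defIdeal p).radical) : ainfGal g a ∈ (defIdeal p).radical :=
  mem_radical_of_theta (by
    rw [theta_ainfGal, coe_galO, norm_galC]
    exact norm_theta_lt ha)

/-- The Galois group acts on lifts. -/
theorem IsLiftSys.gal (g : PadicAlgCl p ≃ₐ[ℚ_[p]] PadicAlgCl p) {z : ℕ → AInf p}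
    (h : IsLiftSys W z) : IsLiftSys W fun n => ainfGal g (z n) where
  rad n := ainfGal_radical g (h.rad n)
  compat n := by
    rw [← h.compat n]
    exact (map_evz _ _ _ _ (ainfGal g) (ainfGal_zpHom g) (fun _ => rfl) _ _).symm

end FA.SSDR
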