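import Fermat.Agent.SupersingularDeRham.Group
import Fermat.Agent.SupersingularDeRham.Congr
import Mathlib.RingTheory.PowerSeries.Derivative

/-!
# The logarithm of the formal group and integrality

The derivative of the logarithm `ℓ` is integral, so `ℓ (a + p b) - ℓ a` is `p` times an integral
series; this gives the integral series behind the periods of the second kind.
-/

set_option autoImplicit false
set_option linter.unusedSectionVars false

noncomputable section

open Finsupp WeierstrassCurve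

namespace FA.SSDR

variable {σ τ : Type*} [Finite σ] [Finite τ] {p : ℕ} [hp : Fact p.Prime]

variable (p) in
/-- The coefficients in `ℚ_p`. -/
abbrev coeQ : ℤ_[p] →+* ℚ_[p] := PadicInt.Coe.ringHom

/-- A series with its coefficients in `ℚ_p`. -/
abbrev mapQ : MvPowerSeries σ ℤ_[p] →+* MvPowerSeries σ ℚ_[p] := MvPowerSeries.map (coeQ p)

theorem mapQ_injective : Function.Injective (mapQ (σ := σ) (p := p)) :=
  fun a b h => MvPowerSeries.ext fun d => Subtype.val_injective (by
    simpa using congrArg (MvPowerSeries.coeff d) h)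

theorem constantCoeff_mapQ {f : MvPowerSeries σ ℤ_[p]}
    (hf : MvPowerSeries.constantCoeff f = 0) : MvPowerSeries.constantCoeff (mapQ f) = 0 := by
  rw [MvPowerSeries.constantCoeff_map, hf, map_zero]

theorem subHom_pair_self {R : Type*} [CommRing R]
    (h : ∀ i, MvPowerSeries.constantCoeff ((![MvPowerSeries.X 0, MvPowerSeries.X 1] :
      Fin 2 → MvPowerSeries (Fin 2) R) i) = 0) (f : MvPowerSeries (Fin 2) R) :
    subHom h f = f := by
  have e : (![MvPowerSeries.X 0, MvPowerSeries.X 1] : Fin 2 → MvPowerSeries (Fin 2) R) =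
      MvPowerSeries.X := funext (Fin.forall_fin_two.2 ⟨rfl, rfl⟩)
  rw [subHom_apply, e, MvPowerSeries.subst_self, id_eq]

attribute [local irreducible] fgAdd wSeries

theorem subHom_pair {R : Type*} [CommRing R] {h : σ → MvPowerSeries τ R}
    (hh : ∀ s, MvPowerSeries.constantCoeff (h s) = 0) {f g : MvPowerSeries σ R}
    (hf : MvPowerSeries.constantCoeff f = 0) (hg : MvPowerSeries.constantCoeff g = 0)
    {f' g' : MvPowerSeries τ R} (hf' : MvPowerSeries.constantCoeff f' = 0)
    (hg' : MvPowerSeries.constantCoeff g' = 0) (e₁ : subHom hh f = f') (e₂ : subHom hh g = g')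
    (P : MvPowerSeries (Fin 2) R) :
    subHom hh (subHom (constantCoeff_pair hf hg) P) = subHom (constantCoeff_pair hf' hg') P :=
  subHom_subHom _ hh _ (Fin.forall_fin_two.2 ⟨e₁, e₂⟩) P

variable (W : WeierstrassCurve ℤ_[p])

/-- The restriction of a series in two variables to the first axis. -/
theorem constantCoeff_axis {R : Type*} [CommRing R] :
    ∀ i, MvPowerSeries.constantCoeff
      ((![PowerSeries.X, 0] : Fin 2 → MvPowerSeries Unit R) i) = 0 :=
  Fin.forall_fin_two.2 ⟨MvPowerSeries.constantCoeff_X (), map_zero _⟩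

/-- The derivative of the law in the second variable along the first axis. -/
def dYAxis : PowerSeries ℤ_[p] :=
  subHom constantCoeff_axis (MvPowerSeries.pderiv ℤ_[p] (1 : Fin 2) (fgAdd W))

/-- The invariant differential. -/
def invDiff : PowerSeries ℤ_[p] := inv1 (dYAxis W)

theorem constantCoeff_dYAxis : MvPowerSeries.constantCoeff (dYAxis W) = 1 := by
  have h := coeff_eq_zero_of_mem (fgAdd_sub_mem W) (single (1 : Fin 2) 1)
    (by rw [degree_single]; exact one_lt_two)
  simp [sub_eq_zero, MvPowerSeries.coeff_X, single_left_inj] at h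
  rw [dYAxis, constantCoeff_subHom, ← MvPowerSeries.coeff_zero_eq_constantCoeff_apply,
    MvPowerSeries.coeff_pderiv]
  simp [h]

theorem constantCoeff_invDiff : PowerSeries.constantCoeff (invDiff W) = 1 :=
  constantCoeff_inv1 (dYAxis W)

/-- The projections of three variables to two, the last variable to zero. -/
theorem constantCoeff_proj :
    ∀ i : Fin 3, MvPowerSeries.constantCoeff ((![MvPowerSeries.X 0, MvPowerSeries.X 1, 0] :
      Fin 3 → MvPowerSeries (Fin 2) ℤ_[p]) i) = 0 := fun i => by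
  fin_cases i <;> simp

/-- **Invariance of the differential.** -/
theorem dYAxis_fgAdd (hΔ : W.Δ ≠ 0) :
    comp1 (constantCoeff_fgAdd W) (dYAxis W) =
      MvPowerSeries.pderiv ℤ_[p] (1 : Fin 2) (fgAdd W) *
        comp1 (MvPowerSeries.constantCoeff_X (1 : Fin 2)) (dYAxis W) := by
  have h0 : ∀ i : Fin 3,
      MvPowerSeries.constantCoeff (MvPowerSeries.X i : MvPowerSeries _ ℤ_[p]) = 0 :=
    fun i => MvPowerSeries.constantCoeff_X i
  set ε := subHom (constantCoeff_proj (p := p))
  set a01 := subHom (constantCoeff_pair (h0 0) (h0 1)) (fgAdd W)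
  set a12 := subHom (constantCoeff_pair (h0 1) (h0 2)) (fgAdd W)
  have ha01 : MvPowerSeries.constantCoeff a01 = 0 := constantCoeff_fAdd W (h0 0) (h0 1)
  have ha12 : MvPowerSeries.constantCoeff a12 = 0 := constantCoeff_fAdd W (h0 1) (h0 2)
  have e : subHom (constantCoeff_pair ha01 (h0 2)) (fgAdd W) =
      subHom (constantCoeff_pair (h0 0) ha12) (fgAdd W) := fAdd_assoc W hΔ (h0 0) (h0 1) (h0 2)
  have hd := congrArg (fun f => ε (MvPowerSeries.pderiv ℤ_[p] (2 : Fin 3) f)) e
  have hd01 : MvPowerSeries.pderiv ℤ_[p] (2 : Fin 3) a01 = 0 := by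
    rw [pderiv_subHom]
    simp [Fin.sum_univ_two]
  simp only [pderiv_subHom, Fin.sum_univ_two, Matrix.cons_val_zero, Matrix.cons_val_one,
    Matrix.cons_val_fin_one, hd01, MvPowerSeries.pderiv_X_self, mul_zero, zero_add, mul_one] at hd
  rw [show MvPowerSeries.pderiv ℤ_[p] (2 : Fin 3)
    (MvPowerSeries.X 0 : MvPowerSeries (Fin 3) ℤ_[p]) = 0 from
      MvPowerSeries.pderiv_X_of_ne (by decide), mul_zero, zero_add] at hd
  have hd12 : MvPowerSeries.pderiv ℤ_[p] (2 : Fin 3) a12 =
      subHom (constantCoeff_pair (h0 1) (h0 2))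
        (MvPowerSeries.pderiv ℤ_[p] (1 : Fin 2) (fgAdd W)) := by
    rw [pderiv_subHom]
    simp [Fin.sum_univ_two]
  rw [hd12, map_mul] at hd
  set D := MvPowerSeries.pderiv ℤ_[p] (1 : Fin 2) (fgAdd W)
  have hεX : ∀ i : Fin 3, ε (MvPowerSeries.X i) =
      (![MvPowerSeries.X 0, MvPowerSeries.X 1, 0] : Fin 3 → MvPowerSeries (Fin 2) ℤ_[p]) i :=
    fun i => subHom_X _ i
  have hX0 : MvPowerSeries.constantCoeff (MvPowerSeries.X 0 : MvPowerSeries (Fin 2) ℤ_[p]) = 0 :=
    MvPowerSeries.constantCoeff_X 0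
  have hX1 : MvPowerSeries.constantCoeff (MvPowerSeries.X 1 : MvPowerSeries (Fin 2) ℤ_[p]) = 0 :=
    MvPowerSeries.constantCoeff_X 1
  have hε0 : ε (MvPowerSeries.X 0) = MvPowerSeries.X 0 := hεX 0
  have hε1 : ε (MvPowerSeries.X 1) = MvPowerSeries.X 1 := hεX 1
  have hε2 : ε (MvPowerSeries.X 2) = 0 := by
    rw [hεX 2]
    rfl
  have hz0 : MvPowerSeries.constantCoeff (0 : MvPowerSeries (Fin 2) ℤ_[p]) = 0 := map_zero _
  have hεa01 : ε a01 = fgAdd W :=
    (subHom_pair constantCoeff_proj (h0 0) (h0 1) hX0 hX1 hε0 hε1 (fgAdd W)).trans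
      (subHom_pair_self _ _)
  have hεa12 : ε a12 = MvPowerSeries.X 1 :=
    (subHom_pair constantCoeff_proj (h0 1) (h0 2) hX1 hz0 hε1 hε2 (fgAdd W)).trans
      (fAdd_zero W hΔ hX1)
  have haxis : ∀ {g : MvPowerSeries (Fin 2) ℤ_[p]} (hg : MvPowerSeries.constantCoeff g = 0),
      comp1 hg (dYAxis W) = subHom (constantCoeff_pair hg hz0) D := fun {g} hg =>
    subHom_pair (σ := Unit) (fun _ : Unit => hg) (MvPowerSeries.constantCoeff_X ()) (map_zero _)
      hg hz0 (subHom_X (g := fun _ : Unit => g) (fun _ => hg) ()) (map_zero _) D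
  have hl : ε (subHom (constantCoeff_pair ha01 (h0 2)) D) =
      comp1 (constantCoeff_fgAdd W) (dYAxis W) :=
    (subHom_pair constantCoeff_proj ha01 (h0 2) (constantCoeff_fgAdd W) hz0 hεa01 hε2 D).trans
      (haxis _).symm
  have hr1 : ε (subHom (constantCoeff_pair (h0 0) ha12) D) = D :=
    (subHom_pair constantCoeff_proj (h0 0) ha12 hX0 hX1 hε0 hεa12 D).trans (subHom_pair_self _ _)
  have hr2 : ε (subHom (constantCoeff_pair (h0 1) (h0 2)) D) = comp1 hX1 (dYAxis W) :=
    (subHom_pair constantCoeff_proj (h0 1) (h0 2) hX1 hz0 hε1 hε2 D).trans (haxis _).symm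
  rw [hl, hr1, hr2] at hd
  exact hd

/-- The differential pulled back along the law. -/
theorem invDiff_fgAdd (hΔ : W.Δ ≠ 0) :
    comp1 (constantCoeff_fgAdd W) (invDiff W) *
        MvPowerSeries.pderiv ℤ_[p] (1 : Fin 2) (fgAdd W) =
      comp1 (MvPowerSeries.constantCoeff_X (1 : Fin 2)) (invDiff W) := by
  have h1 := mul_inv1 (constantCoeff_dYAxis W)
  have ha := congrArg (comp1 (constantCoeff_fgAdd W)) h1
  have hb := congrArg (comp1 (MvPowerSeries.constantCoeff_X (1 : Fin 2) (R := ℤ_[p]))) h1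
  rw [map_mul, map_one] at ha hb
  have h := dYAxis_fgAdd W hΔ
  rw [invDiff]
  linear_combination
    comp1 (MvPowerSeries.constantCoeff_X (1 : Fin 2)) (inv1 (dYAxis W)) * ha -
      comp1 (constantCoeff_fgAdd W) (inv1 (dYAxis W)) *
        MvPowerSeries.pderiv ℤ_[p] (1 : Fin 2) (fgAdd W) * hb -
      comp1 (constantCoeff_fgAdd W) (inv1 (dYAxis W)) *
        comp1 (MvPowerSeries.constantCoeff_X (1 : Fin 2)) (inv1 (dYAxis W)) * h

/-- **The logarithm.** -/
def logS : PowerSeries ℚ_[p] :=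
  PowerSeries.mk fun n =>
    ((PowerSeries.coeff (n - 1) (invDiff W) : ℤ_[p]) : ℚ_[p]) * (n : ℚ_[p])⁻¹

theorem constantCoeff_logS : PowerSeries.constantCoeff (logS W) = 0 := by
  rw [← PowerSeries.coeff_zero_eq_constantCoeff_apply, logS, PowerSeries.coeff_mk]
  simp

theorem coeff_one_logS : PowerSeries.coeff 1 (logS W) = 1 := by
  rw [logS, PowerSeries.coeff_mk, Nat.sub_self, PowerSeries.coeff_zero_eq_constantCoeff_apply,
    constantCoeff_invDiff]
  simp

theorem derivative_logS :
    PowerSeries.derivative ℚ_[p] (logS W) = PowerSeries.map (coeQ p) (invDiff W) := by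
  ext n
  rw [PowerSeries.coeff_derivative, logS, PowerSeries.coeff_mk, PowerSeries.coeff_map,
    Nat.add_sub_cancel]
  have h : ((n : ℚ_[p]) + 1) ≠ 0 := by exact_mod_cast n.succ_ne_zero
  push_cast
  rw [mul_assoc, inv_mul_cancel₀ h, mul_one]
  rfl

theorem pderiv_comp1_logS {g : MvPowerSeries σ ℚ_[p]} (hg : MvPowerSeries.constantCoeff g = 0)
    (s : σ) :
    MvPowerSeries.pderiv ℚ_[p] s (comp1 hg (logS W)) =
      comp1 hg (PowerSeries.map (coeQ p) (invDiff W)) * MvPowerSeries.pderiv ℚ_[p] s g := by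
  unfold comp1
  rw [pderiv_subHom, Fintype.sum_unique, ← derivative_logS]
  rfl

/-- **The logarithm turns `F` into addition.** -/
theorem logS_fgAdd (hΔ : W.Δ ≠ 0) :
    comp1 (constantCoeff_mapQ (constantCoeff_fgAdd W)) (logS W) =
      comp1 (MvPowerSeries.constantCoeff_X (0 : Fin 2)) (logS W) +
        comp1 (MvPowerSeries.constantCoeff_X (1 : Fin 2)) (logS W) := by
  set D := comp1 (constantCoeff_mapQ (constantCoeff_fgAdd W)) (logS W) -
    comp1 (MvPowerSeries.constantCoeff_X (0 : Fin 2)) (logS W) -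
      comp1 (MvPowerSeries.constantCoeff_X (1 : Fin 2)) (logS W) with hD
  have hω : ∀ {g : MvPowerSeries (Fin 2) ℤ_[p]} (hg : MvPowerSeries.constantCoeff g = 0),
      comp1 (constantCoeff_mapQ hg) (PowerSeries.map (coeQ p) (invDiff W)) =
        mapQ (comp1 hg (invDiff W)) := fun hg => (map_comp1 (coeQ p) hg _).symm
  have h1 : MvPowerSeries.pderiv ℚ_[p] (1 : Fin 2) D = 0 := by
    rw [hD, map_sub, map_sub, pderiv_comp1_logS, pderiv_comp1_logS, pderiv_comp1_logS,
      MvPowerSeries.pderiv_X_self, MvPowerSeries.pderiv_X_of_ne (by decide), mul_zero, sub_zero,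
      mul_one, hω (constantCoeff_fgAdd W), ← map_pderiv, ← map_mul, invDiff_fgAdd W hΔ, sub_eq_zero]
    refine (hω (MvPowerSeries.constantCoeff_X (1 : Fin 2))).symm.trans ?_
    exact comp1_congr _ (MvPowerSeries.map_X _ _) _
  have hsw : ∀ i, MvPowerSeries.constantCoeff ((![MvPowerSeries.X 1, MvPowerSeries.X 0] :
      Fin 2 → MvPowerSeries (Fin 2) ℚ_[p]) i) = 0 :=
    constantCoeff_pair (MvPowerSeries.constantCoeff_X 1) (MvPowerSeries.constantCoeff_X 0)
  have hsym : subHom hsw D = D := by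
    have hF : subHom hsw (mapQ (fgAdd W)) = mapQ (fgAdd W) := by
      have e := fAdd_comm W hΔ (MvPowerSeries.constantCoeff_X (1 : Fin 2) (R := ℤ_[p]))
        (MvPowerSeries.constantCoeff_X (0 : Fin 2))
      unfold fAdd at e
      rw [subHom_pair_self] at e
      conv_rhs => rw [← e]
      exact (map_subHom (coeQ p)
        (g := (![MvPowerSeries.X 1, MvPowerSeries.X 0] : Fin 2 → MvPowerSeries (Fin 2) ℤ_[p]))
        _ (Fin.forall_fin_two.2 ⟨MvPowerSeries.map_X _ _, MvPowerSeries.map_X _ _⟩) hsw _).symm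
    rw [hD, map_sub, map_sub, subHom_comp1 _ hsw (constantCoeff_mapQ (constantCoeff_fgAdd W)) hF,
      subHom_comp1 _ hsw (MvPowerSeries.constantCoeff_X (1 : Fin 2))
        (subHom_X hsw 0),
      subHom_comp1 _ hsw (MvPowerSeries.constantCoeff_X (0 : Fin 2))
        (subHom_X hsw 1)]
    ring
  have h0 : MvPowerSeries.pderiv ℚ_[p] (0 : Fin 2) D = 0 := by
    rw [← hsym, pderiv_subHom, Fin.sum_univ_two, h1, map_zero, zero_mul, add_zero]
    simp
  have hz : D = 0 := by
    refine MvPowerSeries.pderiv.ext (fun i => ?_) ?_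
    · rw [map_zero]
      fin_cases i
      · exact h0
      · exact h1
    · rw [hD, map_sub, map_sub, constantCoeff_comp1, constantCoeff_comp1, constantCoeff_comp1,
        constantCoeff_logS, map_zero, sub_zero, sub_zero]
  rw [hD] at hz
  linear_combination hz

theorem logS_fAdd (hΔ : W.Δ ≠ 0) {f g : MvPowerSeries σ ℤ_[p]}
    (hf : MvPowerSeries.constantCoeff f = 0) (hg : MvPowerSeries.constantCoeff g = 0) :
    comp1 (constantCoeff_mapQ (constantCoeff_fAdd W hf hg)) (logS W) =
      comp1 (constantCoeff_mapQ hf) (logS W) + comp1 (constantCoeff_mapQ hg) (logS W) := by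
  set H := subHom (constantCoeff_pair (constantCoeff_mapQ hf) (constantCoeff_mapQ hg))
  have h := congrArg H (logS_fgAdd W hΔ)
  have hF : H (mapQ (fgAdd W)) = mapQ (fAdd W hf hg) :=
    (map_subHom (coeQ p) _ (Fin.forall_fin_two.2 ⟨rfl, rfl⟩) _ _).symm
  rw [map_add, subHom_comp1 _ _ (constantCoeff_mapQ (constantCoeff_fAdd W hf hg)) hF,
    subHom_comp1 _ _ (constantCoeff_mapQ hf) (subHom_X _ 0),
    subHom_comp1 _ _ (constantCoeff_mapQ hg) (subHom_X _ 1)] at h
  exact h

theorem logS_comp1_mulN (hΔ : W.Δ ≠ 0) {f : MvPowerSeries σ ℤ_[p]}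
    (hf : MvPowerSeries.constantCoeff f = 0) : ∀ n : ℕ,
    comp1 (constantCoeff_mapQ (constantCoeff_comp1_mulN W hf n)) (logS W) =
      (n : MvPowerSeries σ ℚ_[p]) * comp1 (constantCoeff_mapQ hf) (logS W)
  | 0 => by
    rw [comp1_congr _ (show mapQ (comp1 hf (mulN W 0)) = 0 by rw [mulN_zero, map_zero, map_zero]),
      Nat.cast_zero, zero_mul]
    have h := constantCoeff_logS W
    rw [comp1_apply]
    exact MvPowerSeries.subst_zero_of_constantCoeff_zero h
  | n + 1 => by
    rw [comp1_congr _ (congrArg mapQ (comp1_mulN_succ W hf n)), logS_fAdd W hΔ,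
      logS_comp1_mulN hΔ hf n, Nat.cast_succ, add_one_mul]

theorem exists_derivative_mulN (hΔ : W.Δ ≠ 0) (n : ℕ) :
    ∃ v : PowerSeries ℤ_[p],
      PowerSeries.derivative ℤ_[p] (mulN W n) = (n : PowerSeries ℤ_[p]) * v := by
  have hX : MvPowerSeries.constantCoeff (PowerSeries.X : PowerSeries ℤ_[p]) = 0 :=
    MvPowerSeries.constantCoeff_X ()
  have hid : ∀ {R : Type} [CommRing R] (f : PowerSeries R)
      (h : MvPowerSeries.constantCoeff (PowerSeries.X : PowerSeries R) = 0), comp1 h f = f :=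
    fun {R} _ f h => by
      rw [comp1_apply]
      exact congrFun (MvPowerSeries.subst_self (σ := Unit) (R := R)) f
  have h := congrArg (MvPowerSeries.pderiv ℚ_[p] ()) (logS_comp1_mulN W hΔ hX n)
  rw [pderiv_comp1_logS, Derivation.leibniz, pderiv_comp1_logS] at h
  simp only [hid] at h
  rw [Derivation.map_natCast, smul_zero, add_zero, smul_eq_mul,
    ← map_comp1 (coeQ p) (constantCoeff_mulN W n), ← map_pderiv] at h
  have hpX : MvPowerSeries.pderiv ℚ_[p] () (mapQ (PowerSeries.X : PowerSeries ℤ_[p])) = 1 := by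
    rw [PowerSeries.X, MvPowerSeries.map_X, MvPowerSeries.pderiv_X_self]
  rw [hpX, mul_one, comp1_congr _
    (show mapQ (PowerSeries.X : PowerSeries ℤ_[p]) = PowerSeries.X from
    MvPowerSeries.map_X (coeQ p) ())] at h
  rw [hid, show PowerSeries.map (coeQ p) (invDiff W) = mapQ (invDiff W) from rfl,
    ← map_natCast (mapQ (σ := Unit) (p := p)), ← map_mul, ← map_mul] at h
  have h2 := mapQ_injective h
  have hu := mul_inv1 (f := comp1 (constantCoeff_mulN W n) (invDiff W))
    ((constantCoeff_comp1 _ _).trans (constantCoeff_invDiff W))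
  refine ⟨invDiff W * inv1 (comp1 (constantCoeff_mulN W n) (invDiff W)), ?_⟩
  show MvPowerSeries.pderiv ℤ_[p] () (mulN W n) = _
  linear_combination inv1 (comp1 (constantCoeff_mulN W n) (invDiff W)) * h2 -
    MvPowerSeries.pderiv ℤ_[p] () (mulN W n) * hu

end FA.SSDR
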