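import Fermat.Agent.SupersingularDeRham.Lift
import Fermat.Agent.PotentialDeRham.Compare

/-!
# The parameter on the kernel of reduction

A point in the kernel of reduction is the point of the formal group with parameter `-x/y`; at a
prime of supersingular reduction all the torsion of `p`-power order lies there.
-/

set_option autoImplicit false
set_option linter.unusedSectionVars false
set_option linter.style.haveILetI false

noncomputable section

open Ideal WeierstrassCurve FA.TateSen FA.BDR FA.Frob FA.EC FA.Local FA.RT.Tate FA.OrdDR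
open scoped WeierstrassCurve.Affine Classical

namespace FA.SSDR

local notation "Qb" => AlgebraicClosure ℚ

attribute [local irreducible] fgAdd wSeries mulN

variable {σ τ : Type*} [Finite σ] [Finite τ] {p : ℕ} [hp : Fact p.Prime]

local notation "C" => ℂ_[p]
local notation "G" => PadicAlgCl p ≃ₐ[ℚ_[p]] PadicAlgCl p

variable (p) in
/-- The coefficients in `ℂ_p`. -/
def zpC : ℤ_[p] →+* ℂ_[p] := (PadicComplexInt p).subtype.comp (zpO p)

variable (p) in
/-- Algebraic numbers in `ℂ_p`. -/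
def embC : AlgebraicClosure ℚ →+* ℂ_[p] :=
  (algebraMap (PadicAlgCl p) ℂ_[p]).comp (padicEmbedding p).toRingHom

theorem norm_embC (x : Qb) : ‖embC p x‖ = ‖padicEmbedding p x‖ := by
  rw [embC, RingHom.comp_apply, ← PadicComplex.coe_eq, PadicComplex.norm_extends]
  rfl

theorem gal_embC (g : G) (x : Qb) :
    gal g (embC p x) = embC p (localGaloisToGlobal p g x) := by
  rw [embC, RingHom.comp_apply, RingHom.comp_apply, ← PadicComplex.coe_eq,
    ← PadicComplex.coe_eq, gal_coe]
  congr 1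
  exact (padicEmbedding_localGaloisToGlobal p g x).symm

theorem one_lt_norm_of_e1 {x : Qb} (h : 1 < (padicPlace p).valuation x) : 1 < ‖embC p x‖ := by
  rw [norm_embC]
  by_contra hle
  refine not_le.2 h ((ValuationSubring.valuation_le_one_iff _ _).2 ?_)
  rw [mem_padicPlace_iff, ← NNReal.coe_le_coe, coe_nnnorm, NNReal.coe_one]
  exact not_lt.1 hle

variable (W : WeierstrassCurve ℤ)

variable (p) in
/-- The equation over `ℂ_p`. -/
abbrev curveC : WeierstrassCurve ℂ_[p] := (wZp p W).map (zpC p)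

theorem curveC_eq : ((ratCurve W)⁄Qb).map (embC p) = curveC p W := by
  rw [curveC, wZp, WeierstrassCurve.map_map]
  show ((W.map (Int.castRingHom ℚ)).map (algebraMap ℚ Qb)).map (embC p) = _
  rw [WeierstrassCurve.map_map, WeierstrassCurve.map_map]
  congr 1
  exact RingHom.ext_int _ _

/-- The parameter `-x/y` of a point. -/
def parC : Pts W → ℂ_[p]
  | .zero => 0
  | .some x y _ => -embC p x / embC p y

theorem parC_smul (g : G) (P : Pts W) :
    parC W (localGaloisToGlobal p g • P) = gal g (parC W P) := by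
  rcases P with _ | ⟨x, y, h⟩
  · exact (map_zero (gal g)).symm
  · obtain ⟨h', he⟩ := smul_some (σ := localGaloisToGlobal p g) (ratCurve W) h
    rw [he]
    show -embC p _ / embC p _ = gal g (-embC p x / embC p y)
    rw [map_div₀, map_neg, gal_embC, gal_embC]

/-- Evaluation in `ℂ_p`. -/
abbrev evC (t : σ → OC p) (ht : ∀ s, t s ∈ (span {(p : OC p)}).radical) :
    MvPowerSeries σ ℤ_[p] →+* ℂ_[p] :=
  (PadicComplexInt p).subtype.comp (evO t ht)

theorem evC_C (t : σ → OC p) (ht : ∀ s, t s ∈ (span {(p : OC p)}).radical) (r : ℤ_[p]) :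
    evC t ht (MvPowerSeries.C r) = zpC p r := by
  rw [evC, RingHom.comp_apply, evz_C]
  rfl

theorem evO_radical {t : σ → OC p} (ht : ∀ s, t s ∈ (span {(p : OC p)}).radical)
    {f : MvPowerSeries σ ℤ_[p]} (hf : MvPowerSeries.constantCoeff f = 0) :
    evO t ht f ∈ (span {(p : OC p)}).radical :=
  evz_mem_radical _ _ ht hf

theorem evO_comp1 {t : σ → OC p} (ht : ∀ s, t s ∈ (span {(p : OC p)}).radical)
    {g : MvPowerSeries σ ℤ_[p]} (hg : MvPowerSeries.constantCoeff g = 0) {c : OC p}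
    (hc : c ∈ (span {(p : OC p)}).radical) (e : evO t ht g = c) (f : PowerSeries ℤ_[p]) :
    evO t ht (comp1 hg f) = evO (fun _ : Unit => c) (fun _ => hc) f :=
  evz_subHom (span {(p : OC p)}) (zpO p) ht (fun _ => hg) (fun _ : Unit => e.symm) f

theorem evO_pair_radical {a b : OC p} (ha : a ∈ (span {(p : OC p)}).radical)
    (hb : b ∈ (span {(p : OC p)}).radical) :
    ∀ i, (![a, b] : Fin 2 → OC p) i ∈ (span {(p : OC p)}).radical :=
  Fin.forall_fin_two.2 ⟨ha, hb⟩

theorem norm_lt_of_radical {a : OC p} (ha : a ∈ (span {(p : OC p)}).radical) :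
    ‖(a : C)‖ < 1 := by
  obtain ⟨x, rfl⟩ := surjective_theta a
  obtain ⟨k, hk⟩ := ha
  exact norm_theta_lt ⟨k, mem_defIdeal_of_theta (by rwa [map_pow, ← mem_span_singleton])⟩

/-- The point with parameter `t`. -/
def ptC {t : OC p} (ht : t ∈ (span {(p : OC p)}).radical) : (curveC p W).toAffine.Point :=
  aff (curveC p W) (t : C) ((evO (fun _ : Unit => t) (fun _ => ht) (wSeries (wZp p W)) : OC p) : C)

theorem ptC_congr {t t' : OC p} (ht : t ∈ (span {(p : OC p)}).radical) (e : t = t') :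
    ptC W ht = ptC W (e ▸ ht) := by
  subst e
  rfl

theorem pnt_evC {t : σ → OC p} (ht : ∀ s, t s ∈ (span {(p : OC p)}).radical)
    {g : MvPowerSeries σ ℤ_[p]} (hg : MvPowerSeries.constantCoeff g = 0) {c : OC p}
    (hc : c ∈ (span {(p : OC p)}).radical) (e : evO t ht g = c) :
    pnt (wZp p W) (zpC p) (evC t ht) g hg = ptC W hc := by
  unfold pnt ptC evC
  rw [RingHom.comp_apply, RingHom.comp_apply, e, evO_comp1 ht hg hc e]
  rfl

variable [(ratCurve W).IsElliptic]

instance isElliptic_curveC : (curveC p W).IsElliptic := by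
  rw [← curveC_eq]
  infer_instance

/-- The map on points. -/
def mapC : Pts W →+ (curveC p W).toAffine.Point :=
  FA.Frob.mapHom (embC p) (curveC_eq W)

theorem mapC_injective : Function.Injective (mapC (p := p) W) :=
  FA.Frob.mapHom_injective (embC p) (curveC_eq W)

theorem ptC_add {a b : OC p} (ha : a ∈ (span {(p : OC p)}).radical)
    (hb : b ∈ (span {(p : OC p)}).radical) :
    ptC W ha + ptC W hb =
      ptC W (evO_radical (evO_pair_radical ha hb) (constantCoeff_fgAdd (wZp p W))) := by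
  have hX := constantCoeff_pair (MvPowerSeries.constantCoeff_X (0 : Fin 2) (R := ℤ_[p]))
    (MvPowerSeries.constantCoeff_X (1 : Fin 2))
  have h := pnt_add (wZp p W) (φ := zpC p) (evC ![a, b] (evO_pair_radical ha hb))
    (evC_C _ _) hX
  rw [pnt_evC W _ (g := MvPowerSeries.X 0) (MvPowerSeries.constantCoeff_X _) ha (evz_X _ _ _ 0),
    pnt_evC W _ (g := MvPowerSeries.X 1) (MvPowerSeries.constantCoeff_X _) hb (evz_X _ _ _ 1)] at h
  exact h.trans (pnt_evC W _ _ _ (by rw [subHom_pair_self]))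

theorem ptC_mulN {a : OC p} (ha : a ∈ (span {(p : OC p)}).radical) (n : ℕ) :
    ptC W (evO_radical (fun _ : Unit => ha) (constantCoeff_mulN (wZp p W) n)) =
      n • ptC W ha := by
  have hX : MvPowerSeries.constantCoeff (MvPowerSeries.X () : MvPowerSeries Unit ℤ_[p]) = 0 :=
    MvPowerSeries.constantCoeff_X ()
  have h := pnt_mulN (wZp p W) (φ := zpC p) (e := evC (fun _ : Unit => a) fun _ => ha)
    (evC_C _ _) hX n
  rw [pnt_evC W _ hX ha (evz_X _ _ _ ())] at h
  rw [← h]
  exact (pnt_evC W _ _ _ (evO_comp1 _ hX ha (evz_X _ _ _ ()) _)).symm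

theorem onCurve_ptC {t : OC p} (ht : t ∈ (span {(p : OC p)}).radical) :
    OnCurve (curveC p W) (t : C)
      ((evO (fun _ : Unit => t) (fun _ => ht) (wSeries (wZp p W)) : OC p) : C) := by
  have hX : MvPowerSeries.constantCoeff (MvPowerSeries.X () : MvPowerSeries Unit ℤ_[p]) = 0 :=
    MvPowerSeries.constantCoeff_X ()
  have h := pnt_onCurve (wZp p W) (φ := zpC p) (evC (fun _ : Unit => t) fun _ => ht)
    (evC_C _ _) hX
  rw [evC, RingHom.comp_apply, RingHom.comp_apply, evz_X, evO_comp1 _ hX ht (evz_X _ _ _ ())] at h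
  exact h

theorem ptC_inj {a b : OC p} (ha : a ∈ (span {(p : OC p)}).radical)
    (hb : b ∈ (span {(p : OC p)}).radical) (h : ptC W ha = ptC W hb) : a = b :=
  Subtype.ext (aff_inj _ (onCurve_ptC W ha) (onCurve_ptC W hb) h).1

theorem ptC_zero : ptC (p := p) W (zero_mem _) = 0 := by
  rw [ptC, evz_zero,
    show MvPowerSeries.constantCoeff (wSeries (wZp p W)) = 0 from constantCoeff_wSeries _, map_zero]
  exact aff_zero _ _

theorem norm_zpC_le (r : ℤ_[p]) : ‖zpC p r‖ ≤ 1 := norm_OC_le _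

/-- Small zeros of the equation with the same `z` coincide. -/
theorem onCurve_unique {z w w' : C} (hz : ‖z‖ < 1) (hw : ‖w‖ < 1) (hw' : ‖w'‖ < 1)
    (h : OnCurve (curveC p W) z w) (h' : OnCurve (curveC p W) z w') : w = w' := by
  refine sub_eq_zero.1 ((mul_eq_zero.1 (h.sub_mul _ h')).resolve_right fun h0 => ?_)
  have hlt : ‖(curveC p W).a₁ * z + (curveC p W).a₂ * z ^ 2 + (curveC p W).a₃ * (w + w') +
      (curveC p W).a₄ * z * (w + w') + (curveC p W).a₆ * (w ^ 2 + w * w' + w' ^ 2)‖ < 1 := by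
    have hc : ∀ r x, ‖x‖ < 1 → ‖zpC p r * x‖ < 1 := fun r x hx => by
      rw [norm_mul]
      exact (mul_le_of_le_one_left (norm_nonneg _) (norm_zpC_le r)).trans_lt hx
    have hadd : ∀ {x y : C}, ‖x‖ < 1 → ‖y‖ < 1 → ‖x + y‖ < 1 := fun hx hy =>
      (IsUltrametricDist.norm_add_le_max _ _).trans_lt (max_lt hx hy)
    have hmul : ∀ {x y : C}, ‖x‖ < 1 → ‖y‖ < 1 → ‖x * y‖ < 1 := fun hx hy => by
      rw [norm_mul]
      exact mul_lt_one_of_nonneg_of_lt_one_left (norm_nonneg _) hx hy.le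
    have hsq : ∀ {x : C}, ‖x‖ < 1 → ‖x ^ 2‖ < 1 := fun hx => by rw [sq]; exact hmul hx hx
    simp only [curveC, WeierstrassCurve.map_a₁, WeierstrassCurve.map_a₂, WeierstrassCurve.map_a₃,
      WeierstrassCurve.map_a₄, WeierstrassCurve.map_a₆]
    exact hadd (hadd (hadd (hadd (hc _ _ hz) (hc _ _ (hsq hz))) (hc _ _ (hadd hw hw')))
      (by rw [mul_assoc]; exact hc _ _ (hmul hz (hadd hw hw'))))
      (hc _ _ (hadd (hadd (hsq hw) (hmul hw hw')) (hsq hw')))
  rw [sub_eq_zero] at h0
  rw [← h0, norm_one] at hlt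
  exact lt_irrefl _ hlt

/-- The size of the coordinates. -/
theorem norm_lt_of_equation {x y : C} (h : (curveC p W).toAffine.Equation x y) (hx : 1 < ‖x‖) :
    ‖x‖ < ‖y‖ := by
  by_contra hle
  rw [not_lt] at hle
  rw [Affine.equation_iff] at h
  have e : x ^ 3 = y ^ 2 + (curveC p W).a₁ * x * y + (curveC p W).a₃ * y -
      (curveC p W).a₂ * x ^ 2 - (curveC p W).a₄ * x - (curveC p W).a₆ := by linear_combination -h
  have h1 : (1 : ℝ) ≤ ‖x‖ ^ 2 := one_le_pow₀ hx.le
  have h2 : ‖x‖ ≤ ‖x‖ ^ 2 := le_self_pow₀ hx.le two_ne_zero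
  have hb : ∀ r z, ‖z‖ ≤ ‖x‖ ^ 2 → ‖zpC p r * z‖ ≤ ‖x‖ ^ 2 := fun r z hz => by
    rw [norm_mul]
    exact (mul_le_of_le_one_left (norm_nonneg _) (norm_zpC_le r)).trans hz
  have hsub : ∀ {a b : C}, ‖a‖ ≤ ‖x‖ ^ 2 → ‖b‖ ≤ ‖x‖ ^ 2 → ‖a - b‖ ≤ ‖x‖ ^ 2 := fun ha hb => by
    rw [sub_eq_add_neg]
    exact (IsUltrametricDist.norm_add_le_max _ _).trans (max_le ha (by rwa [norm_neg]))
  have hadd : ∀ {a b : C}, ‖a‖ ≤ ‖x‖ ^ 2 → ‖b‖ ≤ ‖x‖ ^ 2 → ‖a + b‖ ≤ ‖x‖ ^ 2 := fun ha hb =>
    (IsUltrametricDist.norm_add_le_max _ _).trans (max_le ha hb)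
  have hy2 : ‖y ^ 2‖ ≤ ‖x‖ ^ 2 := by
    rw [norm_pow]
    exact pow_le_pow_left₀ (norm_nonneg _) hle 2
  have hxy : ‖x * y‖ ≤ ‖x‖ ^ 2 := by
    rw [norm_mul, sq]
    exact mul_le_mul_of_nonneg_left hle (norm_nonneg _)
  have h3 : ‖x ^ 3‖ ≤ ‖x‖ ^ 2 := by
    rw [e]
    simp only [curveC, WeierstrassCurve.map_a₁, WeierstrassCurve.map_a₂, WeierstrassCurve.map_a₃,
      WeierstrassCurve.map_a₄, WeierstrassCurve.map_a₆]
    refine hsub (hsub (hsub (hadd (hadd hy2 ?_) (hb _ _ (hle.trans h2)))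
      (hb _ _ (by rw [norm_pow]))) (hb _ _ h2)) ((norm_zpC_le _).trans h1)
    rw [mul_assoc]
    exact hb _ _ hxy
  rw [norm_pow] at h3
  exact not_lt.2 h3 (pow_lt_pow_right₀ hx (by norm_num))

/-- **A point in the kernel of reduction comes from its parameter.** -/
theorem exists_ptC {P : Pts W}
    (hP : E1 (padicPlace p).valuation ((ratCurve W)⁄Qb).toAffine P) :
    ∃ (t : OC p) (ht : t ∈ (span {(p : OC p)}).radical),
      (t : C) = parC W P ∧ mapC W P = ptC W ht := by
  rcases P with _ | ⟨x, y, h⟩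
  · exact ⟨0, zero_mem _, rfl, (map_zero (mapC W)).trans (ptC_zero W).symm⟩
  have hx : 1 < ‖embC p x‖ := one_lt_norm_of_e1 ((e1_some h).1 hP)
  have he : (curveC p W).toAffine.Equation (embC p x) (embC p y) :=
    (nonsingular_mapHom (embC p) (curveC_eq W) h).1
  have hxy := norm_lt_of_equation W he hx
  have hy0 : 0 < ‖embC p y‖ := (zero_lt_one.trans hx).trans hxy
  have ht : ‖-embC p x / embC p y‖ < 1 := by
    rwa [norm_div, norm_neg, div_lt_one hy0]
  set t : OC p := mkOC _ ht.le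
  have htr : t ∈ (span {(p : OC p)}).radical := mem_radical_of_norm ht
  refine ⟨t, htr, rfl, ?_⟩
  set z := -embC p x / embC p y with hz
  set w := -1 / embC p y with hw
  have hy : embC p y ≠ 0 := norm_pos_iff.1 hy0
  have hwz : OnCurve (curveC p W) z w := by
    rw [Affine.equation_iff] at he
    rw [hz, hw, OnCurve]
    field_simp
    linear_combination -he
  have hw0 : w ≠ 0 := div_ne_zero (neg_ne_zero.2 one_ne_zero) hy
  have hwlt : ‖w‖ < 1 := by
    rw [hw, norm_div, norm_neg, norm_one, div_lt_one hy0]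
    exact hx.trans hxy
  have hw' : w = ((evO (fun _ : Unit => t) (fun _ => htr) (wSeries (wZp p W)) : OC p) : C) :=
    onCurve_unique W ht hwlt (norm_lt_of_radical (evO_radical _ (constantCoeff_wSeries _))) hwz
      (onCurve_ptC W htr)
  rw [ptC, ← hw']
  rw [show ((t : OC p) : C) = z from rfl, aff_eq_some _ hwz hw0]
  show Affine.Point.some (embC p x) (embC p y) _ = _
  rw [Affine.Point.some.injEq, hz, hw]
  constructor <;> field_simp

variable {W}

/-- **Supersingular reduction: the torsion of `p`-power order reduces to zero.** -/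
theorem e1_of_supersingular (hg : W.IsGoodPrimeFor p) (ha : (p : ℤ) ∣ W.apOfModel p) (n : ℕ)
    (P : Pts W) (hP : p ^ n • P = 0) :
    E1 (padicPlace p).valuation ((ratCurve W)⁄Qb).toAffine P := by
  refine (FA.PotDR.isGoodEq_self hg).e1_of_pow (fun Q hQ => (redPt_eq_zero_iff hg).1 ?_) n P hP
  have := isElliptic_reductionMod hg
  obtain ⟨b, hb⟩ := ha
  have key : ∀ R : (redP p W).toAffine.Point, p • R = 0 → R = 0 := by
    rw [redP_eq_map]
    intro R hR
    have h := FA.DeuringCriterion.pi_quadratic (W.reductionMod p) (castP p) R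
    rw [← apOfModel, hb, mul_comm (p : ℤ) b, mul_smul, natCast_zsmul, natCast_zsmul, hR,
      ← map_nsmul, hR, map_zero, zsmul_zero, sub_zero, add_zero,
      ← map_zero (FA.DeuringCriterion.pi (W.reductionMod p) (castP p))] at h
    have h' := FA.DeuringCriterion.pi_injective _ _ h
    rw [← map_zero (FA.DeuringCriterion.pi (W.reductionMod p) (castP p))] at h'
    exact FA.DeuringCriterion.pi_injective _ _ h'
  exact key _ (by rw [← map_nsmul, hQ, map_zero])

end FA.SSDR
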