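import Mathlib.RingTheory.MvPowerSeries.Derivative
import Mathlib.RingTheory.MvPowerSeries.Substitution
import Mathlib.RingTheory.MvPowerSeries.Trunc
import Mathlib.RingTheory.PowerSeries.Substitution
import Mathlib.RingTheory.AdicCompletion.Basic
import Mathlib.RingTheory.Finiteness.Ideal

/-!
# Ring homomorphisms out of power series rings in finitely many variables

A homomorphism into an `I`-adically separated ring sending the variables into the radical of `I`
is determined by its values on the constants and the variables. The chain rule follows by the same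
truncations.
-/

set_option autoImplicit false
set_option linter.unusedSectionVars false

noncomputable section

open MvPowerSeries Finsupp

namespace FA.SSDR

variable {σ τ : Type*} [Finite σ] {R : Type*} [CommRing R]

variable (σ R) in
/-- The ideal of the variables. -/
def varIdeal : Ideal (MvPowerSeries σ R) :=
  Ideal.span (Set.range (MvPowerSeries.X : σ → MvPowerSeries σ R))

theorem X_mem_varIdeal (s : σ) : (MvPowerSeries.X s : MvPowerSeries σ R) ∈ varIdeal σ R :=
  Ideal.subset_span ⟨s, rfl⟩

theorem fg_varIdeal : (varIdeal σ R).FG := Submodule.fg_span (Set.finite_range _)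

/-- Series without terms of degree below `N` lie in the `N`-th power of the ideal. -/
theorem mem_varIdeal_pow : ∀ (N : ℕ) (f : MvPowerSeries σ R),
    (∀ d : σ →₀ ℕ, degree d < N → coeff d f = 0) → f ∈ varIdeal σ R ^ N
  | 0, f, _ => by simp
  | N + 1, f, h => by
    classical
    cases nonempty_fintype σ
    let g : σ → MvPowerSeries σ R := fun s e =>
      if hne : (e + single s 1).support.Nonempty then
        (if hne.choose = s then coeff (e + single s 1) f else 0) else 0
    have hg : ∀ s, g s ∈ varIdeal σ R ^ N := fun s => mem_varIdeal_pow N _ fun e he => by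
      show g s e = 0
      have h0 := h (e + single s 1) (by
        have h1 : degree (e + single s 1) = degree e + 1 := by rw [map_add, degree_single]
        omega)
      simp only [g, h0, ite_self]
      split_ifs <;> rfl
    have hf : f = ∑ s, MvPowerSeries.X s * g s := by
      ext d
      rw [map_sum]
      have e1 : ∀ s, coeff d (MvPowerSeries.X s * g s) =
          if single s 1 ≤ d then g s (d - single s 1) else 0 := fun s => by
        rw [MvPowerSeries.X, coeff_monomial_mul, one_mul]
        rfl
      simp only [e1]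
      rcases eq_or_ne d 0 with rfl | hd
      · rw [h 0 (by simp), Finset.sum_eq_zero]
        intro s _
        rw [if_neg]
        intro hle
        have := hle s
        simp at this
      have hne : d.support.Nonempty := support_nonempty_iff.2 hd
      rw [Finset.sum_eq_single hne.choose]
      · have hle : single hne.choose 1 ≤ d := Finsupp.single_le_iff.2
          (Nat.one_le_iff_ne_zero.2 (mem_support_iff.1 hne.choose_spec))
        rw [if_pos hle]
        simp only [g, tsub_add_cancel_of_le hle]
        rw [dif_pos hne]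
        simp
      · intro s _ hs
        by_cases hle : single s 1 ≤ d
        · rw [if_pos hle]
          simp only [g, tsub_add_cancel_of_le hle]
          rw [dif_pos hne, if_neg (Ne.symm hs)]
        · rw [if_neg hle]
      · intro hh
        exact absurd (Finset.mem_univ _) hh
    rw [hf]
    refine sum_mem fun s _ => ?_
    rw [pow_succ']
    exact Ideal.mul_mem_mul (X_mem_varIdeal s) (hg s)

theorem coeff_eq_zero_of_mem : ∀ {N : ℕ} {f : MvPowerSeries σ R}, f ∈ varIdeal σ R ^ N →
    ∀ d : σ →₀ ℕ, degree d < N → coeff d f = 0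
  | 0, _, _, d, hd => absurd hd (Nat.not_lt_zero _)
  | N + 1, f, hf, d, hd => by
    classical
    rw [pow_succ'] at hf
    refine Submodule.mul_induction_on hf (fun a ha b hb => ?_)
      (fun a b ha hb => by rw [map_add, ha, hb, add_zero])
    rw [coeff_mul]
    refine Finset.sum_eq_zero fun x hx => ?_
    rcases eq_or_ne x.1 0 with h0 | h0
    · have ha0 : constantCoeff a = 0 := by
        refine Submodule.span_induction ?_ (map_zero _) (fun u v _ _ hu hv => by
          rw [map_add, hu, hv, add_zero]) (fun c u _ hu => by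
            rw [smul_eq_mul, map_mul, hu, mul_zero]) ha
        rintro _ ⟨s, rfl⟩
        exact constantCoeff_X s
      rw [h0, coeff_zero_eq_constantCoeff_apply, ha0, zero_mul]
    · rw [coeff_eq_zero_of_mem hb x.2 ?_, mul_zero]
      have h1 : degree x.1 + degree x.2 = degree d := by
        rw [← map_add, Finset.HasAntidiagonal.mem_antidiagonal.1 hx]
      have h2 : degree x.1 ≠ 0 := fun h => h0 ((degree_eq_zero_iff _).1 h)
      omega

theorem constantCoeff_eq_zero_of_mem {f : MvPowerSeries σ R} (hf : f ∈ varIdeal σ R) :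
    constantCoeff f = 0 := by
  rw [← coeff_zero_eq_constantCoeff_apply]
  exact coeff_eq_zero_of_mem (N := 1) (by rwa [pow_one]) 0 (by simp)

theorem mem_varIdeal {f : MvPowerSeries σ R} (hf : constantCoeff f = 0) : f ∈ varIdeal σ R := by
  rw [← pow_one (varIdeal σ R)]
  refine mem_varIdeal_pow 1 f fun d hd => ?_
  rw [(degree_eq_zero_iff d).1 (by omega), coeff_zero_eq_constantCoeff_apply, hf]

theorem eq_zero_of_forall_mem {f : MvPowerSeries σ R} (h : ∀ N, f ∈ varIdeal σ R ^ N) : f = 0 :=
  MvPowerSeries.ext fun d => by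
    rw [coeff_eq_zero_of_mem (h (degree d + 1)) d (Nat.lt_succ_self _), map_zero]

theorem sub_truncTotal_mem (f : MvPowerSeries σ R) (N : ℕ) :
    f - (truncTotal N f : MvPowerSeries σ R) ∈ varIdeal σ R ^ N :=
  mem_varIdeal_pow N _ fun d hd => by
    rw [map_sub, MvPolynomial.coeff_coe, coeff_truncTotal _ hd, sub_self]

theorem exists_poly_add (f : MvPowerSeries σ R) (N : ℕ) :
    ∃ (P : MvPolynomial σ R) (g : MvPowerSeries σ R),
      g ∈ varIdeal σ R ^ N ∧ f = (P : MvPowerSeries σ R) + g :=
  ⟨truncTotal N f, _, sub_truncTotal_mem f N, (add_sub_cancel _ _).symm⟩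

/-- **Uniqueness of evaluation.** -/
theorem hom_ext {A : Type*} [CommRing A] (I : Ideal A) [IsHausdorff I A]
    {e e' : MvPowerSeries σ R →+* A} (hC : ∀ r, e (MvPowerSeries.C r) = e' (MvPowerSeries.C r))
    (hX : ∀ s, e (MvPowerSeries.X s) = e' (MvPowerSeries.X s))
    (hr : ∀ s, e (MvPowerSeries.X s) ∈ I.radical) : e = e' := by
  refine RingHom.ext fun f => ?_
  obtain ⟨M, hM⟩ := Ideal.exists_pow_le_of_le_radical_of_fg (I := (varIdeal σ R).map e) (J := I)
    (Ideal.map_le_iff_le_comap.2 (Ideal.span_le.2 (by rintro _ ⟨s, rfl⟩; exact hr s)))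
    (fg_varIdeal.map e)
  have hM' : ((varIdeal σ R).map e') ^ M ≤ I := by
    rwa [varIdeal, Ideal.map_span, ← Set.range_comp,
      show (⇑e' ∘ MvPowerSeries.X : σ → A) = ⇑e ∘ MvPowerSeries.X from
        funext fun s => (hX s).symm, Set.range_comp, ← Ideal.map_span, ← varIdeal]
  rw [← sub_eq_zero]
  refine IsHausdorff.haus ‹IsHausdorff I A› _ fun n => ?_
  rw [SModEq.zero, smul_eq_mul, Ideal.mul_top]
  obtain ⟨P, g, hg, rfl⟩ := exists_poly_add f (M * n)
  have hP : e (P : MvPowerSeries σ R) = e' (P : MvPowerSeries σ R) :=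
    RingHom.congr_fun (MvPolynomial.ringHom_ext
      (f := e.comp MvPolynomial.coeToMvPowerSeries.ringHom)
      (g := e'.comp MvPolynomial.coeToMvPowerSeries.ringHom)
      (fun r => by simpa using hC r) fun s => by simpa using hX s) P
  have hmem : ∀ q : MvPowerSeries σ R →+* A, ((varIdeal σ R).map q) ^ M ≤ I →
      q g ∈ I ^ n := fun q hq => by
    have h1 : q g ∈ (varIdeal σ R ^ (M * n)).map q := Ideal.mem_map_of_mem q hg
    rw [Ideal.map_pow, pow_mul] at h1
    exact Ideal.pow_right_mono hq n h1
  rw [map_add, map_add, hP, add_sub_add_left_eq_sub]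
  exact sub_mem (hmem e hM) (hmem e' hM')

/-- The value of a series without constant term lies in the ideal of those of the variables. -/
theorem apply_mem {A : Type*} [CommRing A] (e : MvPowerSeries σ R →+* A) {I : Ideal A}
    (h : ∀ s, e (MvPowerSeries.X s) ∈ I) {f : MvPowerSeries σ R} (hf : constantCoeff f = 0) :
    e f ∈ I :=
  (Ideal.map_le_iff_le_comap.2 (Ideal.span_le.2 (by rintro _ ⟨s, rfl⟩; exact h s)) :
    (varIdeal σ R).map e ≤ I) (Ideal.mem_map_of_mem e (mem_varIdeal hf))

/-- Substitution as a homomorphism of rings. -/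
def subHom {g : σ → MvPowerSeries τ R} (hg : ∀ s, constantCoeff (g s) = 0) :
    MvPowerSeries σ R →+* MvPowerSeries τ R :=
  (substAlgHom (R := R) (hasSubst_of_constantCoeff_zero hg)).toRingHom

theorem subHom_apply {g : σ → MvPowerSeries τ R} (hg : ∀ s, constantCoeff (g s) = 0)
    (f : MvPowerSeries σ R) : subHom hg f = f.subst g :=
  substAlgHom_apply _ f

theorem subHom_X {g : σ → MvPowerSeries τ R} (hg : ∀ s, constantCoeff (g s) = 0) (s : σ) :
    subHom hg (MvPowerSeries.X s) = g s := by
  rw [subHom_apply, subst_X (hasSubst_of_constantCoeff_zero hg)]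

theorem subHom_C {g : σ → MvPowerSeries τ R} (hg : ∀ s, constantCoeff (g s) = 0) (r : R) :
    subHom hg (MvPowerSeries.C r) = MvPowerSeries.C r := by
  rw [subHom_apply, subst_C]

/-- The constant term is unchanged by substitution. -/
theorem constantCoeff_subHom {g : σ → MvPowerSeries τ R} (hg : ∀ s, constantCoeff (g s) = 0)
    (f : MvPowerSeries σ R) : constantCoeff (subHom hg f) = constantCoeff f := by
  have : IsHausdorff (⊥ : Ideal R) R := inferInstance
  exact RingHom.congr_fun (hom_ext (⊥ : Ideal R)
    (e := (constantCoeff (σ := τ) (R := R)).comp (subHom hg))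
    (e' := constantCoeff (σ := σ) (R := R))
    (fun r => by rw [RingHom.comp_apply, subHom_C, constantCoeff_C, constantCoeff_C])
    (fun s => by rw [RingHom.comp_apply, subHom_X, hg, constantCoeff_X])
    fun s => by rw [RingHom.comp_apply, subHom_X, hg]; exact Ideal.zero_mem _) f

theorem subHom_mem_pow [Finite τ] {g : σ → MvPowerSeries τ R}
    (hg : ∀ s, constantCoeff (g s) = 0) {f : MvPowerSeries σ R} {N : ℕ}
    (hf : f ∈ varIdeal σ R ^ N) : subHom hg f ∈ varIdeal τ R ^ N := by
  have h : (varIdeal σ R).map (subHom hg) ≤ varIdeal τ R :=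
    Ideal.map_le_iff_le_comap.2 (Ideal.span_le.2 (by
      rintro _ ⟨s, rfl⟩
      show subHom hg (MvPowerSeries.X s) ∈ varIdeal τ R
      rw [subHom_X]
      exact mem_varIdeal (hg s)))
  have h1 := Ideal.mem_map_of_mem (subHom hg) hf
  rw [Ideal.map_pow] at h1
  exact Ideal.pow_right_mono h N h1

theorem pderiv_mem_pow (s : σ) {f : MvPowerSeries σ R} {N : ℕ} (hf : f ∈ varIdeal σ R ^ N) :
    pderiv R s f ∈ varIdeal σ R ^ (N - 1) := by
  refine mem_varIdeal_pow _ _ fun d hd => ?_
  have h1 : degree (d + single s 1) < N := by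
    rw [map_add, degree_single]
    omega
  rw [coeff_pderiv, coeff_eq_zero_of_mem hf _ h1, zero_mul]

/-- **The chain rule.** -/
theorem pderiv_subHom [Fintype σ] [Finite τ] {g : σ → MvPowerSeries τ R}
    (hg : ∀ s, constantCoeff (g s) = 0) (t : τ) (f : MvPowerSeries σ R) :
    pderiv R t (subHom hg f) = ∑ s, subHom hg (pderiv R s f) * pderiv R t (g s) := by
  rw [← sub_eq_zero]
  refine eq_zero_of_forall_mem fun N => ?_
  obtain ⟨P, q, hq, rfl⟩ := exists_poly_add f (N + 1)
  have hP : pderiv R t (subHom hg (P : MvPowerSeries σ R)) =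
      ∑ s, subHom hg (pderiv R s (P : MvPowerSeries σ R)) * pderiv R t (g s) := by
    induction P using MvPolynomial.induction_on with
    | C r => simp [MvPolynomial.coe_C, subHom_C]
    | add a b ha hb =>
      simp only [MvPolynomial.coe_add, map_add, ha, hb, add_mul, Finset.sum_add_distrib]
    | mul_X a i ha =>
      classical
      rw [MvPolynomial.coe_mul, MvPolynomial.coe_X, map_mul, Derivation.leibniz, ha, subHom_X]
      simp only [Derivation.leibniz, pderiv_X, smul_eq_mul, map_add, map_mul, subHom_X, add_mul,
        Finset.sum_add_distrib, Finset.mul_sum]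
      congr 1
      · rw [Finset.sum_eq_single i]
        · rw [Pi.single_eq_same, map_one, mul_one]
        · intro s _ hs
          rw [Pi.single_eq_of_ne hs.symm, map_zero, mul_zero, zero_mul]
        · intro h; exact absurd (Finset.mem_univ i) h
      · exact Finset.sum_congr rfl fun s _ => by ring
  have h1 : pderiv R t (subHom hg q) ∈ varIdeal τ R ^ N :=
    pderiv_mem_pow t (subHom_mem_pow hg hq)
  have h2 : ∀ s, subHom hg (pderiv R s q) * pderiv R t (g s) ∈ varIdeal τ R ^ N := fun s =>
    Ideal.mul_mem_right _ _ (subHom_mem_pow hg (pderiv_mem_pow s hq))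
  simp only [map_add, add_mul, Finset.sum_add_distrib, hP, add_sub_add_left_eq_sub]
  exact sub_mem h1 (sum_mem fun s _ => h2 s)

end FA.SSDR
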