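import Fermat.Agent.SupersingularDeRham.Points

/-!
# Lifts of the Tate module

A vector of the Tate module gives a system of parameters compatible under multiplication by `p`,
hence a canonical system in `A_inf`; the construction is additive and commutes with Galois.
-/

set_option autoImplicit false
set_option linter.unusedSectionVars false
set_option linter.style.haveILetI false

noncomputable section

open Ideal WeierstrassCurve FA.TateSen FA.BDR FA.BDRCoh FA.Frob FA.EC FA.Local FA.RT.Tate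
  FA.OrdDR
open scoped WeierstrassCurve.Affine Classical Matrix

namespace FA.SSDR

attribute [local irreducible] fgAdd wSeries mulN

variable {p : ℕ} [hp : Fact p.Prime] {W : WeierstrassCurve ℤ} [(ratCurve W).IsElliptic]

local notation "G" => PadicAlgCl p ≃ₐ[ℚ_[p]] PadicAlgCl p

variable (p W) in
/-- Good supersingular reduction at `p`. -/
def IsSupersingularAt : Prop := W.IsGoodPrimeFor p ∧ (p : ℤ) ∣ W.apOfModel p

theorem IsSupersingularAt.Δ_ne_zero (hs : IsSupersingularAt p W) : W.Δ ≠ 0 :=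
  Δ_ne_zero_of_good hs.1

variable (hs : IsSupersingularAt p W) (B : TateBasis p W)

theorem exists_tPar (v : Fin 2 → ℤ_[p]) (n : ℕ) :
    IsSupersingularAt p W → ∃ (t : OC p) (ht : t ∈ (span {(p : OC p)}).radical),
      (t : ℂ_[p]) = parC W (B.φ n v) ∧ mapC W (B.φ n v) = ptC W ht := fun h =>
  exists_ptC W (e1_of_supersingular h.1 h.2 n _ (B.nsmul_phi n v))

/-- The parameter of the point of level `n`. -/
def tPar (v : Fin 2 → ℤ_[p]) (n : ℕ) : OC p := (exists_tPar B v n hs).choose

theorem tPar_radical (v : Fin 2 → ℤ_[p]) (n : ℕ) :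
    tPar hs B v n ∈ (span {(p : OC p)}).radical :=
  (exists_tPar B v n hs).choose_spec.choose

theorem coe_tPar (v : Fin 2 → ℤ_[p]) (n : ℕ) :
    (tPar hs B v n : ℂ_[p]) = parC W (B.φ n v) :=
  (exists_tPar B v n hs).choose_spec.choose_spec.1

theorem ptC_tPar (v : Fin 2 → ℤ_[p]) (n : ℕ) :
    mapC W (B.φ n v) = ptC W (tPar_radical hs B v n) :=
  (exists_tPar B v n hs).choose_spec.choose_spec.2

theorem tPar_zero (v : Fin 2 → ℤ_[p]) : tPar hs B v 0 = 0 :=
  Subtype.ext ((coe_tPar hs B v 0).trans (by rw [B.phi_zero_level]; rfl))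

theorem tPar_compat (v : Fin 2 → ℤ_[p]) (n : ℕ) :
    evO (fun _ : Unit => tPar hs B v (n + 1)) (fun _ => tPar_radical hs B v (n + 1))
      (mulN (wZp p W) p) = tPar hs B v n :=
  ptC_inj W (evO_radical _ (constantCoeff_mulN _ _)) (tPar_radical hs B v n) (by
    rw [ptC_mulN W (tPar_radical hs B v (n + 1)) p, ← ptC_tPar, ← ptC_tPar, ← map_nsmul,
      B.compat])

theorem tPar_add (v w : Fin 2 → ℤ_[p]) (n : ℕ) :
    evO ![tPar hs B v n, tPar hs B w n]
      (evO_pair_radical (tPar_radical hs B v n) (tPar_radical hs B w n)) (fgAdd (wZp p W)) =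
      tPar hs B (v + w) n :=
  ptC_inj W (evO_radical _ (constantCoeff_fgAdd _)) (tPar_radical hs B _ n) (by
    rw [← ptC_add W (tPar_radical hs B v n) (tPar_radical hs B w n), ← ptC_tPar, ← ptC_tPar,
      ← ptC_tPar, ← map_add, map_add (B.φ n)])

theorem galO_tPar (g : G) (v : Fin 2 → ℤ_[p]) (n : ℕ) :
    galO g (tPar hs B v n) = tPar hs B (B.rep (localGaloisToGlobal p g) *ᵥ v) n :=
  Subtype.ext (by rw [coe_galO, coe_tPar, coe_tPar, ← parC_smul, B.rep_spec])

/-- The canonical lifts of the parameters. -/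
def zeta (v : Fin 2 → ℤ_[p]) : ℕ → AInf p :=
  (exists_isLiftSys W hs.Δ_ne_zero (tPar_radical hs B v) (tPar_compat hs B v)).choose

theorem isLiftSys_zeta (v : Fin 2 → ℤ_[p]) : IsLiftSys W (zeta hs B v) :=
  (exists_isLiftSys W hs.Δ_ne_zero (tPar_radical hs B v) (tPar_compat hs B v)).choose_spec.1

theorem theta_zeta (v : Fin 2 → ℤ_[p]) (n : ℕ) : theta p (zeta hs B v n) = tPar hs B v n :=
  (exists_isLiftSys W hs.Δ_ne_zero (tPar_radical hs B v) (tPar_compat hs B v)).choose_spec.2 n

theorem zeta_radical (v : Fin 2 → ℤ_[p]) (n : ℕ) : zeta hs B v n ∈ (defIdeal p).radical :=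
  (isLiftSys_zeta hs B v).rad n

theorem theta_zeta_zero (v : Fin 2 → ℤ_[p]) : theta p (zeta hs B v 0) = 0 := by
  rw [theta_zeta, tPar_zero]

theorem zeta_add (v w : Fin 2 → ℤ_[p]) (n : ℕ) :
    zeta hs B (v + w) n = addA W (zeta_radical hs B v n) (zeta_radical hs B w n) := by
  refine congrFun ((isLiftSys_zeta hs B (v + w)).ext W hs.Δ_ne_zero
    ((isLiftSys_zeta hs B v).addA W hs.Δ_ne_zero (isLiftSys_zeta hs B w)) fun k => ?_) n
  rw [theta_zeta, addA, theta_evA, ← tPar_add]
  refine evz_congr _ _ _ (funext (Fin.forall_fin_two.2 ⟨?_, ?_⟩)) _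
  · exact (theta_zeta hs B v k).symm
  · exact (theta_zeta hs B w k).symm

theorem ainfGal_zeta (g : G) (v : Fin 2 → ℤ_[p]) (n : ℕ) :
    ainfGal g (zeta hs B v n) = zeta hs B (B.rep (localGaloisToGlobal p g) *ᵥ v) n :=
  congrFun (((isLiftSys_zeta hs B v).gal W g).ext W hs.Δ_ne_zero (isLiftSys_zeta hs B _)
    fun k => by rw [theta_ainfGal, theta_zeta, theta_zeta, galO_tPar]) n

end FA.SSDR
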