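import Fermat.Agent.SupersingularDeRham.Series
import Fermat.Agent.SupersingularDeRham.Chord
import Mathlib.RingTheory.MvPowerSeries.Inverse
import Mathlib.RingTheory.PowerSeries.Inverse

/-!
# The expansion of `w = -1/y` in `z = -x/y`

The series `w` is the fixed point of a contraction, so it is the only series without constant term
which satisfies the equation. The divided differences of a series in one variable are also here.
-/

set_option autoImplicit false
set_option linter.unusedSectionVars false

noncomputable section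

open Finsupp WeierstrassCurve

namespace FA.SSDR

variable {σ τ : Type*} [Finite σ] [Finite τ] {R : Type*} [CommRing R]

instance isHausdorff_varIdeal : IsHausdorff (varIdeal σ R) (MvPowerSeries σ R) where
  haus' x hx := eq_zero_of_forall_mem fun n => by
    have h := hx n
    rwa [SModEq.zero, smul_eq_mul, Ideal.mul_top] at h

theorem isUnit_of_constantCoeff {f : MvPowerSeries σ R}
    (h : MvPowerSeries.constantCoeff f = 1) : IsUnit f :=
  MvPowerSeries.isUnit_iff_constantCoeff.2 (h ▸ isUnit_one)

/-- The inverse of a series with constant term one. -/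
def inv1 (f : MvPowerSeries σ R) : MvPowerSeries σ R := MvPowerSeries.invOfUnit f 1

theorem mul_inv1 {f : MvPowerSeries σ R} (h : MvPowerSeries.constantCoeff f = 1) :
    f * inv1 f = 1 :=
  MvPowerSeries.mul_invOfUnit f 1 (by rw [h, Units.val_one])

theorem constantCoeff_inv1 (f : MvPowerSeries σ R) :
    MvPowerSeries.constantCoeff (inv1 f) = 1 := by
  rw [inv1, MvPowerSeries.constantCoeff_invOfUnit, inv_one, Units.val_one]

theorem subHom_subHom {υ : Type*} [Finite υ] {g : σ → MvPowerSeries τ R}
    (hg : ∀ s, MvPowerSeries.constantCoeff (g s) = 0) {h : τ → MvPowerSeries υ R}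
    (hh : ∀ t, MvPowerSeries.constantCoeff (h t) = 0) {k : σ → MvPowerSeries υ R}
    (hk : ∀ s, MvPowerSeries.constantCoeff (k s) = 0) (e : ∀ s, subHom hh (g s) = k s)
    (f : MvPowerSeries σ R) : subHom hh (subHom hg f) = subHom hk f :=
  RingHom.congr_fun (hom_ext (varIdeal υ R)
    (e := (subHom hh).comp (subHom hg)) (e' := subHom hk)
    (fun r => by rw [RingHom.comp_apply, subHom_C, subHom_C, subHom_C])
    (fun s => by rw [RingHom.comp_apply, subHom_X, e, subHom_X])
    fun s => Ideal.le_radical (by
      rw [RingHom.comp_apply, subHom_X, e]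
      exact mem_varIdeal (hk s))) f

/-- Substitution of one series into a series in one variable. -/
def comp1 {g : MvPowerSeries σ R} (hg : MvPowerSeries.constantCoeff g = 0) :
    PowerSeries R →+* MvPowerSeries σ R :=
  subHom (g := fun _ : Unit => g) fun _ => hg

theorem comp1_X {g : MvPowerSeries σ R} (hg : MvPowerSeries.constantCoeff g = 0) :
    comp1 hg PowerSeries.X = g := subHom_X (g := fun _ : Unit => g) (fun _ => hg) ()

theorem comp1_C {g : MvPowerSeries σ R} (hg : MvPowerSeries.constantCoeff g = 0) (r : R) :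
    comp1 hg (PowerSeries.C r) = MvPowerSeries.C r :=
  subHom_C (g := fun _ : Unit => g) (fun _ => hg) r

theorem comp1_apply {g : MvPowerSeries σ R} (hg : MvPowerSeries.constantCoeff g = 0)
    (f : PowerSeries R) : comp1 hg f = PowerSeries.subst g f :=
  subHom_apply (g := fun _ : Unit => g) (fun _ => hg) f

theorem constantCoeff_comp1 {g : MvPowerSeries σ R} (hg : MvPowerSeries.constantCoeff g = 0)
    (f : PowerSeries R) :
    MvPowerSeries.constantCoeff (comp1 hg f) = PowerSeries.constantCoeff f :=
  constantCoeff_subHom _ f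

theorem comp1_congr {g g' : MvPowerSeries σ R} (hg : MvPowerSeries.constantCoeff g = 0)
    (e : g = g') (f : PowerSeries R) : comp1 hg f = comp1 (e ▸ hg) f := by
  subst e
  rfl

theorem subHom_comp1 {g : MvPowerSeries σ R} (hg : MvPowerSeries.constantCoeff g = 0)
    {h : σ → MvPowerSeries τ R} (hh : ∀ s, MvPowerSeries.constantCoeff (h s) = 0)
    {k : MvPowerSeries τ R} (hk : MvPowerSeries.constantCoeff k = 0) (e : subHom hh g = k)
    (f : PowerSeries R) : subHom hh (comp1 hg f) = comp1 hk f :=
  subHom_subHom _ hh _ (fun _ => e) f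

/-- The divided difference of a series in one variable. -/
def divDiff (f : PowerSeries R) : MvPowerSeries (Fin 2) R :=
  fun d => PowerSeries.coeff (d 0 + d 1 + 1) f

theorem coeff_comp1_X (i : σ) (f : PowerSeries R) (d : σ →₀ ℕ) [Decidable (single i (d i) = d)] :
    MvPowerSeries.coeff d (comp1 (MvPowerSeries.constantCoeff_X i) f) =
      if single i (d i) = d then PowerSeries.coeff (d i) f else 0 := by
  classical
  rw [comp1_apply, PowerSeries.coeff_subst (PowerSeries.HasSubst.X i)]
  split_ifs with h
  · rw [finsum_eq_single _ (d i)]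
    · rw [MvPowerSeries.coeff_X_pow, if_pos h.symm, smul_eq_mul, mul_one]
    · intro k hk
      rw [MvPowerSeries.coeff_X_pow, if_neg, smul_zero]
      intro e
      apply hk
      rw [e, single_eq_same]
  · refine finsum_eq_zero_of_forall_eq_zero fun k => ?_
    rw [MvPowerSeries.coeff_X_pow, if_neg, smul_zero]
    intro e
    exact h (by rw [e, single_eq_same])

theorem sub_mul_divDiff (f : PowerSeries R) :
    (MvPowerSeries.X 0 - MvPowerSeries.X 1) * divDiff f =
      comp1 (MvPowerSeries.constantCoeff_X (0 : Fin 2)) f -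
        comp1 (MvPowerSeries.constantCoeff_X (1 : Fin 2)) f := by
  classical
  ext d
  rw [sub_mul, map_sub, map_sub, coeff_comp1_X, coeff_comp1_X, MvPowerSeries.X, MvPowerSeries.X,
    MvPowerSeries.coeff_monomial_mul, MvPowerSeries.coeff_monomial_mul, one_mul, one_mul]
  have hle : ∀ i : Fin 2, single i 1 ≤ d ↔ d i ≠ 0 := fun i => by
    rw [Finsupp.single_le_iff, Nat.one_le_iff_ne_zero]
  have hs0 : single 0 (d 0) = d ↔ d 1 = 0 := by
    constructor
    · intro h; rw [← h]; simp
    · intro h; ext j; fin_cases j <;> simp [h]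
  have hs1 : single 1 (d 1) = d ↔ d 0 = 0 := by
    constructor
    · intro h; rw [← h]; simp
    · intro h; ext j; fin_cases j <;> simp [h]
  simp only [hle, hs0, hs1, MvPowerSeries.coeff_apply, divDiff, Finsupp.coe_tsub, Pi.sub_apply,
    single_apply]
  by_cases h0 : d 0 = 0 <;> by_cases h1 : d 1 = 0
  · simp [h0, h1]
  · simp only [h0, h1, ne_eq, not_true_eq_false, not_false_eq_true, if_false, if_true]
    norm_num
    rw [Nat.sub_add_cancel (Nat.one_le_iff_ne_zero.2 h1)]
  · simp only [h0, h1, ne_eq, not_true_eq_false, not_false_eq_true, if_false, if_true]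
    norm_num
    rw [Nat.sub_add_cancel (Nat.one_le_iff_ne_zero.2 h0)]
  · simp only [h0, h1, ne_eq, not_false_eq_true, if_false, if_true]
    norm_num
    rw [show d 0 - 1 + d 1 + 1 = d 0 + (d 1 - 1) + 1 by omega, sub_self]

section WSeries

variable (W : WeierstrassCurve R)

/-- The right hand side of the equation as a map of series. -/
def wStep (u : PowerSeries R) : PowerSeries R :=
  PowerSeries.X ^ 3 + PowerSeries.C W.a₁ * PowerSeries.X * u +
    PowerSeries.C W.a₂ * PowerSeries.X ^ 2 * u + PowerSeries.C W.a₃ * u ^ 2 +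
    PowerSeries.C W.a₄ * PowerSeries.X * u ^ 2 + PowerSeries.C W.a₆ * u ^ 3

theorem wStep_sub {u v : PowerSeries R} {k : ℕ} (hu : PowerSeries.X ∣ u) (hv : PowerSeries.X ∣ v)
    (h : PowerSeries.X ^ k ∣ u - v) : PowerSeries.X ^ (k + 1) ∣ wStep W u - wStep W v := by
  have e : wStep W u - wStep W v = (u - v) *
      (PowerSeries.C W.a₁ * PowerSeries.X + PowerSeries.C W.a₂ * PowerSeries.X ^ 2 +
        PowerSeries.C W.a₃ * (u + v) + PowerSeries.C W.a₄ * PowerSeries.X * (u + v) +
        PowerSeries.C W.a₆ * (u * (u + v) + v * v)) := by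
    simp only [wStep]
    ring
  rw [e, pow_succ]
  refine mul_dvd_mul h ?_
  refine dvd_add (dvd_add (dvd_add (dvd_add (dvd_mul_left _ _)
    (dvd_mul_of_dvd_right (dvd_pow_self _ two_ne_zero) _))
    (dvd_mul_of_dvd_right (dvd_add hu hv) _)) ?_) ?_
  · exact dvd_mul_of_dvd_left (dvd_mul_left _ _) _
  · exact dvd_mul_of_dvd_right (dvd_add (hu.mul_right _) (hv.mul_right _)) _

theorem X_dvd_wStep_iterate : ∀ n : ℕ, PowerSeries.X ∣ (wStep W)^[n] 0
  | 0 => by simp
  | n + 1 => by
    rw [Function.iterate_succ_apply', PowerSeries.X_dvd_iff]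
    have h := PowerSeries.X_dvd_iff.1 (X_dvd_wStep_iterate n)
    simp [wStep, h]

theorem X_pow_dvd_iterate_sub :
    ∀ n : ℕ, PowerSeries.X ^ (n + 1) ∣ (wStep W)^[n + 1] 0 - (wStep W)^[n] 0
  | 0 => by
    rw [Function.iterate_succ_apply', Function.iterate_zero_apply, sub_zero, zero_add, pow_one]
    exact X_dvd_wStep_iterate W 1
  | n + 1 => by
    have h := wStep_sub W (X_dvd_wStep_iterate W (n + 1)) (X_dvd_wStep_iterate W n)
      (X_pow_dvd_iterate_sub n)
    rwa [← Function.iterate_succ_apply' (wStep W) (n + 1),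
      ← Function.iterate_succ_apply' (wStep W) n] at h

/-- The series `w`. -/
def wSeries : PowerSeries R :=
  PowerSeries.mk fun k => PowerSeries.coeff k ((wStep W)^[k] 0)

theorem coeff_iterate {k n : ℕ} (h : k ≤ n) :
    PowerSeries.coeff k ((wStep W)^[n] 0) = PowerSeries.coeff k ((wStep W)^[k] 0) := by
  induction n, h using Nat.le_induction with
  | base => rfl
  | succ n hn ih =>
    rw [← ih, ← sub_eq_zero, ← map_sub]
    exact PowerSeries.X_pow_dvd_iff.1 (X_pow_dvd_iterate_sub W n) k (Nat.lt_succ_of_le hn)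

theorem X_pow_dvd_wSeries_sub (n : ℕ) : PowerSeries.X ^ n ∣ wSeries W - (wStep W)^[n] 0 :=
  PowerSeries.X_pow_dvd_iff.2 fun k hk => by
    rw [map_sub, wSeries, PowerSeries.coeff_mk, coeff_iterate W hk.le, sub_self]

theorem constantCoeff_wSeries : PowerSeries.constantCoeff (wSeries W) = 0 := by
  rw [← PowerSeries.coeff_zero_eq_constantCoeff_apply, wSeries, PowerSeries.coeff_mk,
    Function.iterate_zero_apply, map_zero]

/-- **The equation of `w`.** -/
theorem wStep_wSeries : wStep W (wSeries W) = wSeries W := by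
  refine sub_eq_zero.1 (PowerSeries.ext fun k => ?_)
  rw [map_zero]
  have h1 : PowerSeries.X ^ (k + 1 + 1) ∣ wStep W (wSeries W) - (wStep W)^[k + 1 + 1] 0 := by
    rw [Function.iterate_succ_apply']
    exact wStep_sub W (PowerSeries.X_dvd_iff.2 (constantCoeff_wSeries W))
      (X_dvd_wStep_iterate W _) (X_pow_dvd_wSeries_sub W (k + 1))
  have h2 : PowerSeries.X ^ (k + 1 + 1) ∣ wStep W (wSeries W) - wSeries W := by
    have := dvd_sub h1 (X_pow_dvd_wSeries_sub W (k + 1 + 1))
    rwa [sub_sub_sub_cancel_right] at this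
  exact PowerSeries.X_pow_dvd_iff.1 h2 k (by omega)

theorem onCurve_wSeries :
    OnCurve (W.map (PowerSeries.C (R := R))) PowerSeries.X (wSeries W) := by
  have h := (wStep_wSeries W).symm
  simpa [OnCurve, wStep] using h

/-- **`w = z ^ 3 (1 + ⋯)`.** -/
theorem exists_wSeries_eq : ∃ u : PowerSeries R,
    wSeries W = PowerSeries.X ^ 3 * u ∧ PowerSeries.constantCoeff u = 1 := by
  set w := wSeries W
  set den : PowerSeries R := 1 - PowerSeries.C W.a₁ * PowerSeries.X -
    PowerSeries.C W.a₂ * PowerSeries.X ^ 2 - PowerSeries.C W.a₃ * w -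
    PowerSeries.C W.a₄ * PowerSeries.X * w - PowerSeries.C W.a₆ * w ^ 2
  have hw : PowerSeries.constantCoeff w = 0 := constantCoeff_wSeries W
  have hden : MvPowerSeries.constantCoeff den = 1 := by
    show PowerSeries.constantCoeff den = 1
    simp [den, hw]
  refine ⟨inv1 den, ?_, constantCoeff_inv1 den⟩
  have h1 : w * den = PowerSeries.X ^ 3 := by
    have h2 := wStep_wSeries W
    rw [wStep] at h2
    linear_combination -h2
  rw [← h1, mul_assoc, mul_inv1 hden, mul_one]

/-- **Uniqueness of `w`.** -/
theorem eq_comp1_wSeries {z w : MvPowerSeries σ R}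
    (hz : MvPowerSeries.constantCoeff z = 0) (hw : MvPowerSeries.constantCoeff w = 0)
    (h : OnCurve (W.map (MvPowerSeries.C (σ := σ) (R := R))) z w) :
    w = comp1 hz (wSeries W) := by
  have h' := (onCurve_wSeries W).map _ (comp1 hz)
  have hcomp : (comp1 hz).comp (PowerSeries.C (R := R)) = MvPowerSeries.C :=
    RingHom.ext fun r => comp1_C hz r
  rw [WeierstrassCurve.map_map, hcomp, comp1_X] at h'
  have h2 := h.sub_mul _ h'
  have hc : MvPowerSeries.constantCoeff (comp1 hz (wSeries W)) = 0 := by
    rw [constantCoeff_comp1, constantCoeff_wSeries]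
  refine sub_eq_zero.1 ((IsUnit.mul_left_eq_zero ?_).1 h2)
  exact isUnit_of_constantCoeff (by simp [hz, hw, hc])

end WSeries

end FA.SSDR
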